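import Fermat.Agent.S28.Defs

/-!
# S28: `ℓ`-integral Laurent series, orders and leading coefficients
-/

set_option autoImplicit false

noncomputable section

open ModularCurve Polynomial

namespace Fermat.Agent.S28

/-! ## Orders -/

section Ord

variable {R : Type*} [CommRing R]

/-- `f` has order at least `m`. -/
def OrdGE (f : LaurentSeries R) (m : ℤ) : Prop := ∀ k : ℤ, k < m → f.coeff k = 0

theorem OrdGE.mono {f : LaurentSeries R} {m m' : ℤ} (h : OrdGE f m) (hm : m' ≤ m) : OrdGE f m' :=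
  fun k hk => h k (lt_of_lt_of_le hk hm)

theorem ordGE_zero (m : ℤ) : OrdGE (0 : LaurentSeries R) m := fun _ _ => rfl

theorem OrdGE.add {f g : LaurentSeries R} {m : ℤ} (hf : OrdGE f m) (hg : OrdGE g m) :
    OrdGE (f + g) m := fun k hk => by
  rw [HahnSeries.coeff_add, hf k hk, hg k hk, add_zero]

theorem OrdGE.neg {f : LaurentSeries R} {m : ℤ} (hf : OrdGE f m) : OrdGE (-f) m := fun k hk => by
  rw [HahnSeries.coeff_neg, hf k hk, neg_zero]

theorem OrdGE.sum {ι : Type*} (s : Finset ι) {f : ι → LaurentSeries R} {m : ℤ}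
    (h : ∀ i ∈ s, OrdGE (f i) m) : OrdGE (∑ i ∈ s, f i) m := by
  classical
  induction s using Finset.induction_on with
  | empty => simpa using ordGE_zero m
  | insert a s ha ih =>
    rw [Finset.sum_insert ha]
    exact (h a (Finset.mem_insert_self a s)).add
      (ih fun i hi => h i (Finset.mem_insert_of_mem hi))

theorem OrdGE.mul {f g : LaurentSeries R} {a b : ℤ} (hf : OrdGE f a) (hg : OrdGE g b) :
    OrdGE (f * g) (a + b) := fun k hk => by
  rw [HahnSeries.coeff_mul]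
  refine Finset.sum_eq_zero fun ij hij => ?_
  rw [Finset.mem_antidiagonal] at hij
  obtain ⟨-, -, hsum⟩ := hij
  by_cases h1 : ij.1 < a
  · rw [hf _ h1, zero_mul]
  · have h2 : ij.2 < b := by omega
    rw [hg _ h2, mul_zero]

theorem ordGE_one : OrdGE (1 : LaurentSeries R) 0 := fun k hk => by
  rw [HahnSeries.coeff_one, if_neg hk.ne]

theorem OrdGE.pow {f : LaurentSeries R} {a : ℤ} (hf : OrdGE f a) (n : ℕ) :
    OrdGE (f ^ n) (n * a) := by
  induction n with
  | zero => simpa using ordGE_one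
  | succ n ih =>
    rw [pow_succ]
    have := ih.mul hf
    convert this using 1
    push_cast; ring

/-- The coefficient of a product in the lowest possible degree. -/
theorem coeff_mul_of_ordGE {f g : LaurentSeries R} {a b : ℤ} (hf : OrdGE f a) (hg : OrdGE g b) :
    (f * g).coeff (a + b) = f.coeff a * g.coeff b := by
  classical
  rw [HahnSeries.coeff_mul]
  by_cases hfa : f.coeff a = 0
  · rw [hfa, zero_mul]
    refine Finset.sum_eq_zero fun ij hij => ?_
    rw [Finset.mem_antidiagonal] at hij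
    obtain ⟨-, -, hsum⟩ := hij
    rcases lt_trichotomy ij.1 a with h1 | h1 | h1
    · rw [hf _ h1, zero_mul]
    · rw [h1, hfa, zero_mul]
    · rw [hg _ (by omega), mul_zero]
  by_cases hgb : g.coeff b = 0
  · rw [hgb, mul_zero]
    refine Finset.sum_eq_zero fun ij hij => ?_
    rw [Finset.mem_antidiagonal] at hij
    obtain ⟨-, -, hsum⟩ := hij
    rcases lt_trichotomy ij.1 a with h1 | h1 | h1
    · rw [hf _ h1, zero_mul]
    · have : ij.2 = b := by omega
      rw [this, hgb, mul_zero]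
    · rw [hg _ (by omega), mul_zero]
  rw [Finset.sum_eq_single (a, b)]
  · intro ij hij hne
    rw [Finset.mem_antidiagonal] at hij
    obtain ⟨-, -, hsum⟩ := hij
    rcases lt_trichotomy ij.1 a with h1 | h1 | h1
    · rw [hf _ h1, zero_mul]
    · exfalso
      apply hne
      have : ij.2 = b := by omega
      exact Prod.ext h1 this
    · rw [hg _ (by omega), mul_zero]
  · intro hnot
    exfalso
    apply hnot
    rw [Finset.mem_antidiagonal]
    exact ⟨hfa, hgb, rfl⟩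

theorem coeff_pow_of_ordGE {f : LaurentSeries R} {a : ℤ} (hf : OrdGE f a) (n : ℕ) :
    (f ^ n).coeff (n * a) = f.coeff a ^ n := by
  induction n with
  | zero => simp
  | succ n ih =>
    rw [pow_succ, pow_succ, ← ih, ← coeff_mul_of_ordGE (hf.pow n) hf]
    congr 1
    push_cast; ring

theorem ordGE_single (m : ℤ) (r : R) : OrdGE (HahnSeries.single m r : LaurentSeries R) m :=
  fun _ hk => HahnSeries.coeff_single_of_ne hk.ne

theorem ordGE_ofPowerSeries (p : PowerSeries R) : OrdGE (HahnSeries.ofPowerSeries ℤ R p) 0 :=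
  fun _ hk => ofPowerSeries_coeff_of_neg p hk

/-- Every Laurent series has some lower bound for its order. -/
theorem exists_ordGE (f : LaurentSeries R) : ∃ m : ℤ, OrdGE f m := by
  exact ⟨f.order, fun _ hk => HahnSeries.coeff_eq_zero_of_lt_order hk⟩

/-- A Laurent series whose lowest coefficient is a unit is a unit. -/
theorem isUnit_of_ordGE_of_isUnit_coeff {f : LaurentSeries R} {m : ℤ} (hf : OrdGE f m)
    (hu : IsUnit (f.coeff m)) : IsUnit f := by
  -- `f = single m 1 * ofPowerSeries p`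
  let p : PowerSeries R := PowerSeries.mk fun n => f.coeff (m + n)
  have hfp : f = HahnSeries.single m (1 : R) * HahnSeries.ofPowerSeries ℤ R p := by
    ext k
    rw [HahnSeries.coeff_single_mul, one_mul]
    rcases lt_or_ge k m with hk | hk
    · rw [hf k hk, ofPowerSeries_coeff_of_neg _ (by omega)]
    · obtain ⟨n, hn⟩ := Int.eq_ofNat_of_zero_le (sub_nonneg.mpr hk)
      rw [hn, HahnSeries.ofPowerSeries_apply_coeff, PowerSeries.coeff_mk]
      congr 1
      omega
  have hp : IsUnit p := by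
    rw [PowerSeries.isUnit_iff_constantCoeff]
    have : PowerSeries.constantCoeff p = f.coeff m := by
      rw [← PowerSeries.coeff_zero_eq_constantCoeff_apply, PowerSeries.coeff_mk]
      simp
    rwa [this]
  have hs : IsUnit (HahnSeries.single m (1 : R) : LaurentSeries R) := by
    refine IsUnit.of_mul_eq_one (HahnSeries.single (-m) (1 : R)) ?_
    rw [HahnSeries.single_mul_single]
    simp
  rw [hfp]
  exact hs.mul (hp.map (HahnSeries.ofPowerSeries ℤ R))

end Ord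

/-! ## Evaluation of polynomials at the `j`-series, over any coefficient ring -/

section EvalJ

variable (S : Type*) [CommRing S]

/-- `P ↦ P(j)`, from `S[Y]` to `S((q))`. -/
def evalJ : S[X] →+* LaurentSeries S :=
  Polynomial.eval₂RingHom (HahnSeries.C : S →+* LaurentSeries S) (jqModC S)

theorem evalJ_C (a : S) : evalJ S (C a) = HahnSeries.C a := by
  simp [evalJ]

theorem evalJ_X : evalJ S X = jqModC S := by
  simp [evalJ]

theorem ordGE_jqModC : OrdGE (jqModC S) (-1) := fun _ hk => coeff_jqModC_of_lt S hk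

theorem evalJ_eq_sum (P : S[X]) :
    evalJ S P = ∑ i ∈ Finset.range (P.natDegree + 1), HahnSeries.C (P.coeff i) * jqModC S ^ i := by
  rw [evalJ, Polynomial.coe_eval₂RingHom, Polynomial.eval₂_eq_sum_range]

theorem ordGE_C (a : S) : OrdGE (HahnSeries.C a : LaurentSeries S) 0 := ordGE_single 0 a

theorem ordGE_evalJ (P : S[X]) {d : ℕ} (hd : P.natDegree ≤ d) : OrdGE (evalJ S P) (-(d : ℤ)) := by
  rw [evalJ_eq_sum]
  refine OrdGE.sum _ fun i hi => ?_
  have hi' : i ≤ d := by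
    have := Finset.mem_range.mp hi
    omega
  have h := (ordGE_C S (P.coeff i)).mul ((ordGE_jqModC S).pow i)
  refine h.mono ?_
  have : (i : ℤ) ≤ d := by exact_mod_cast hi'
  linarith

theorem coeff_evalJ (P : S[X]) {d : ℕ} (hd : P.natDegree ≤ d) :
    (evalJ S P).coeff (-(d : ℤ)) = P.coeff d := by
  classical
  rw [evalJ_eq_sum, HahnSeries.coeff_sum]
  have hterm : ∀ i : ℕ, i < d →
      (HahnSeries.C (P.coeff i) * jqModC S ^ i : LaurentSeries S).coeff (-(d : ℤ)) = 0 := by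
    intro i hi
    have h := (ordGE_C S (P.coeff i)).mul ((ordGE_jqModC S).pow i)
    refine h _ ?_
    have : (i : ℤ) < d := by exact_mod_cast hi
    linarith
  have hd' : (HahnSeries.C (P.coeff d) * jqModC S ^ d : LaurentSeries S).coeff (-(d : ℤ))
      = P.coeff d := by
    have h := coeff_mul_of_ordGE (ordGE_C S (P.coeff d)) ((ordGE_jqModC S).pow d)
    have e : (0 : ℤ) + (d : ℤ) * (-1) = -(d : ℤ) := by ring
    rw [e] at h
    rw [h]
    have h2 := coeff_pow_of_ordGE (ordGE_jqModC S) d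
    have e2 : (d : ℤ) * (-1) = -(d : ℤ) := by ring
    rw [e2] at h2 ⊢
    rw [h2, coeff_jqModC_neg_one, one_pow, mul_one]
    simp [HahnSeries.C]
  rcases Nat.lt_or_ge P.natDegree d with hlt | hge
  · rw [Polynomial.coeff_eq_zero_of_natDegree_lt hlt]
    refine Finset.sum_eq_zero fun i hi => hterm i ?_
    have := Finset.mem_range.mp hi
    omega
  · have hdeq : P.natDegree = d := le_antisymm hd hge
    rw [hdeq, Finset.sum_range_succ, hd', Finset.sum_eq_zero, zero_add]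
    intro i hi
    exact hterm i (Finset.mem_range.mp hi)

theorem evalJ_injective [Nontrivial S] : Function.Injective (evalJ S) := by
  rw [injective_iff_map_eq_zero]
  intro P hP
  by_contra hne
  have h := coeff_evalJ S P le_rfl
  rw [hP] at h
  exact (Polynomial.leadingCoeff_ne_zero.mpr hne) h.symm

variable {S} in
theorem coeffMap_C {S' : Type*} [CommRing S'] (f : S →+* S') (a : S) :
    coeffMap f (HahnSeries.C a : LaurentSeries S) = HahnSeries.C (f a) :=
  coeffMap_single f 0 a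

variable {S} in
theorem coeffMap_evalJ {S' : Type*} [CommRing S'] (f : S →+* S') (P : S[X]) :
    coeffMap f (evalJ S P) = evalJ S' (P.map f) := by
  induction P using Polynomial.induction_on' with
  | add p q hp hq => rw [map_add, map_add, hp, hq, Polynomial.map_add, map_add]
  | monomial n a =>
    rw [← Polynomial.C_mul_X_pow_eq_monomial, map_mul, map_mul, map_pow, map_pow, evalJ_C, evalJ_X,
      Polynomial.map_mul, Polynomial.map_pow, Polynomial.map_C, Polynomial.map_X, map_mul, map_pow,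
      evalJ_C, evalJ_X, coeffMap_C, coeffMap_jqModC]

end EvalJ

/-! ## `ℓ`-integral Laurent series -/

section Int

variable (ℓ : ℕ)

/-- The inclusion `ℤ_(ℓ)((q)) → ℚ((q))`. -/
def toQ : LaurentSeries (Zl ℓ) →+* LaurentSeries ℚ :=
  coeffMap (GaloisRep.ratLocalizedAt ℓ).subtype

@[simp] theorem toQ_coeff (f : LaurentSeries (Zl ℓ)) (k : ℤ) :
    (toQ ℓ f).coeff k = (f.coeff k : ℚ) := rfl

theorem toQ_injective : Function.Injective (toQ ℓ) := by
  intro f g h
  ext k
  have := congrArg (fun x => HahnSeries.coeff x k) h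
  simpa using this

theorem isInt_toQ (f : LaurentSeries (Zl ℓ)) : IsInt ℓ (toQ ℓ f) := fun k => (f.coeff k).2

variable {ℓ}

/-- The lift of an `ℓ`-integral series to `ℤ_(ℓ)((q))`. -/
def IsInt.lift {f : LaurentSeries ℚ} (h : IsInt ℓ f) : LaurentSeries (Zl ℓ) where
  coeff k := ⟨f.coeff k, h k⟩
  isPWO_support' := by
    refine f.isPWO_support.mono ?_
    intro k hk
    simp only [Function.mem_support, ne_eq] at hk ⊢
    intro h0
    exact hk (Subtype.ext h0)

@[simp] theorem IsInt.toQ_lift {f : LaurentSeries ℚ} (h : IsInt ℓ f) : toQ ℓ h.lift = f := by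
  ext k
  rfl

theorem isInt_iff {f : LaurentSeries ℚ} : IsInt ℓ f ↔ ∃ g, toQ ℓ g = f :=
  ⟨fun h => ⟨h.lift, h.toQ_lift⟩, fun ⟨g, hg⟩ => hg ▸ isInt_toQ ℓ g⟩

theorem isInt_zero : IsInt ℓ 0 := isInt_iff.mpr ⟨0, map_zero _⟩
theorem isInt_one : IsInt ℓ 1 := isInt_iff.mpr ⟨1, map_one _⟩

theorem IsInt.add {f g : LaurentSeries ℚ} (hf : IsInt ℓ f) (hg : IsInt ℓ g) : IsInt ℓ (f + g) :=
  isInt_iff.mpr ⟨hf.lift + hg.lift, by rw [map_add, hf.toQ_lift, hg.toQ_lift]⟩

theorem IsInt.mul {f g : LaurentSeries ℚ} (hf : IsInt ℓ f) (hg : IsInt ℓ g) : IsInt ℓ (f * g) :=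
  isInt_iff.mpr ⟨hf.lift * hg.lift, by rw [map_mul, hf.toQ_lift, hg.toQ_lift]⟩

theorem IsInt.neg {f : LaurentSeries ℚ} (hf : IsInt ℓ f) : IsInt ℓ (-f) :=
  isInt_iff.mpr ⟨-hf.lift, by rw [map_neg, hf.toQ_lift]⟩

theorem IsInt.sub {f g : LaurentSeries ℚ} (hf : IsInt ℓ f) (hg : IsInt ℓ g) : IsInt ℓ (f - g) :=
  isInt_iff.mpr ⟨hf.lift - hg.lift, by rw [map_sub, hf.toQ_lift, hg.toQ_lift]⟩

theorem IsInt.pow {f : LaurentSeries ℚ} (hf : IsInt ℓ f) (n : ℕ) : IsInt ℓ (f ^ n) :=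
  isInt_iff.mpr ⟨hf.lift ^ n, by rw [map_pow, hf.toQ_lift]⟩

theorem isInt_natCast (n : ℕ) : IsInt ℓ (n : LaurentSeries ℚ) :=
  isInt_iff.mpr ⟨n, map_natCast _ n⟩

theorem isInt_intCast (n : ℤ) : IsInt ℓ (n : LaurentSeries ℚ) :=
  isInt_iff.mpr ⟨n, map_intCast _ n⟩

variable (ℓ) in
/-- The subring `ℤ_(ℓ)((q))` of `ℚ((q))`. -/
def intLaurent : Subring (LaurentSeries ℚ) where
  carrier := {f | IsInt ℓ f}
  mul_mem' := IsInt.mul
  one_mem' := isInt_one
  add_mem' := IsInt.add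
  zero_mem' := isInt_zero
  neg_mem' := IsInt.neg

@[simp] theorem mem_intLaurent {f : LaurentSeries ℚ} : f ∈ intLaurent ℓ ↔ IsInt ℓ f := Iff.rfl

theorem IsInt.sum {ι : Type*} (s : Finset ι) {f : ι → LaurentSeries ℚ}
    (h : ∀ i ∈ s, IsInt ℓ (f i)) : IsInt ℓ (∑ i ∈ s, f i) :=
  (intLaurent ℓ).sum_mem h

theorem toQ_C (a : Zl ℓ) :
    toQ ℓ (HahnSeries.C a) = algebraMap ℚ (LaurentSeries ℚ) (a : ℚ) := by
  rw [toQ, coeffMap_C, algebraMap_apply_eq_single]
  rfl

theorem isInt_algebraMap (a : Zl ℓ) : IsInt ℓ (algebraMap ℚ (LaurentSeries ℚ) (a : ℚ)) :=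
  isInt_iff.mpr ⟨_, toQ_C a⟩

theorem toQ_jqModC : toQ ℓ (jqModC (Zl ℓ)) = jq := by
  rw [toQ, coeffMap_jqModC]
  rfl

theorem isInt_jq : IsInt ℓ jq := isInt_iff.mpr ⟨_, toQ_jqModC⟩

/-- `evalAt ℓ jq` is `evalJ` followed by the inclusion. -/
theorem evalAt_jq (P : (Zl ℓ)[X]) : evalAt ℓ jq P = toQ ℓ (evalJ (Zl ℓ) P) := by
  induction P using Polynomial.induction_on' with
  | add p q hp hq => rw [map_add, map_add, map_add, hp, hq]
  | monomial n a =>
    rw [← Polynomial.C_mul_X_pow_eq_monomial, map_mul, map_mul, map_pow, map_pow, evalJ_C, evalJ_X,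
      map_mul, map_pow, toQ_C, toQ_jqModC]
    simp [evalAt]

theorem isInt_evalAt_jq (P : (Zl ℓ)[X]) : IsInt ℓ (evalAt ℓ jq P) :=
  isInt_iff.mpr ⟨_, (evalAt_jq P).symm⟩

theorem OrdGE.toQ {f : LaurentSeries (Zl ℓ)} {m : ℤ} (h : OrdGE f m) : OrdGE (toQ ℓ f) m :=
  fun k hk => by rw [toQ_coeff, h k hk]; rfl

theorem IsInt.ordGE_lift {f : LaurentSeries ℚ} (h : IsInt ℓ f) {m : ℤ} (hm : OrdGE f m) :
    OrdGE h.lift m := fun k hk => Subtype.ext (hm k hk)

theorem ordGE_evalAt_jq (P : (Zl ℓ)[X]) {d : ℕ} (hd : P.natDegree ≤ d) :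
    OrdGE (evalAt ℓ jq P) (-(d : ℤ)) := by
  rw [evalAt_jq]
  exact (ordGE_evalJ _ P hd).toQ

theorem coeff_evalAt_jq (P : (Zl ℓ)[X]) {d : ℕ} (hd : P.natDegree ≤ d) :
    (evalAt ℓ jq P).coeff (-(d : ℤ)) = (P.coeff d : ℚ) := by
  rw [evalAt_jq, toQ_coeff, coeff_evalJ _ P hd]

/-- Unit criterion: an integral series whose lowest coefficient is a unit of `ℤ_(ℓ)` has an
integral inverse. -/
theorem IsInt.inv {f : LaurentSeries ℚ} (h : IsInt ℓ f) {m : ℤ} (hm : OrdGE f m)
    (hu : IsUnit (⟨f.coeff m, h m⟩ : Zl ℓ)) : IsInt ℓ f⁻¹ := by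
  have hunit : IsUnit h.lift := isUnit_of_ordGE_of_isUnit_coeff (h.ordGE_lift hm) hu
  obtain ⟨g, hg⟩ := hunit.exists_right_inv
  have h1 : f * toQ ℓ g = 1 := by
    rw [← h.toQ_lift, ← map_mul, hg, map_one]
  have : f⁻¹ = toQ ℓ g := (eq_inv_of_mul_eq_one_right h1).symm
  rw [this]
  exact isInt_toQ ℓ g

theorem isInt_jq_inv : IsInt ℓ jq⁻¹ := by
  refine isInt_jq.inv (m := -1) (fun k hk => coeff_jq_of_lt hk) ?_
  have : (⟨jq.coeff (-1), isInt_jq (-1)⟩ : Zl ℓ) = 1 := Subtype.ext coeff_jq_neg_one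
  rw [this]
  exact isUnit_one

/-! ### Divisibility by `ℓ` -/

theorem coeff_natCast_mul (n : ℕ) (f : LaurentSeries ℚ) (k : ℤ) :
    ((n : LaurentSeries ℚ) * f).coeff k = (n : ℚ) * f.coeff k := by
  rw [← nsmul_eq_mul, HahnSeries.coeff_smul, nsmul_eq_mul]

theorem isDivl_iff [NeZero ℓ] {f : LaurentSeries ℚ} :
    IsDivl ℓ f ↔ ∃ g, IsInt ℓ g ∧ f = (ℓ : LaurentSeries ℚ) * g := by
  have hl : (ℓ : ℚ) ≠ 0 := by exact_mod_cast NeZero.ne ℓ
  have hl' : (ℓ : LaurentSeries ℚ) ≠ 0 := by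
    rw [← map_natCast (algebraMap ℚ (LaurentSeries ℚ))]
    exact (_root_.map_ne_zero _).mpr hl
  constructor
  · intro h
    refine ⟨(ℓ : LaurentSeries ℚ)⁻¹ * f, ?_, by rw [mul_inv_cancel_left₀ hl']⟩
    intro k
    obtain ⟨r, hr, hk⟩ := h k
    have h2 : ((ℓ : LaurentSeries ℚ)⁻¹ * f).coeff k = r := by
      have h3 := coeff_natCast_mul ℓ ((ℓ : LaurentSeries ℚ)⁻¹ * f) k
      rw [mul_inv_cancel_left₀ hl', hk] at h3
      exact (mul_left_cancel₀ hl h3).symm
    rw [h2]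
    exact hr
  · rintro ⟨g, hg, rfl⟩ k
    exact ⟨g.coeff k, hg k, coeff_natCast_mul ℓ g k⟩

theorem IsDivl.isInt [NeZero ℓ] {f : LaurentSeries ℚ} (h : IsDivl ℓ f) : IsInt ℓ f := by
  obtain ⟨g, hg, rfl⟩ := isDivl_iff.mp h
  exact (isInt_natCast ℓ).mul hg

theorem IsDivl.mul_left [NeZero ℓ] {f g : LaurentSeries ℚ} (hf : IsInt ℓ f) (hg : IsDivl ℓ g) :
    IsDivl ℓ (f * g) := by
  obtain ⟨g', hg', rfl⟩ := isDivl_iff.mp hg
  exact isDivl_iff.mpr ⟨f * g', hf.mul hg', by ring⟩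

theorem IsDivl.mul_right [NeZero ℓ] {f g : LaurentSeries ℚ} (hf : IsDivl ℓ f) (hg : IsInt ℓ g) :
    IsDivl ℓ (f * g) := by
  rw [mul_comm]
  exact hf.mul_left hg

theorem IsDivl.add [NeZero ℓ] {f g : LaurentSeries ℚ} (hf : IsDivl ℓ f) (hg : IsDivl ℓ g) :
    IsDivl ℓ (f + g) := by
  obtain ⟨f', hf', rfl⟩ := isDivl_iff.mp hf
  obtain ⟨g', hg', rfl⟩ := isDivl_iff.mp hg
  exact isDivl_iff.mpr ⟨f' + g', hf'.add hg', by ring⟩

end Int

end Fermat.Agent.S28

end
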