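import Fermat.Agent.S28.Defs

/-!
# S28-T8: ring theory of `Zl ℓ = ℤ_(ℓ)` (owner: helper214)
-/

set_option autoImplicit false

noncomputable section

open Polynomial

namespace Fermat.Agent.S28

namespace ZlRing

variable (ℓ : ℕ) [hℓ : Fact ℓ.Prime]

theorem mem_iff {x : ℚ} : x ∈ GaloisRep.ratLocalizedAt ℓ ↔ x.den.Coprime ℓ := Iff.rfl

theorem coe_algebraMap_int (n : ℤ) : ((algebraMap ℤ (Zl ℓ) n : Zl ℓ) : ℚ) = (n : ℚ) := by
  simp

theorem span_isPrime : (Ideal.span {(ℓ : ℤ)}).IsPrime :=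
  (Ideal.span_singleton_prime (by exact_mod_cast hℓ.out.ne_zero)).mpr
    (Nat.prime_iff_prime_int.mp hℓ.out)

theorem span_ne_bot : Ideal.span {(ℓ : ℤ)} ≠ ⊥ := by
  rw [Ne, Ideal.span_singleton_eq_bot]
  exact_mod_cast hℓ.out.ne_zero

theorem mem_primeCompl_iff {n : ℤ} :
    haveI := span_isPrime ℓ
    n ∈ (Ideal.span {(ℓ : ℤ)}).primeCompl ↔ ¬ (ℓ : ℤ) ∣ n := by
  rw [Ideal.mem_primeCompl_iff, Ideal.mem_span_singleton]

theorem inv_int_mem {n : ℤ} (hn : ¬ (ℓ : ℤ) ∣ n) : ((n : ℚ))⁻¹ ∈ GaloisRep.ratLocalizedAt ℓ := by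
  rw [mem_iff]
  have hn0 : n ≠ 0 := fun h => hn (h ▸ dvd_zero _)
  have hden : ((n : ℚ)⁻¹).den = n.natAbs := by
    rw [Rat.inv_intCast_den, if_neg hn0]
  rw [hden, Nat.coprime_comm, Nat.Prime.coprime_iff_not_dvd hℓ.out]
  intro h
  exact hn (Int.natCast_dvd.mpr h)

/-- `ℤ_(ℓ)` is the localisation of `ℤ` at the prime `(ℓ)`. -/
theorem isLocalization_atPrime :
    haveI := span_isPrime ℓ
    IsLocalization.AtPrime (Zl ℓ) (Ideal.span {(ℓ : ℤ)}) := by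
  haveI := span_isPrime ℓ
  refine (isLocalization_iff _ _).mpr ⟨?_, ?_, ?_⟩
  · rintro ⟨n, hn⟩
    rw [mem_primeCompl_iff] at hn
    have hn0 : (n : ℚ) ≠ 0 := by
      intro h
      exact hn ((Int.cast_eq_zero.mp h) ▸ dvd_zero _)
    refine IsUnit.of_mul_eq_one ⟨(n : ℚ)⁻¹, inv_int_mem ℓ hn⟩ (Subtype.ext ?_)
    simp [hn0]
  · intro z
    have hz : (z : ℚ).den.Coprime ℓ := z.2
    refine ⟨((z : ℚ).num, ⟨((z : ℚ).den : ℤ), ?_⟩), Subtype.ext ?_⟩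
    · rw [mem_primeCompl_iff]
      intro h
      have h' : ℓ ∣ (z : ℚ).den := by exact_mod_cast h
      have := Nat.Coprime.eq_one_of_dvd hz.symm h'
      exact hℓ.out.one_lt.ne' this
    · simp [Rat.mul_den_eq_num]
  · intro x y h
    refine ⟨1, ?_⟩
    have := congrArg (Subtype.val) h
    simp only [coe_algebraMap_int] at this
    simpa using this

theorem isDiscreteValuationRing : IsDiscreteValuationRing (Zl ℓ) := by
  haveI := span_isPrime ℓ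
  haveI := isLocalization_atPrime ℓ
  exact IsLocalization.AtPrime.isDiscreteValuationRing_of_dedekind_domain ℤ (span_ne_bot ℓ) (Zl ℓ)

theorem isPrincipalIdealRing : IsPrincipalIdealRing (Zl ℓ) :=
  haveI := isDiscreteValuationRing ℓ
  inferInstance

theorem isLocalRing : IsLocalRing (Zl ℓ) :=
  haveI := isDiscreteValuationRing ℓ
  inferInstance

theorem isNoetherianRing : IsNoetherianRing (Zl ℓ) :=
  haveI := isPrincipalIdealRing ℓ
  inferInstance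

theorem isIntegrallyClosed : IsIntegrallyClosed (Zl ℓ) :=
  haveI := isPrincipalIdealRing ℓ
  inferInstance

theorem isFractionRing : IsFractionRing (Zl ℓ) ℚ := by
  haveI := span_isPrime ℓ
  haveI := isLocalization_atPrime ℓ
  exact IsFractionRing.isFractionRing_of_isDomain_of_isLocalization
    (Ideal.span {(ℓ : ℤ)}).primeCompl (Zl ℓ) ℚ

theorem isIntegrallyClosed_polynomial : IsIntegrallyClosed (Zl ℓ)[X] :=
  haveI := isIntegrallyClosed ℓ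
  inferInstance

theorem isNoetherianRing_polynomial : IsNoetherianRing (Zl ℓ)[X] :=
  haveI := isNoetherianRing ℓ
  inferInstance

theorem uniqueFactorizationMonoid : UniqueFactorizationMonoid (Zl ℓ) :=
  haveI := isPrincipalIdealRing ℓ
  inferInstance

theorem uniqueFactorizationMonoid_polynomial : UniqueFactorizationMonoid (Zl ℓ)[X] :=
  haveI := uniqueFactorizationMonoid ℓ
  inferInstance

/-- Any two ring homomorphisms out of `ℤ_(ℓ)` agree. -/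
theorem ringHom_ext {S : Type*} [Semiring S] (f g : Zl ℓ →+* S) : f = g := by
  haveI := span_isPrime ℓ
  haveI := isLocalization_atPrime ℓ
  exact IsLocalization.ringHom_ext (Ideal.span {(ℓ : ℤ)}).primeCompl (RingHom.ext_int _ _)

theorem subsingleton_ringHom {S : Type*} [Semiring S] : Subsingleton (Zl ℓ →+* S) :=
  ⟨ringHom_ext ℓ⟩

/-- The residue map `ℤ_(ℓ) → 𝔽_ℓ`. -/
def red : Zl ℓ →+* ZMod ℓ :=
  haveI := span_isPrime ℓ
  haveI := isLocalization_atPrime ℓ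
  IsLocalization.lift (M := (Ideal.span {(ℓ : ℤ)}).primeCompl) (g := Int.castRingHom (ZMod ℓ))
    (by
      rintro ⟨n, hn⟩
      rw [mem_primeCompl_iff] at hn
      refine isUnit_iff_ne_zero.mpr ?_
      intro h
      exact hn ((ZMod.intCast_zmod_eq_zero_iff_dvd n ℓ).mp h))

theorem red_intCast (n : ℤ) : red ℓ (n : Zl ℓ) = (n : ZMod ℓ) := map_intCast _ _

theorem red_natCast (n : ℕ) : red ℓ (n : Zl ℓ) = (n : ZMod ℓ) := map_natCast _ _

theorem red_surjective : Function.Surjective (red ℓ) := fun x => by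
  obtain ⟨n, rfl⟩ := ZMod.intCast_surjective x
  exact ⟨(n : Zl ℓ), red_intCast ℓ n⟩

theorem den_isUnit (x : Zl ℓ) : IsUnit (((x : ℚ).den : ℕ) : Zl ℓ) := by
  have hz : (x : ℚ).den.Coprime ℓ := x.2
  have hnd : ¬ (ℓ : ℤ) ∣ ((x : ℚ).den : ℤ) := by
    intro h
    have h' : ℓ ∣ (x : ℚ).den := by exact_mod_cast h
    exact hℓ.out.one_lt.ne' (Nat.Coprime.eq_one_of_dvd hz.symm h')
  have hn0 : ((x : ℚ).den : ℚ) ≠ 0 := by exact_mod_cast (x : ℚ).den_nz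
  refine IsUnit.of_mul_eq_one ⟨(((x : ℚ).den : ℤ) : ℚ)⁻¹, inv_int_mem ℓ hnd⟩ (Subtype.ext ?_)
  simp [hn0]

theorem mul_den_eq_num (x : Zl ℓ) : x * (((x : ℚ).den : ℕ) : Zl ℓ) = (((x : ℚ).num : ℤ) : Zl ℓ) :=
  Subtype.ext (by simp [Rat.mul_den_eq_num])

theorem red_eq_zero_iff (x : Zl ℓ) : red ℓ x = 0 ↔ ∃ y, x = (ℓ : Zl ℓ) * y := by
  constructor
  · intro h
    obtain ⟨u, hu⟩ := den_isUnit ℓ x
    have h1 : red ℓ (((x : ℚ).num : ℤ) : Zl ℓ) = 0 := by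
      rw [← mul_den_eq_num, map_mul, h, zero_mul]
    rw [red_intCast, ZMod.intCast_zmod_eq_zero_iff_dvd] at h1
    obtain ⟨m, hm⟩ := h1
    refine ⟨(m : Zl ℓ) * ((u⁻¹ : (Zl ℓ)ˣ) : Zl ℓ), ?_⟩
    have h2 : x * (u : Zl ℓ) = (ℓ : Zl ℓ) * (m : Zl ℓ) := by
      rw [hu, mul_den_eq_num, hm]; push_cast; ring
    calc x = x * (u : Zl ℓ) * ((u⁻¹ : (Zl ℓ)ˣ) : Zl ℓ) := by rw [mul_assoc, Units.mul_inv, mul_one]
      _ = (ℓ : Zl ℓ) * ((m : Zl ℓ) * ((u⁻¹ : (Zl ℓ)ˣ) : Zl ℓ)) := by rw [h2, mul_assoc]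
  · rintro ⟨y, rfl⟩
    rw [map_mul, red_natCast, ZMod.natCast_self, zero_mul]

theorem ker_red : RingHom.ker (red ℓ) = Ideal.span {(ℓ : Zl ℓ)} := by
  ext x
  rw [RingHom.mem_ker, red_eq_zero_iff, Ideal.mem_span_singleton]
  rfl

theorem natCast_ne_zero : (ℓ : Zl ℓ) ≠ 0 := by
  intro h
  have := congrArg Subtype.val h
  simp only [SubringClass.coe_natCast, ZeroMemClass.coe_zero, Nat.cast_eq_zero] at this
  exact hℓ.out.ne_zero this

theorem prime_natCast : Prime (ℓ : Zl ℓ) := by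
  rw [← Ideal.span_singleton_prime (natCast_ne_zero ℓ), ← ker_red]
  exact RingHom.ker_isPrime _

theorem isUnit_iff (x : Zl ℓ) : IsUnit x ↔ red ℓ x ≠ 0 := by
  constructor
  · intro h
    exact (h.map (red ℓ)).ne_zero
  · intro h
    obtain ⟨u, hu⟩ := den_isUnit ℓ x
    have h1 : ¬ (ℓ : ℤ) ∣ (x : ℚ).num := by
      intro hd
      apply h
      rw [red_eq_zero_iff]
      obtain ⟨m, hm⟩ := hd
      refine ⟨(m : Zl ℓ) * ((u⁻¹ : (Zl ℓ)ˣ) : Zl ℓ), ?_⟩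
      have h2 : x * (u : Zl ℓ) = (ℓ : Zl ℓ) * (m : Zl ℓ) := by
        rw [hu, mul_den_eq_num, hm]; push_cast; ring
      calc x = x * (u : Zl ℓ) * ((u⁻¹ : (Zl ℓ)ˣ) : Zl ℓ) := by
            rw [mul_assoc, Units.mul_inv, mul_one]
        _ = (ℓ : Zl ℓ) * ((m : Zl ℓ) * ((u⁻¹ : (Zl ℓ)ˣ) : Zl ℓ)) := by rw [h2, mul_assoc]
    have hnum : IsUnit ((((x : ℚ).num : ℤ)) : Zl ℓ) := by
      have hn0 : (((x : ℚ).num : ℤ) : ℚ) ≠ 0 := by
        intro h0
        exact h1 ((Int.cast_eq_zero.mp h0) ▸ dvd_zero _)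
      refine IsUnit.of_mul_eq_one ⟨(((x : ℚ).num : ℤ) : ℚ)⁻¹, inv_int_mem ℓ h1⟩ (Subtype.ext ?_)
      simp [hn0]
    rw [← mul_den_eq_num] at hnum
    exact isUnit_of_mul_isUnit_left hnum

theorem not_isUnit_natCast : ¬ IsUnit (ℓ : Zl ℓ) := (prime_natCast ℓ).not_isUnit

/-- The structure map to a field of characteristic `ℓ` factors through `red`. -/
theorem algebraMap_eq_comp_red (K : Type*) [Field K] [CharP K ℓ] [Algebra (Zl ℓ) K] :
    algebraMap (Zl ℓ) K = (ZMod.castHom (dvd_refl ℓ) K).comp (red ℓ) :=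
  ringHom_ext ℓ _ _

theorem algebraMap_eq_zero_iff (K : Type*) [Field K] [CharP K ℓ] [Algebra (Zl ℓ) K] (x : Zl ℓ) :
    algebraMap (Zl ℓ) K x = 0 ↔ ∃ y, x = (ℓ : Zl ℓ) * y := by
  rw [algebraMap_eq_comp_red ℓ K, RingHom.comp_apply, ← red_eq_zero_iff,
    map_eq_zero_iff _ (ZMod.castHom (dvd_refl ℓ) K).injective]

theorem ker_algebraMap (K : Type*) [Field K] [CharP K ℓ] [Algebra (Zl ℓ) K] :
    RingHom.ker (algebraMap (Zl ℓ) K) = Ideal.span {(ℓ : Zl ℓ)} := by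
  ext x
  rw [RingHom.mem_ker, algebraMap_eq_zero_iff, Ideal.mem_span_singleton]
  rfl

theorem prime_C_natCast : Prime (C (ℓ : Zl ℓ)) := Polynomial.prime_C_iff.mpr (prime_natCast ℓ)

theorem not_C_natCast_dvd_X : ¬ (C (ℓ : Zl ℓ) ∣ (X : (Zl ℓ)[X])) := by
  intro h
  have := (Polynomial.C_dvd_iff_dvd_coeff _ _).mp h 1
  rw [Polynomial.coeff_X_one] at this
  exact not_isUnit_natCast ℓ (isUnit_of_dvd_one this)

/-- membership in `ℓ ℤ_(ℓ)` in terms of rational numbers -/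
theorem coe_eq_natCast_mul_iff (x : Zl ℓ) :
    (∃ r ∈ GaloisRep.ratLocalizedAt ℓ, (x : ℚ) = (ℓ : ℚ) * r) ↔ ∃ y, x = (ℓ : Zl ℓ) * y := by
  constructor
  · rintro ⟨r, hr, h⟩
    exact ⟨⟨r, hr⟩, Subtype.ext (by simpa using h)⟩
  · rintro ⟨y, rfl⟩
    exact ⟨y, y.2, by simp⟩

end ZlRing

end Fermat.Agent.S28

end
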