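import Mathlib

/-!
# S28-T2: a weighted-degree irreducibility lemma
-/

set_option autoImplicit false

noncomputable section

open Polynomial

namespace Fermat.Agent.S28

variable {k : Type*} [Field k]

/-- The ring homomorphism `k[Y][X] → k[X][Y]`, `Y ↦ Y`, `X ↦ X * Y ^ w`. -/
def wTheta (w : ℕ) : k[X][X] →+* k[X][X] :=
  eval₂RingHom (mapRingHom (C : k →+* k[X])) (C X * X ^ w)

theorem wTheta_C_mul_X_pow (w : ℕ) (a : k[X]) (i : ℕ) :
    wTheta w (C a * X ^ i) = a.map C * C (X ^ i) * X ^ (i * w) := by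
  simp only [wTheta, coe_eval₂RingHom, eval₂_mul, eval₂_C, eval₂_pow, eval₂_X, coe_mapRingHom,
    mul_pow, C_pow, ← pow_mul, mul_assoc, mul_comm w i]

theorem coeff_coeff_wTheta_monomial (w : ℕ) (a : k[X]) (i m j : ℕ) :
    ((wTheta w (C a * X ^ i)).coeff m).coeff j =
      if j = i ∧ i * w ≤ m then a.coeff (m - i * w) else 0 := by
  rw [wTheta_C_mul_X_pow, coeff_mul_X_pow']
  by_cases h : i * w ≤ m
  · rw [if_pos h, coeff_mul_C, coeff_map, coeff_C_mul, coeff_X_pow]
    by_cases hj : j = i
    · simp [hj, h]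
    · simp [hj]
  · simp [h]

theorem coeff_coeff_wTheta (w : ℕ) (P : k[X][X]) (m j : ℕ) :
    ((wTheta w P).coeff m).coeff j = if j * w ≤ m then (P.coeff j).coeff (m - j * w) else 0 := by
  conv_lhs => rw [P.as_sum_range_C_mul_X_pow]
  rw [map_sum, finsetSum_coeff, finsetSum_coeff]
  simp only [coeff_coeff_wTheta_monomial]
  by_cases hj : j < P.natDegree + 1
  · rw [Finset.sum_eq_single j]
    · simp
    · intro b _ hb
      rw [if_neg]
      exact fun h => hb h.1.symm
    · intro h
      exact absurd (Finset.mem_range.2 hj) h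
  · rw [Finset.sum_eq_zero]
    · have : P.coeff j = 0 := coeff_eq_zero_of_natDegree_lt (by omega)
      simp [this]
    · intro b hb
      rw [if_neg]
      rintro ⟨rfl, -⟩
      exact hj (Finset.mem_range.1 hb)

theorem le_natDegree_wTheta (w : ℕ) (P : k[X][X]) (hP : P ≠ 0) :
    P.natDegree * w ≤ (wTheta w P).natDegree := by
  have h : ((wTheta w P).coeff (P.natDegree * w + P.leadingCoeff.natDegree)).coeff P.natDegree
      ≠ 0 := by
    rw [coeff_coeff_wTheta, if_pos (Nat.le_add_right _ _), Nat.add_sub_cancel_left]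
    exact leadingCoeff_ne_zero.2 (leadingCoeff_ne_zero.2 hP)
  have h2 : (wTheta w P).coeff (P.natDegree * w + P.leadingCoeff.natDegree) ≠ 0 := by
    intro h0
    rw [h0] at h
    simp at h
  exact le_trans (Nat.le_add_right _ _) (le_natDegree_of_ne_zero h2)

theorem leadingCoeff_wTheta_coeff_zero (w : ℕ) (hw : 1 ≤ w) (P : k[X][X])
    (hP : 1 ≤ P.natDegree) (hu : IsUnit (P.coeff 0)) :
    (wTheta w P).leadingCoeff.coeff 0 = 0 := by
  have hP0 : P ≠ 0 := by
    rintro rfl
    simp at hP
  have h1 : 1 ≤ (wTheta w P).natDegree :=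
    le_trans (Nat.mul_le_mul hP hw) (le_natDegree_wTheta w P hP0)
  rw [leadingCoeff, coeff_coeff_wTheta]
  simp only [zero_mul, Nat.zero_le, if_true, Nat.sub_zero]
  exact coeff_eq_zero_of_natDegree_lt (by rw [natDegree_eq_zero_of_isUnit hu]; omega)

theorem irreducible_of_weighted (χ : k[X][X]) (n w : ℕ) (hn : 1 ≤ n)
    (hw : 1 ≤ w) (hmonic : χ.Monic) (hdeg : χ.natDegree = n)
    (hle : ∀ i ≤ n, (χ.coeff (n - i)).natDegree ≤ i * w)
    (hlead : (χ.coeff 1).coeff ((n - 1) * w) ≠ 0)
    (hconst : IsUnit (χ.coeff 0)) : Irreducible χ := by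
  -- the weighted degree of `χ`
  have hnat : (wTheta w χ).natDegree = n * w := by
    apply le_antisymm
    · rw [natDegree_le_iff_coeff_eq_zero]
      intro m hm
      ext j
      rw [coeff_coeff_wTheta, coeff_zero]
      split_ifs with hj
      · by_cases hjn : j ≤ n
        · apply coeff_eq_zero_of_natDegree_lt
          have h1 := hle (n - j) (Nat.sub_le _ _)
          rw [Nat.sub_sub_self hjn] at h1
          have h2 : (n - j) * w + j * w = n * w := by
            rw [← Nat.add_mul, Nat.sub_add_cancel hjn]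
          omega
        · have h0 : χ.coeff j = 0 := coeff_eq_zero_of_natDegree_lt (by omega)
          rw [h0, coeff_zero]
      · rfl
    · rw [← hdeg]
      exact le_natDegree_wTheta w χ hmonic.ne_zero
  have hL1 : (wTheta w χ).leadingCoeff.coeff 1 ≠ 0 := by
    rw [leadingCoeff, hnat, coeff_coeff_wTheta, one_mul, if_pos (Nat.le_mul_of_pos_left w hn)]
    have : n * w - w = (n - 1) * w := by rw [Nat.sub_mul, one_mul]
    rw [this]
    exact hlead
  refine ⟨fun hu => ?_, fun P Q hPQ => ?_⟩
  · have := natDegree_eq_zero_of_isUnit hu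
    omega
  · have hP0 : P ≠ 0 := by
      rintro rfl
      exact hmonic.ne_zero (by rw [hPQ, zero_mul])
    have hQ0 : Q ≠ 0 := by
      rintro rfl
      exact hmonic.ne_zero (by rw [hPQ, mul_zero])
    have hlc : P.leadingCoeff * Q.leadingCoeff = 1 := by
      rw [← leadingCoeff_mul, ← hPQ]
      exact hmonic
    have hc0 : IsUnit (P.coeff 0 * Q.coeff 0) := by
      rw [← mul_coeff_zero, ← hPQ]
      exact hconst
    by_cases hP : P.natDegree = 0
    · left
      rw [eq_C_of_natDegree_eq_zero hP]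
      apply IsUnit.map
      have : P.coeff 0 = P.leadingCoeff := by rw [leadingCoeff, hP]
      rw [this]
      exact IsUnit.of_mul_eq_one _ hlc
    by_cases hQ : Q.natDegree = 0
    · right
      rw [eq_C_of_natDegree_eq_zero hQ]
      apply IsUnit.map
      have : Q.coeff 0 = Q.leadingCoeff := by rw [leadingCoeff, hQ]
      rw [this]
      exact IsUnit.of_mul_eq_one _ (by rw [mul_comm]; exact hlc)
    exfalso
    apply hL1
    rw [hPQ, map_mul, leadingCoeff_mul, mul_coeff_one,
      leadingCoeff_wTheta_coeff_zero w hw P (by omega) (isUnit_of_mul_isUnit_left hc0),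
      leadingCoeff_wTheta_coeff_zero w hw Q (by omega) (isUnit_of_mul_isUnit_right hc0)]
    simp

end Fermat.Agent.S28
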