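import Fermat.Agent.S28.UShape
import Fermat.Agent.S28.Irr
import Fermat.Agent.S28.ZlRing

/-!
# S28: reduction of `UData` modulo `ℓ`; `R[j][u] ∩ ℓ R((q)) = ℓ R[j][u]`
-/

set_option autoImplicit false

noncomputable section

open ModularCurve Polynomial

namespace Fermat.Agent.S28

/-- A root of an irreducible monic polynomial over an integrally closed domain `A` (in a field
containing `A`) is not a root of a nonzero polynomial of smaller degree. -/
theorem eq_zero_of_eval₂_eq_zero_of_natDegree_lt {A Ω : Type*} [CommRing A] [IsDomain A]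
    [IsIntegrallyClosed A] [Field Ω] (φ : A →+* Ω) (hφ : Function.Injective φ)
    (χ : A[X]) (hirr : Irreducible χ) (hmonic : χ.Monic) (u : Ω) (hu : χ.eval₂ φ u = 0)
    (Q : A[X]) (hQ : Q.eval₂ φ u = 0) (hdeg : Q.natDegree < χ.natDegree) : Q = 0 := by
  let K := FractionRing A
  letI : Algebra K Ω := (IsFractionRing.lift hφ : K →+* Ω).toAlgebra
  have hcomp : (algebraMap K Ω).comp (algebraMap A K) = φ := by
    ext a
    exact IsFractionRing.lift_algebraMap hφ a
  have hirr' : Irreducible (χ.map (algebraMap A K)) :=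
    (Monic.irreducible_iff_irreducible_map_fraction_map hmonic).mp hirr
  have hroot : aeval u (χ.map (algebraMap A K)) = 0 := by
    rw [aeval_def, eval₂_map, hcomp, hu]
  have hmin : χ.map (algebraMap A K) = minpoly K u :=
    minpoly.eq_of_irreducible_of_monic hirr' hroot (hmonic.map _)
  have hrootQ : aeval u (Q.map (algebraMap A K)) = 0 := by
    rw [aeval_def, eval₂_map, hcomp, hQ]
  have hdvd : minpoly K u ∣ Q.map (algebraMap A K) := minpoly.dvd K u hrootQ
  by_contra hne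
  have hne' : Q.map (algebraMap A K) ≠ 0 := by
    rwa [Ne, Polynomial.map_eq_zero_iff (IsFractionRing.injective A K)]
  have h1 := natDegree_le_of_dvd hdvd hne'
  rw [← hmin, hmonic.natDegree_map] at h1
  have h2 : (Q.map (algebraMap A K)).natDegree ≤ Q.natDegree := natDegree_map_le
  omega

namespace UData

variable {N ℓ : ℕ} [Fact ℓ.Prime] (D : UData N ℓ)

/-- The reduction of `χ` modulo `ℓ`. -/
def χbar : (ZMod ℓ)[X][X] := D.χ.map (Polynomial.mapRingHom (ZlRing.red ℓ))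

theorem χbar_monic : D.χbar.Monic := D.monic.map _

theorem χbar_natDegree : D.χbar.natDegree = D.n := by
  rw [χbar, D.monic.natDegree_map, D.natDegree_eq]

theorem χbar_coeff (i : ℕ) : D.χbar.coeff i = (D.χ.coeff i).map (ZlRing.red ℓ) := by
  rw [χbar, coeff_map, coe_mapRingHom]

theorem irreducible_χbar : Irreducible D.χbar := by
  refine irreducible_of_weighted D.χbar D.n D.w D.hn D.hw D.χbar_monic D.χbar_natDegree ?_ ?_ ?_
  · intro i hi
    rw [χbar_coeff]
    exact natDegree_map_le.trans (D.deg_le i hi)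
  · rw [χbar_coeff, coeff_map]
    exact (D.lead_unit.map (ZlRing.red ℓ)).ne_zero
  · rw [χbar_coeff, ← coe_mapRingHom]
    exact D.isUnit_coeff_zero.map _

/-- `χ` is irreducible over `ℤ_(ℓ)[Y]`. -/
theorem irreducible_χ : Irreducible D.χ :=
  Monic.irreducible_of_irreducible_map _ D.χ D.monic D.irreducible_χbar

/-- `u` as a series over `ℤ_(ℓ)`. -/
def uZ : LaurentSeries (Zl ℓ) := D.u_int.lift

theorem toQ_uZ : toQ ℓ D.uZ = D.u := D.u_int.toQ_lift

/-- The reduction of `u` modulo `ℓ`. -/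
def ubar : LaurentSeries (ZMod ℓ) := coeffMap (ZlRing.red ℓ) D.uZ

theorem eval₂_eq_toQ (Q : (Zl ℓ)[X][X]) :
    Q.eval₂ (evalAt ℓ jq) D.u = toQ ℓ (Q.eval₂ (evalJ (Zl ℓ)) D.uZ) := by
  rw [hom_eval₂, toQ_uZ]
  congr 1
  exact RingHom.ext fun P => evalAt_jq P

theorem coeffMap_eval₂ (Q : (Zl ℓ)[X][X]) :
    coeffMap (ZlRing.red ℓ) (Q.eval₂ (evalJ (Zl ℓ)) D.uZ) =
      (Q.map (Polynomial.mapRingHom (ZlRing.red ℓ))).eval₂ (evalJ (ZMod ℓ)) D.ubar := by
  rw [hom_eval₂, eval₂_map]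
  congr 1
  exact RingHom.ext fun P => coeffMap_evalJ _ P

theorem coeffMap_red_eq_zero_of_isDivl {g : LaurentSeries (Zl ℓ)} (h : IsDivl ℓ (toQ ℓ g)) :
    coeffMap (ZlRing.red ℓ) g = 0 := by
  ext k
  rw [coeffMap_coeff, HahnSeries.coeff_zero, ZlRing.red_eq_zero_iff]
  obtain ⟨r, hr, hk⟩ := h k
  exact ⟨⟨r, hr⟩, Subtype.ext (by simpa using hk)⟩

theorem χbar_eval : D.χbar.eval₂ (evalJ (ZMod ℓ)) D.ubar = 0 := by
  rw [χbar, ← coeffMap_eval₂]
  have h : toQ ℓ (D.χ.eval₂ (evalJ (Zl ℓ)) D.uZ) = 0 := by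
    rw [← eval₂_eq_toQ, D.eval_eq_zero]
  rw [(map_eq_zero_iff _ (toQ_injective ℓ)).mp h, map_zero]

/-- `R[j][u] ∩ ℓ R((q)) = ℓ R[j][u]` in polynomial form. -/
theorem dvd_of_isDivl (Q : (Zl ℓ)[X][X]) (hdeg : Q.natDegree < D.n)
    (h : IsDivl ℓ (Q.eval₂ (evalAt ℓ jq) D.u)) : C (C (ℓ : Zl ℓ)) ∣ Q := by
  rw [eval₂_eq_toQ] at h
  have h1 := D.coeffMap_eval₂ Q
  rw [coeffMap_red_eq_zero_of_isDivl h] at h1
  have h2 : Q.map (Polynomial.mapRingHom (ZlRing.red ℓ)) = 0 := by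
    refine eq_zero_of_eval₂_eq_zero_of_natDegree_lt (evalJ (ZMod ℓ)) (evalJ_injective _) D.χbar
      D.irreducible_χbar D.χbar_monic D.ubar D.χbar_eval _ h1.symm ?_
    rw [χbar_natDegree]
    exact lt_of_le_of_lt natDegree_map_le hdeg
  rw [C_dvd_iff_dvd_coeff]
  intro i
  rw [C_dvd_iff_dvd_coeff]
  intro j
  have h3 : ((Q.map (Polynomial.mapRingHom (ZlRing.red ℓ))).coeff i).coeff j = 0 := by
    rw [h2]; simp
  rw [coeff_map, coe_mapRingHom, coeff_map, ZlRing.red_eq_zero_iff] at h3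
  obtain ⟨y, hy⟩ := h3
  exact ⟨y, hy⟩

end UData

end Fermat.Agent.S28

end
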