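import Fermat.Agent.S28.EulerCore
import Fermat.Agent.S28.LinIndep

/-!
# S28-T4: the `q`-expansion principle for the finite chart, from `UData`
-/

set_option autoImplicit false
set_option linter.style.haveILetI false

noncomputable section

open ModularCurve ModularCurve.IgusaScheme Polynomial

namespace Fermat.Agent.S28

theorem evalAt_jq_injective (ℓ : ℕ) : Function.Injective (evalAt ℓ jq) := by
  intro P Q h
  rw [evalAt_jq, evalAt_jq] at h
  exact evalJ_injective _ (toQ_injective ℓ h)

theorem evalAt_X (ℓ : ℕ) (t : LaurentSeries ℚ) : evalAt ℓ t X = t := by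
  simp [evalAt]

namespace UData

variable {N ℓ : ℕ} (D : UData N ℓ)

theorem derivative_eval :
    (derivative D.χ).eval₂ (evalAt ℓ jq) D.u = D.wsum (fun i => i + 1) := by
  have hn := D.hn
  have h : (derivative D.χ).natDegree < D.n := by
    rw [← D.natDegree_eq]
    exact natDegree_derivative_lt (by rw [D.natDegree_eq]; omega)
  rw [eval₂_eq_sum_range' _ h, wsum]
  refine Finset.sum_congr rfl fun i _ => ?_
  rw [coeff_derivative, map_mul, map_add, map_natCast, map_one]
  push_cast
  ring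

variable [Fact ℓ.Prime]

/-- The `q`-expansion principle in `ℚ(j, u)`, in terms of Laurent series. -/
theorem core (x : LaurentSeries ℚ) (hx : x ∈ IntermediateField.adjoin ℚ {jq, D.u})
    (hint : (evalAt ℓ jq).IsIntegralElem x) :
    IsInt ℓ x ∧ (IsDivl ℓ x → (evalAt ℓ jq).IsIntegralElem ((ℓ : LaurentSeries ℚ)⁻¹ * x)) := by
  haveI := ZlRing.isIntegrallyClosed_polynomial ℓ
  haveI := ZlRing.isNoetherianRing_polynomial ℓ
  haveI : NeZero ℓ := ⟨(Fact.out : ℓ.Prime).ne_zero⟩
  have hl : evalAt ℓ jq (C (ℓ : Zl ℓ)) = (ℓ : LaurentSeries ℚ) := by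
    rw [map_natCast C, map_natCast]
  have hl0 : (ℓ : LaurentSeries ℚ) ≠ 0 := by
    rw [← map_natCast (algebraMap ℚ (LaurentSeries ℚ))]
    exact (_root_.map_ne_zero _).mpr (by exact_mod_cast NeZero.ne ℓ)
  have key := euler_core (evalAt ℓ jq) (evalAt_jq_injective ℓ) D.χ D.irreducible_χ D.monic D.u
    D.eval_eq_zero (intLaurent ℓ) (fun a => isInt_evalAt_jq a) D.u_int
    (by rw [D.derivative_eval]; exact D.isInt_inv_wsum _ rfl)
    (C (ℓ : Zl ℓ)) (by rw [Ne, C_eq_zero]; exact ZlRing.natCast_ne_zero ℓ)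
    (by
      intro Q hQ t ht hQt
      rw [D.natDegree_eq] at hQ
      refine D.dvd_of_isDivl Q hQ ?_
      rw [hQt, hl]
      exact isDivl_iff.mpr ⟨t, ht, rfl⟩)
    x
    (by
      intro S hS hu
      have hle : IntermediateField.adjoin ℚ {jq, D.u} ≤
          S.toIntermediateField (fun r => by
            rw [eq_ratCast]
            exact SubfieldClass.ratCast_mem S r) := by
        rw [IntermediateField.adjoin_le_iff]
        rintro y (rfl | rfl)
        · have := hS X
          rwa [evalAt_X] at this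
        · exact hu
      exact hle hx)
    hint
  refine ⟨key.1, fun hdiv => ?_⟩
  obtain ⟨g, hg, hxg⟩ := isDivl_iff.mp hdiv
  have := key.2 g hg (by rw [hl, hxg])
  rwa [hxg, inv_mul_cancel_left₀ hl0]

end UData

section transfer

variable (N : ℕ) [NeZero N] (ℓ : ℕ) [Fact ℓ.Prime]

theorem val_comp_aeval_jFull :
    (algebraMap ↥(modularFunctionFieldFull N) (LaurentSeries ℚ)).comp
      (aeval (R := Zl ℓ) (jFull N)).toRingHom = evalAt ℓ jq := by
  refine Polynomial.ringHom_ext (fun a => ?_) ?_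
  · simp [evalAt]
    rfl
  · simp [evalAt]

theorem mem_chartAlgFin_iff (x : ↥(modularFunctionFieldFull N)) :
    x ∈ chartAlgFin N ℓ ↔ (evalAt ℓ jq).IsIntegralElem (x : LaurentSeries ℚ) := by
  rw [mem_chartAlg_iff]
  constructor
  · rintro ⟨p, hp, hpx⟩
    have hlift : p.map (algebraMap _ ↥(modularFunctionFieldFull N)) ∈
        lifts (aeval (R := Zl ℓ) (jFull N)).toRingHom := by
      rw [lifts_iff_coeff_lifts]
      intro n
      rw [coeff_map]
      have h : ((p.coeff n : Algebra.adjoin (Zl ℓ) {jFull N}) : ↥(modularFunctionFieldFull N)) ∈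
          (aeval (R := Zl ℓ) (jFull N)).range := by
        rw [← Algebra.adjoin_singleton_eq_range_aeval]
        exact (p.coeff n).2
      exact h
    obtain ⟨q, hq, -, hqm⟩ := lifts_and_natDegree_eq_and_monic hlift (hp.map _)
    refine ⟨q, hqm, ?_⟩
    rw [← val_comp_aeval_jFull N ℓ]
    have h1 := hom_eval₂ q (aeval (R := Zl ℓ) (jFull N)).toRingHom
      (algebraMap ↥(modularFunctionFieldFull N) (LaurentSeries ℚ)) x
    have h2 : q.eval₂ (aeval (R := Zl ℓ) (jFull N)).toRingHom x = 0 := by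
      rw [← eval_map, hq, eval_map, hpx]
    rw [h2, map_zero] at h1
    exact h1.symm
  · rintro ⟨q, hq, hqx⟩
    let f : (Zl ℓ)[X] →+* Algebra.adjoin (Zl ℓ) {jFull N} :=
      (aeval (R := Zl ℓ) (⟨jFull N, Algebra.subset_adjoin (Set.mem_singleton _)⟩ :
        Algebra.adjoin (Zl ℓ) {jFull N})).toRingHom
    have hf : (algebraMap (Algebra.adjoin (Zl ℓ) {jFull N}) ↥(modularFunctionFieldFull N)).comp f =
        (aeval (R := Zl ℓ) (jFull N)).toRingHom := by
      refine Polynomial.ringHom_ext (fun a => ?_) ?_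
      · simp [f]
      · simp [f]
    refine ⟨q.map f, hq.map f, ?_⟩
    rw [eval₂_map, hf]
    apply (algebraMap ↥(modularFunctionFieldFull N) (LaurentSeries ℚ)).injective
    rw [hom_eval₂, val_comp_aeval_jFull, map_zero]
    exact hqx

end transfer

theorem qep_fin (N : ℕ) [NeZero N] (ℓ : ℕ) [Fact ℓ.Prime] (D : UData N ℓ) :
    QEP N ℓ (chartAlgFin N ℓ) := by
  have hle : modularFunctionFieldFull N ≤ IntermediateField.adjoin ℚ {jq, D.u} := by
    rw [modularFunctionFieldFull, IntermediateField.adjoin_le_iff]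
    rintro x ⟨d, hd, hdN, rfl⟩
    exact D.gen d hdN
  constructor
  · intro x hx
    exact (D.core x (hle x.2) ((mem_chartAlgFin_iff N ℓ x).mp hx)).1
  · intro x hx hdiv
    have h := (D.core x (hle x.2) ((mem_chartAlgFin_iff N ℓ x).mp hx)).2 hdiv
    have hl0 : (ℓ : ↥(modularFunctionFieldFull N)) ≠ 0 := by
      exact_mod_cast (Fact.out : ℓ.Prime).ne_zero
    refine ⟨(ℓ : ↥(modularFunctionFieldFull N))⁻¹ * x, ?_, by rw [mul_inv_cancel_left₀ hl0]⟩
    rw [mem_chartAlgFin_iff]
    simpa using h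

end Fermat.Agent.S28

end
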