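import Fermat.Agent.S28.Euler

/-!
# S28: `euler_qep` repackaged for a ring homomorphism `φ : A → Ω` into a big field
-/

set_option autoImplicit false
set_option linter.style.haveILetI false

noncomputable section

open Polynomial IntermediateField

namespace Fermat.Agent.S28

theorem euler_core {A Ω : Type*} [CommRing A] [IsDomain A] [IsIntegrallyClosed A]
    [IsNoetherianRing A] [CharZero A] [Field Ω] (φ : A →+* Ω) (hφ : Function.Injective φ)
    (χ : A[X]) (hirr : Irreducible χ) (hmonic : χ.Monic) (u : Ω) (hu : χ.eval₂ φ u = 0)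
    (T : Subring Ω) (hAT : ∀ a, φ a ∈ T) (huT : u ∈ T)
    (hs : ((derivative χ).eval₂ φ u)⁻¹ ∈ T) (l : A) (hl : l ≠ 0)
    (hC : ∀ Q : A[X], Q.natDegree < χ.natDegree → ∀ t ∈ T, Q.eval₂ φ u = φ l * t → C l ∣ Q)
    (x : Ω) (hx : ∀ S : Subfield Ω, (∀ a, φ a ∈ S) → u ∈ S → x ∈ S)
    (hint : φ.IsIntegralElem x) :
    x ∈ T ∧ (∀ t ∈ T, x = φ l * t → φ.IsIntegralElem t) := by
  let K := FractionRing A
  letI : Algebra A Ω := φ.toAlgebra
  letI : Algebra K Ω := (IsFractionRing.lift hφ : K →+* Ω).toAlgebra
  haveI : IsScalarTower A K Ω :=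
    IsScalarTower.of_algebraMap_eq fun a => (IsFractionRing.lift_algebraMap hφ a).symm
  have hφalg : algebraMap A Ω = φ := rfl
  haveI : CharZero K := charZero_of_injective_algebraMap (IsFractionRing.injective A K)
  have hirr' : Irreducible (χ.map (algebraMap A K)) :=
    (Monic.irreducible_iff_irreducible_map_fraction_map hmonic).mp hirr
  have hroot : aeval u (χ.map (algebraMap A K)) = 0 := by
    rw [aeval_map_algebraMap, aeval_def, hφalg, hu]
  have hmin : minpoly K u = χ.map (algebraMap A K) :=
    (minpoly.eq_of_irreducible_of_monic hirr' hroot (hmonic.map _)).symm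
  have huA : IsIntegral A u := ⟨χ, hmonic, hu⟩
  have huK : IsIntegral K u := huA.tower_top
  let L := K⟮u⟯
  haveI : FiniteDimensional K L := adjoin.finiteDimensional huK
  haveI : IsScalarTower A L Ω := IsScalarTower.of_algebraMap_eq fun a => rfl
  let uL : L := AdjoinSimple.gen K u
  have huL : algebraMap L Ω uL = u := AdjoinSimple.algebraMap_gen K u
  have hinj : Function.Injective (algebraMap L Ω) := (algebraMap L Ω).injective
  have huLA : IsIntegral A uL := (isIntegral_algebraMap_iff hinj).mp (by rw [huL]; exact huA)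
  have htop : Algebra.adjoin K {uL} = ⊤ := by
    have := (adjoin.powerBasis huK).adjoin_gen_eq_top
    rwa [adjoin.powerBasis_gen] at this
  have hminL : minpoly K uL = χ.map (algebraMap A K) := by
    rw [minpoly_gen, hmin]
  have haeval : ∀ Q : A[X], algebraMap L Ω (aeval uL Q) = Q.eval₂ φ u := by
    intro Q
    rw [← aeval_algebraMap_apply, huL, aeval_def, hφalg]
  have hχ1 : χ ≠ 1 := fun h => hirr.not_isUnit (h ▸ isUnit_one)
  have key := euler_qep (A := A) (K := K) (L := L) uL huLA htop (T.comap (algebraMap L Ω))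
    (fun a => by
      rw [Subring.mem_comap, ← IsScalarTower.algebraMap_apply]
      exact hAT a)
    (by rw [Subring.mem_comap, huL]; exact huT)
    (by
      rw [Subring.mem_comap, map_inv₀, hminL, derivative_map, aeval_map_algebraMap, haeval]
      exact hs)
    l hl
    (by
      intro c hc t ht hct
      rw [Algebra.adjoin_singleton_eq_range_aeval] at hc ⊢
      obtain ⟨Q, hQc⟩ := hc
      replace hQc : aeval uL Q = c := hQc
      have hroot' : aeval uL χ = 0 := by
        apply hinj
        rw [haeval, hu, map_zero]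
      have h1 : aeval uL (Q %ₘ χ) = aeval uL Q := aeval_modByMonic_eq_self_of_root hroot'
      have h2 : (Q %ₘ χ).natDegree < χ.natDegree := natDegree_modByMonic_lt Q hmonic hχ1
      have h3 : (Q %ₘ χ).eval₂ φ u = φ l * algebraMap L Ω t := by
        rw [← haeval, h1, hQc, hct, map_mul, ← IsScalarTower.algebraMap_apply, hφalg]
      obtain ⟨Q', hQ'⟩ := hC _ h2 _ ht h3
      refine ⟨Q', ?_⟩
      have h4 : algebraMap A L l * aeval uL Q' = algebraMap A L l * t := by
        rw [← hct, ← hQc, ← h1, hQ', map_mul, aeval_C]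
      have hl' : algebraMap A L l ≠ 0 := by
        intro h0
        apply hl
        apply hφ
        rw [map_zero, ← hφalg, IsScalarTower.algebraMap_apply A L Ω, h0, map_zero]
      exact mul_left_cancel₀ hl' h4)
  have hxL : x ∈ L := hx L.toSubfield (fun a => by
    have : algebraMap L Ω (algebraMap A L a) ∈ L := (algebraMap A L a).2
    exact this) (mem_adjoin_simple_self K u)
  have hxint : IsIntegral A (⟨x, hxL⟩ : L) := (isIntegral_algebraMap_iff hinj).mp hint
  refine ⟨key.1 _ hxint, ?_⟩
  intro t ht hxt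
  have hl' : φ l ≠ 0 := fun h0 => hl (hφ (by rw [h0, map_zero]))
  have hlL : φ l ∈ L := (algebraMap A L l).2
  have htL : t ∈ L := by
    have : t = (φ l)⁻¹ * x := by
      rw [hxt, inv_mul_cancel_left₀ hl']
    rw [this]
    exact mul_mem (inv_mem hlL) hxL
  have := key.2 _ hxint ⟨t, htL⟩ ht (Subtype.ext hxt)
  exact (isIntegral_algebraMap_iff hinj).mpr this

end Fermat.Agent.S28

end
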