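import Fermat.Agent.S28.IntLaurent

/-!
# S28: consequences of the shape of `UData`
* `UData.isUnit_coeff_zero` : the constant term of `χ` is a unit of `ℤ_(ℓ)[Y]`;
* `UData.isInt_inv_weighted` : `∑ mᵢ c_{i+1}(j) uⁱ` (with `m₀ = 1`) is a unit of `ℤ_(ℓ)((q))`.
-/

set_option autoImplicit false

noncomputable section

open ModularCurve Polynomial

namespace Fermat.Agent.S28

namespace UData

variable {N ℓ : ℕ} (D : UData N ℓ)

/-- `P = (n-1) w`, the order of `u`. -/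
def P : ℕ := (D.n - 1) * D.w

theorem ordGE_u : OrdGE D.u (D.P : ℤ) := D.u_order

theorem ordGE_u_zero : OrdGE D.u 0 := D.ordGE_u.mono (by positivity)

theorem natDegree_coeff_le (i : ℕ) (hi : i ≤ D.n) :
    (D.χ.coeff i).natDegree ≤ (D.n - i) * D.w := by
  have h := D.deg_le (D.n - i) (Nat.sub_le _ _)
  rwa [Nat.sub_sub_self hi] at h

/-- The weighted sum `∑_{i<n} mᵢ c_{i+1}(j) uⁱ`. -/
def wsum (m : ℕ → ℕ) : LaurentSeries ℚ :=
  ∑ i ∈ Finset.range D.n, (m i : LaurentSeries ℚ) * (evalAt ℓ jq (D.χ.coeff (i + 1)) * D.u ^ i)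

theorem isInt_wsum (m : ℕ → ℕ) : IsInt ℓ (D.wsum m) :=
  IsInt.sum _ fun i _ => (isInt_natCast (m i)).mul ((isInt_evalAt_jq _).mul (D.u_int.pow i))

theorem ordGE_natCast (m : ℕ) : OrdGE (m : LaurentSeries ℚ) 0 := fun k hk => by
  have h := coeff_natCast_mul m 1 k
  rw [mul_one] at h
  rw [h, ordGE_one k hk, mul_zero]

theorem ordGE_term (m : ℕ → ℕ) (i : ℕ) (hi : i < D.n) :
    OrdGE ((m i : LaurentSeries ℚ) * (evalAt ℓ jq (D.χ.coeff (i + 1)) * D.u ^ i))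
      (-(((D.n - (i + 1)) * D.w : ℕ) : ℤ)) := by
  have h1 := ordGE_evalAt_jq (D.χ.coeff (i + 1)) (D.natDegree_coeff_le (i + 1) hi)
  have h2 := D.ordGE_u_zero.pow i
  have h3 := (ordGE_natCast (m i)).mul (h1.mul h2)
  refine h3.mono ?_
  simp

theorem ordGE_wsum (m : ℕ → ℕ) : OrdGE (D.wsum m) (-(D.P : ℤ)) := by
  refine OrdGE.sum _ fun i hi => ?_
  have hi' := Finset.mem_range.mp hi
  refine (D.ordGE_term m i hi').mono ?_
  have : (D.n - (i + 1)) * D.w ≤ D.P := Nat.mul_le_mul_right _ (by omega)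
  have : (((D.n - (i + 1)) * D.w : ℕ) : ℤ) ≤ (D.P : ℤ) := by exact_mod_cast this
  linarith

theorem coeff_wsum (m : ℕ → ℕ) (hm : m 0 = 1) :
    (D.wsum m).coeff (-(D.P : ℤ)) = (((D.χ.coeff 1).coeff D.P : Zl ℓ) : ℚ) := by
  have hn := D.hn
  have hw := D.hw
  obtain ⟨n', hn'⟩ : ∃ n', D.n = n' + 1 := ⟨D.n - 1, by omega⟩
  rw [wsum, hn', Finset.sum_range_succ', HahnSeries.coeff_add, HahnSeries.coeff_sum,
    Finset.sum_eq_zero, zero_add]
  · rw [hm, Nat.cast_one, one_mul, pow_zero, mul_one]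
    exact coeff_evalAt_jq _ (by simpa [P] using D.natDegree_coeff_le 1 hn)
  · intro i hi
    have hi' := Finset.mem_range.mp hi
    refine D.ordGE_term m (i + 1) (by omega) _ ?_
    have h1 : (D.n - (i + 1 + 1)) * D.w + D.w ≤ D.P := by
      have : (D.n - (i + 1 + 1)) * D.w + D.w = (D.n - (i + 1 + 1) + 1) * D.w := by ring
      rw [this]
      exact Nat.mul_le_mul_right _ (by omega)
    have h2 : (((D.n - (i + 1 + 1)) * D.w : ℕ) : ℤ) + (D.w : ℤ) ≤ (D.P : ℤ) := by exact_mod_cast h1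
    have h3 : (1 : ℤ) ≤ D.w := by exact_mod_cast hw
    linarith

/-- `∑ mᵢ c_{i+1}(j) uⁱ` has an `ℓ`-integral inverse as soon as `m₀ = 1`. -/
theorem isInt_inv_wsum (m : ℕ → ℕ) (hm : m 0 = 1) : IsInt ℓ (D.wsum m)⁻¹ := by
  refine (D.isInt_wsum m).inv (D.ordGE_wsum m) ?_
  have : (⟨(D.wsum m).coeff (-(D.P : ℤ)), D.isInt_wsum m _⟩ : Zl ℓ) = (D.χ.coeff 1).coeff D.P :=
    Subtype.ext (D.coeff_wsum m hm)
  rw [this]
  exact D.lead_unit

/-- `χ(u) = c_n(j) + u * ∑ c_{i+1}(j) uⁱ`. -/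
theorem eval_eq : D.χ.eval₂ (evalAt ℓ jq) D.u =
    evalAt ℓ jq (D.χ.coeff 0) + D.u * D.wsum fun _ => 1 := by
  rw [Polynomial.eval₂_eq_sum_range, D.natDegree_eq, Finset.sum_range_succ', wsum, Finset.mul_sum,
    pow_zero, mul_one, add_comm]
  congr 1
  refine Finset.sum_congr rfl fun i _ => ?_
  rw [Nat.cast_one, one_mul, pow_succ]
  ring

theorem evalAt_coeff_zero : evalAt ℓ jq (D.χ.coeff 0) = -(D.u * D.wsum fun _ => 1) := by
  have h := D.eval_eq
  rw [D.eval_eq_zero] at h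
  exact eq_neg_of_add_eq_zero_left h.symm

theorem natDegree_coeff_zero : (D.χ.coeff 0).natDegree = 0 := by
  by_contra hne
  have hpos : 0 < (D.χ.coeff 0).natDegree := Nat.pos_of_ne_zero hne
  have h1 := coeff_evalAt_jq (D.χ.coeff 0) le_rfl
  have h2 : OrdGE (evalAt ℓ jq (D.χ.coeff 0)) 0 := by
    rw [D.evalAt_coeff_zero]
    have := (D.ordGE_u.mul (D.ordGE_wsum fun _ => 1)).neg
    simpa using this
  rw [h2 _ (by simpa using hpos)] at h1
  have h3 : (D.χ.coeff 0).leadingCoeff = 0 := Subtype.ext h1.symm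
  rw [Polynomial.leadingCoeff_eq_zero] at h3
  rw [h3] at hpos
  simp at hpos

theorem coeff_zero_coeff_zero :
    (D.χ.coeff 0).coeff 0 = -(D.χ.coeff 1).coeff D.P := by
  have h1 := coeff_evalAt_jq (D.χ.coeff 0) (d := 0) (by rw [D.natDegree_coeff_zero])
  rw [D.evalAt_coeff_zero, HahnSeries.coeff_neg] at h1
  have h2 := coeff_mul_of_ordGE D.ordGE_u (D.ordGE_wsum fun _ => 1)
  rw [D.coeff_wsum _ rfl] at h2
  have h3 : D.u.coeff (D.P : ℤ) = 1 := D.u_lead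
  rw [h3, one_mul, add_neg_cancel] at h2
  have h4 : (-((0 : ℕ) : ℤ)) = 0 := by simp
  rw [h4, h2] at h1
  apply Subtype.ext
  rw [← h1]
  rfl

/-- The constant term of `χ` is a unit of `ℤ_(ℓ)[Y]`. -/
theorem isUnit_coeff_zero : IsUnit (D.χ.coeff 0) := by
  rw [Polynomial.eq_C_of_natDegree_eq_zero D.natDegree_coeff_zero, D.coeff_zero_coeff_zero]
  exact (D.lead_unit.neg).map C

end UData

end Fermat.Agent.S28

end
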