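import Fermat.Agent.S28.Defs
import Fermat.Agent.S28.ZlRing

/-!
# S28-T6: the `q`-expansion principle for the chart at infinity

`QEP (chartAlgMid) → QEP (chartAlgInf)`.
-/

set_option autoImplicit false

noncomputable section

open ModularCurve ModularCurve.IgusaScheme Polynomial

namespace Fermat.Agent.S28

namespace QEPInf

/-- General lemma: over an integrally closed domain `A`, if `a` is prime, `a ∤ b`, and both
`a • y` and `b • y` are integral over `A`, then `y` is integral over `A`. -/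
theorem isIntegral_of_smul_isIntegral {A L : Type*} [CommRing A] [IsDomain A]
    [IsIntegrallyClosed A] [Field L] [Algebra A L] [Module.IsTorsionFree A L]
    (a b : A) (ha : Prime a) (hab : ¬ a ∣ b) (y : L)
    (h1 : IsIntegral A (a • y)) (h2 : IsIntegral A (b • y)) : IsIntegral A y := by
  classical
  have ha0 : a ≠ 0 := ha.ne_zero
  have hb0 : b ≠ 0 := fun h => hab (h ▸ dvd_zero a)
  set P1 := minpoly A (a • y) with hP1
  set P2 := minpoly A (b • y) with hP2
  have e1 : minpoly A (b • a • y) = P1.scaleRoots b := IsIntegrallyClosed.minpoly_smul hb0 h1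
  have e2 : minpoly A (a • b • y) = P2.scaleRoots a := IsIntegrallyClosed.minpoly_smul ha0 h2
  have e3 : P1.scaleRoots b = P2.scaleRoots a := by rw [← e1, ← e2, smul_comm]
  have hd : P1.natDegree = P2.natDegree := by
    have := congrArg natDegree e3
    simpa [natDegree_scaleRoots] using this
  set d := P1.natDegree with hd1
  have hdvd : ∀ i, a ^ (d - i) ∣ P1.coeff i := by
    intro i
    have h := congrArg (fun p => coeff p i) e3
    simp only [coeff_scaleRoots] at h
    have h3 : a ^ (d - i) ∣ b ^ (d - i) * P1.coeff i :=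
      ⟨P2.coeff i, by rw [mul_comm, h, ← hd, mul_comm]⟩
    exact ha.pow_dvd_of_dvd_mul_left _ (fun h => hab (ha.dvd_of_dvd_pow h)) h3
  choose c hc using hdvd
  have hP1monic : P1.Monic := minpoly.monic h1
  have hcd : c d = 1 := by
    have h := hc d
    rw [Nat.sub_self, pow_zero, one_mul] at h
    rw [← h]
    exact hP1monic.coeff_natDegree
  set Q : A[X] := ∑ i ∈ Finset.range (d + 1), C (c i) * X ^ i with hQ
  have hQcoeff : ∀ i, i ≤ d → Q.coeff i = c i := by
    intro i hi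
    rw [hQ, finsetSum_coeff]
    simp only [coeff_C_mul, coeff_X_pow]
    rw [Finset.sum_eq_single i]
    · simp
    · intro j _ hj
      simp [hj.symm]
    · intro h
      exact absurd (Finset.mem_range.mpr (Nat.lt_succ_of_le hi)) h
  have hQdeg : Q.natDegree ≤ d := by
    rw [hQ]
    refine natDegree_sum_le_of_forall_le _ _ ?_
    intro i hi
    refine (natDegree_C_mul_X_pow_le _ _).trans ?_
    exact Nat.lt_succ_iff.mp (Finset.mem_range.mp hi)
  have hQmonic : Q.Monic := monic_of_natDegree_le_of_coeff_eq_one d hQdeg (by rw [hQcoeff d le_rfl, hcd])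
  refine ⟨Q, hQmonic, ?_⟩
  have hroot : aeval (a • y) P1 = 0 := minpoly.aeval A (a • y)
  rw [aeval_eq_sum_range] at hroot
  have hsum : (a ^ d) • (∑ i ∈ Finset.range (d + 1), c i • y ^ i) = 0 := by
    rw [← hroot, Finset.smul_sum]
    refine Finset.sum_congr rfl ?_
    intro i hi
    have hi' : i ≤ d := Nat.lt_succ_iff.mp (Finset.mem_range.mp hi)
    rw [hc i, _root_.smul_pow, smul_smul, smul_smul]
    congr 1
    rw [mul_assoc, mul_comm (c i), ← mul_assoc, ← pow_add, Nat.sub_add_cancel hi']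
  have hsum' : (∑ i ∈ Finset.range (d + 1), c i • y ^ i) = 0 :=
    (smul_eq_zero.mp hsum).resolve_left (pow_ne_zero _ ha0)
  rw [← aeval_def, hQ, map_sum, ← hsum']
  refine Finset.sum_congr rfl ?_
  intro i _
  simp [Algebra.smul_def]

/-- `j` is transcendental over `ℤ_(ℓ)` (it has a pole at `q = 0`). -/
theorem transcendental_jFull (N : ℕ) [NeZero N] (ℓ : ℕ) [Fact ℓ.Prime] :
    Transcendental (Zl ℓ) (jFull N) := by
  rw [transcendental_iff]
  intro p hp
  by_contra hne
  let ψ : ↥(modularFunctionFieldFull N) →+* LaurentSeries ℚ :=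
    (modularFunctionFieldFull N).toSubfield.subtype
  have h1 : ψ (aeval (jFull N) p) = 0 := by rw [hp, map_zero]
  rw [aeval_def, hom_eval₂, eval₂_eq_sum_range] at h1
  have h2 : ∀ r : Zl ℓ, (ψ.comp (algebraMap (Zl ℓ) ↥(modularFunctionFieldFull N))) r
      = HahnSeries.C (r : ℚ) := by
    intro r
    have h3 : (ψ.comp (algebraMap ℚ ↥(modularFunctionFieldFull N))) = HahnSeries.C :=
      Subsingleton.elim _ _
    exact DFunLike.congr_fun h3 (r : ℚ)
  have h4 : ψ (jFull N) = jq := rfl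
  have h := congrArg (fun f : LaurentSeries ℚ => f.coeff (-(p.natDegree : ℤ))) h1
  simp only [h2, h4, HahnSeries.coeff_sum, HahnSeries.C_mul_eq_smul, HahnSeries.coeff_smul,
    HahnSeries.coeff_zero] at h
  rw [Finset.sum_range_succ, coeff_jq_pow_self, Finset.sum_eq_zero] at h
  · simp only [zero_add, smul_eq_mul, mul_one] at h
    exact hne (leadingCoeff_eq_zero.mp (Subtype.ext h))
  · intro i hi
    rw [coeff_jq_pow_of_lt, smul_zero]
    have := Finset.mem_range.mp hi
    omega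

theorem transcendental_jFull_inv (N : ℕ) [NeZero N] (ℓ : ℕ) [Fact ℓ.Prime] :
    Transcendental (Zl ℓ) (jFull N)⁻¹ := by
  intro h
  exact transcendental_jFull N ℓ (IsAlgebraic.inv_iff.mp h)

/-- `qep_inf` with the two ring-theoretic facts on `ℤ_(ℓ)` as hypotheses. -/
theorem qep_inf_of (N : ℕ) [NeZero N] (ℓ : ℕ) [Fact ℓ.Prime]
    [UniqueFactorizationMonoid (Zl ℓ)] (hprime : Prime ((ℓ : ℕ) : Zl ℓ))
    (h : QEP N ℓ (chartAlgMid N ℓ)) : QEP N ℓ (chartAlgInf N ℓ) := by
  refine ⟨fun x hx => h.1 x (chartAlg_mono N ℓ (sInf_subset N) hx), ?_⟩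
  intro x hx hdiv
  obtain ⟨y, hy, hxy⟩ := h.2 x (chartAlg_mono N ℓ (sInf_subset N) hx) hdiv
  refine ⟨y, ?_, hxy⟩
  have htr : Transcendental (Zl ℓ) (jFull N)⁻¹ := transcendental_jFull_inv N ℓ
  have hy' : y ∈ chartAlg N ℓ (insert (jFull N)⁻¹⁻¹ {(jFull N)⁻¹}) := by
    rw [inv_inv]; exact hy
  obtain ⟨m, hm⟩ := exists_pow_mul_mem_chartAlg (Set.mem_singleton _)
    (inv_ne_zero (jFull_ne_zero N)) hy'
  have : UniqueFactorizationMonoid (Algebra.adjoin (Zl ℓ) {(jFull N)⁻¹}) :=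
    htr.uniqueFactorizationMonoid_adjoin
  let e := algEquivOfTranscendental (Zl ℓ) (jFull N)⁻¹ htr
  let t' : Algebra.adjoin (Zl ℓ) {(jFull N)⁻¹} :=
    ⟨(jFull N)⁻¹, Algebra.self_mem_adjoin_singleton _ _⟩
  have hCprime : Prime (C ((ℓ : ℕ) : Zl ℓ)) := prime_C_iff.mpr hprime
  have ha : Prime (e (C ((ℓ : ℕ) : Zl ℓ))) := (MulEquiv.prime_iff e.toMulEquiv).mpr hCprime
  have het : e X = t' := algEquivOfTranscendental_apply_X (Zl ℓ) (jFull N)⁻¹ htr
  have hab : ¬ e (C ((ℓ : ℕ) : Zl ℓ)) ∣ t' ^ m := by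
    intro hdvd
    have h1 : e (C ((ℓ : ℕ) : Zl ℓ)) ∣ e X := het ▸ ha.dvd_of_dvd_pow hdvd
    have h2 : C ((ℓ : ℕ) : Zl ℓ) ∣ (X : (Zl ℓ)[X]) := (map_dvd_iff e).mp h1
    have h3 : ((ℓ : ℕ) : Zl ℓ) ∣ (X : (Zl ℓ)[X]).coeff 1 := (C_dvd_iff_dvd_coeff _ _).mp h2 1
    rw [coeff_X_one] at h3
    exact hprime.not_isUnit (isUnit_of_dvd_one h3)
  rw [mem_chartAlg_iff] at hx hm ⊢
  have htf : Module.IsTorsionFree ↥(Algebra.adjoin (Zl ℓ) {(jFull N)⁻¹})
      ↥(modularFunctionFieldFull N) := Subalgebra.instIsTorsionFree' _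
  have hic : IsIntegrallyClosed ↥(Algebra.adjoin (Zl ℓ) {(jFull N)⁻¹}) :=
    UniqueFactorizationMonoid.instIsIntegrallyClosed
  refine isIntegral_of_smul_isIntegral (A := ↥(Algebra.adjoin (Zl ℓ) {(jFull N)⁻¹}))
    (L := ↥(modularFunctionFieldFull N)) _ _ ha hab y ?_ ?_
  · have : e (C ((ℓ : ℕ) : Zl ℓ)) • y = x := by
      rw [hxy, Subalgebra.smul_def, smul_eq_mul]
      congr 1
      simp [e]
    rw [this]; exact hx
  · have : (t' ^ m) • y = (jFull N)⁻¹ ^ m * y := by
      rw [Subalgebra.smul_def, smul_eq_mul]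
      rfl
    rw [this]; exact hm

end QEPInf

/-- **S28-T6**: the `q`-expansion principle passes from the middle chart to the chart at
infinity. -/
theorem qep_inf (N : ℕ) [NeZero N] (ℓ : ℕ) [Fact ℓ.Prime] (h : QEP N ℓ (chartAlgMid N ℓ)) :
    QEP N ℓ (chartAlgInf N ℓ) :=
  have := ZlRing.uniqueFactorizationMonoid ℓ
  QEPInf.qep_inf_of N ℓ (ZlRing.prime_natCast ℓ) h

end Fermat.Agent.S28

end
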