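import Fermat.Agent.S28.Defs

/-!
# S28-T5: the `q`-expansion principle passes from the finite chart to the middle chart
-/

set_option autoImplicit false

noncomputable section

open ModularCurve ModularCurve.IgusaScheme Polynomial

namespace Fermat.Agent.S28

namespace QEPMid

variable (ℓ : ℕ)

/-- The inclusion `ℤ_(ℓ) → ℚ`. -/
abbrev incl : Zl ℓ →+* ℚ := (GaloisRep.ratLocalizedAt ℓ).subtype

/-- Lift of an `ℓ`-integral Laurent series to a Laurent series over `ℤ_(ℓ)`. -/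
def lift {f : LaurentSeries ℚ} (h : IsInt ℓ f) : LaurentSeries (Zl ℓ) where
  coeff k := ⟨f.coeff k, h k⟩
  isPWO_support' := by
    refine f.isPWO_support.mono ?_
    intro k hk
    simp only [Function.mem_support, ne_eq] at hk
    rw [HahnSeries.mem_support]
    intro h0
    exact hk (Subtype.ext h0)

theorem coeffMap_lift {f : LaurentSeries ℚ} (h : IsInt ℓ f) :
    coeffMap (incl ℓ) (lift ℓ h) = f := by
  ext k
  rfl

theorem isInt_coeffMap (g : LaurentSeries (Zl ℓ)) : IsInt ℓ (coeffMap (incl ℓ) g) :=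
  fun k => (g.coeff k).2

theorem isInt_iff {f : LaurentSeries ℚ} :
    IsInt ℓ f ↔ ∃ g : LaurentSeries (Zl ℓ), coeffMap (incl ℓ) g = f :=
  ⟨fun h => ⟨lift ℓ h, coeffMap_lift ℓ h⟩, fun ⟨g, hg⟩ => hg ▸ isInt_coeffMap ℓ g⟩

variable {ℓ}

theorem IsInt.mul' {f g : LaurentSeries ℚ} (hf : IsInt ℓ f) (hg : IsInt ℓ g) :
    IsInt ℓ (f * g) := by
  obtain ⟨f', rfl⟩ := (isInt_iff ℓ).1 hf
  obtain ⟨g', rfl⟩ := (isInt_iff ℓ).1 hg
  rw [← map_mul]
  exact isInt_coeffMap ℓ _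

theorem isInt_one : IsInt ℓ (1 : LaurentSeries ℚ) := by
  rw [← map_one (coeffMap (incl ℓ))]
  exact isInt_coeffMap ℓ _

theorem IsInt.pow' {f : LaurentSeries ℚ} (hf : IsInt ℓ f) (n : ℕ) : IsInt ℓ (f ^ n) := by
  induction n with
  | zero => rw [pow_zero]; exact isInt_one
  | succ n ih => rw [pow_succ]; exact IsInt.mul' ih hf

theorem natCast_mul_coeff (f : LaurentSeries ℚ) (k : ℤ) :
    (((ℓ : ℕ) : LaurentSeries ℚ) * f).coeff k = (ℓ : ℚ) * f.coeff k := by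
  have h : ((ℓ : ℕ) : LaurentSeries ℚ) = HahnSeries.C ((ℓ : ℕ) : ℚ) := by
    rw [map_natCast]
  rw [h, HahnSeries.C_mul_eq_smul, HahnSeries.coeff_smul, smul_eq_mul]

theorem isDivl_iff {f : LaurentSeries ℚ} :
    IsDivl ℓ f ↔ ∃ g : LaurentSeries ℚ, IsInt ℓ g ∧ f = ((ℓ : ℕ) : LaurentSeries ℚ) * g := by
  constructor
  · intro h
    by_cases hℓ : (ℓ : ℚ) = 0
    · refine ⟨0, fun k => by simp, ?_⟩
      ext k
      obtain ⟨r, -, hr⟩ := h k
      rw [hr, hℓ]
      simp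
    · refine ⟨HahnSeries.C ((ℓ : ℚ)⁻¹) * f, fun k => ?_, ?_⟩
      · obtain ⟨r, hr, hk⟩ := h k
        rw [HahnSeries.C_mul_eq_smul, HahnSeries.coeff_smul, smul_eq_mul, hk,
          inv_mul_cancel_left₀ hℓ]
        exact hr
      · ext k
        rw [natCast_mul_coeff, HahnSeries.C_mul_eq_smul, HahnSeries.coeff_smul, smul_eq_mul,
          mul_inv_cancel_left₀ hℓ]
  · rintro ⟨g, hg, rfl⟩ k
    exact ⟨g.coeff k, hg k, natCast_mul_coeff g k⟩

theorem IsInt.mul_isDivl {f g : LaurentSeries ℚ} (hf : IsInt ℓ f) (hg : IsDivl ℓ g) :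
    IsDivl ℓ (f * g) := by
  obtain ⟨g', hg', rfl⟩ := isDivl_iff.1 hg
  exact isDivl_iff.2 ⟨f * g', IsInt.mul' hf hg', by ring⟩

/-- `j` has `ℓ`-integral `q`-expansion. -/
theorem isInt_jq : IsInt ℓ jq := by
  have h : coeffMap (incl ℓ) (jqModC (Zl ℓ)) = jq := coeffMap_jqModC (incl ℓ)
  rw [← h]
  exact isInt_coeffMap ℓ _

/-- An explicit inverse of `j` with integral coefficients. -/
def jInvZ (R : Type*) [CommRing R] : LaurentSeries R :=
  HahnSeries.single (1 : ℤ) 1 *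
    HahnSeries.ofPowerSeries ℤ R ((jNum.invOfUnit 1).map (Int.castRingHom R))

theorem jqModC_mul_jInvZ (R : Type*) [CommRing R] : jqModC R * jInvZ R = 1 := by
  have h1 : jNum * jNum.invOfUnit 1 = 1 :=
    PowerSeries.mul_invOfUnit _ _ (by rw [constantCoeff_jNum]; rfl)
  have h2 : (jNum.map (Int.castRingHom R)) * ((jNum.invOfUnit 1).map (Int.castRingHom R)) = 1 := by
    rw [← map_mul, h1, map_one]
  have h3 : (HahnSeries.single (-1 : ℤ) (1 : R)) * HahnSeries.single (1 : ℤ) (1 : R) = 1 := by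
    rw [HahnSeries.single_mul_single]
    simp
  calc jqModC R * jInvZ R
      = (HahnSeries.single (-1 : ℤ) (1 : R) * HahnSeries.single (1 : ℤ) (1 : R)) *
        (HahnSeries.ofPowerSeries ℤ R (jNum.map (Int.castRingHom R)) *
          HahnSeries.ofPowerSeries ℤ R ((jNum.invOfUnit 1).map (Int.castRingHom R))) := by
        rw [jqModC, jInvZ]; ring
    _ = 1 := by rw [h3, ← map_mul, h2, map_one, one_mul]

theorem isInt_jq_inv : IsInt ℓ (jq⁻¹) := by
  have h : coeffMap (incl ℓ) (jqModC (Zl ℓ)) = jq := coeffMap_jqModC (incl ℓ)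
  have h2 : jq * coeffMap (incl ℓ) (jInvZ (Zl ℓ)) = 1 := by
    rw [← h, ← map_mul, jqModC_mul_jInvZ, map_one]
  have h3 : jq⁻¹ = coeffMap (incl ℓ) (jInvZ (Zl ℓ)) := (eq_inv_of_mul_eq_one_right h2).symm
  rw [h3]
  exact isInt_coeffMap ℓ _

end QEPMid

open QEPMid

theorem qep_mid (N : ℕ) [NeZero N] (ℓ : ℕ) [Fact ℓ.Prime] (h : QEP N ℓ (chartAlgFin N ℓ)) :
    QEP N ℓ (chartAlgMid N ℓ) := by
  have key : ∀ x ∈ chartAlgMid N ℓ, ∃ n : ℕ, (jFull N) ^ n * x ∈ chartAlgFin N ℓ := by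
    intro x hx
    have hz : x ∈ chartAlg N ℓ (insert (jFull N)⁻¹ {jFull N}) := by
      rw [show insert (jFull N)⁻¹ ({jFull N} : Set ↥(modularFunctionFieldFull N)) =
        {jFull N, (jFull N)⁻¹} from Set.pair_comm _ _]
      exact hx
    exact exists_pow_mul_mem_chartAlg (Set.mem_singleton _) (jFull_ne_zero N) hz
  have hjinv : (jFull N)⁻¹ ∈ chartAlgMid N ℓ := subset_chartAlg N ℓ _ (by simp)
  refine ⟨fun x hx => ?_, fun x hx hdiv => ?_⟩
  · obtain ⟨n, hn⟩ := key x hx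
    have h1 := h.1 _ hn
    have h2 : (x : LaurentSeries ℚ) =
        (jq⁻¹) ^ n * (((jFull N) ^ n * x : ↥(modularFunctionFieldFull N)) : LaurentSeries ℚ) := by
      push_cast
      rw [coe_jFull, ← mul_assoc, ← mul_pow, inv_mul_cancel₀ jq_ne_zero, one_pow, one_mul]
    rw [h2]
    exact IsInt.mul' (IsInt.pow' isInt_jq_inv n) h1
  · obtain ⟨n, hn⟩ := key x hx
    have h1 : IsDivl ℓ (((jFull N) ^ n * x : ↥(modularFunctionFieldFull N)) : LaurentSeries ℚ) := by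
      push_cast
      rw [coe_jFull]
      exact IsInt.mul_isDivl (IsInt.pow' isInt_jq n) hdiv
    obtain ⟨y, hy, hxy⟩ := h.2 _ hn h1
    refine ⟨((jFull N)⁻¹) ^ n * y, ?_, ?_⟩
    · exact mul_mem (pow_mem hjinv n) (chartAlg_mono N ℓ (sFin_subset N) hy)
    · have h0 := jFull_ne_zero N
      calc x = ((jFull N)⁻¹) ^ n * ((jFull N) ^ n * x) := by
            rw [← mul_assoc, ← mul_pow, inv_mul_cancel₀ h0, one_pow, one_mul]
        _ = (ℓ : ↥(modularFunctionFieldFull N)) * (((jFull N)⁻¹) ^ n * y) := by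
            rw [hxy]; ring

end Fermat.Agent.S28

end
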