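import Mathlib
import Fermat.Prelude.Def_ModularCurve_IgusaScheme
import Fermat.Prelude.Def_ModularCurve_X0ModL

/-!
# S28: basic definitions and the interface `UData` between the two halves of the proof
-/

set_option autoImplicit false

noncomputable section

open ModularCurve ModularCurve.IgusaScheme Polynomial

namespace Fermat.Agent.S28

/-- `ℤ_(ℓ)` as a type. -/
abbrev Zl (ℓ : ℕ) : Type := ↥(GaloisRep.ratLocalizedAt ℓ)

/-- A Laurent series over `ℚ` all of whose coefficients are `ℓ`-integral. -/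
def IsInt (ℓ : ℕ) (f : LaurentSeries ℚ) : Prop :=
  ∀ k : ℤ, f.coeff k ∈ GaloisRep.ratLocalizedAt ℓ

/-- A Laurent series over `ℚ` all of whose coefficients are in `ℓ ℤ_(ℓ)`. -/
def IsDivl (ℓ : ℕ) (f : LaurentSeries ℚ) : Prop :=
  ∀ k : ℤ, ∃ r ∈ GaloisRep.ratLocalizedAt ℓ, f.coeff k = (ℓ : ℚ) * r

/-- The `q`-expansion principle for a `ℤ_(ℓ)`-subalgebra of the function field. -/
def QEP (N : ℕ) [NeZero N] (ℓ : ℕ) [Fact ℓ.Prime]
    (A : Subalgebra (Zl ℓ) ↥(modularFunctionFieldFull N)) : Prop :=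
  (∀ x ∈ A, IsInt ℓ (x : LaurentSeries ℚ)) ∧
  (∀ x ∈ A, IsDivl ℓ (x : LaurentSeries ℚ) → ∃ y ∈ A, x = (ℓ : ↥(modularFunctionFieldFull N)) * y)

/-- Evaluation `Y ↦ t` from `ℤ_(ℓ)[Y]` to `ℚ((q))`. -/
def evalAt (ℓ : ℕ) (t : LaurentSeries ℚ) : (Zl ℓ)[X] →+* LaurentSeries ℚ :=
  Polynomial.eval₂RingHom
    ((algebraMap ℚ (LaurentSeries ℚ)).comp (GaloisRep.ratLocalizedAt ℓ).subtype) t

/-- The interface between the modular (analytic) half and the algebraic half.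
`χ = X^n + c₁ X^(n-1) + ... + c_n ∈ ℤ_(ℓ)[Y][X]`, `c_i = χ.coeff (n - i)`. -/
structure UData (N ℓ : ℕ) where
  n : ℕ
  w : ℕ
  hn : 1 ≤ n
  hw : 1 ≤ w
  u : LaurentSeries ℚ
  χ : (Zl ℓ)[X][X]
  monic : χ.Monic
  natDegree_eq : χ.natDegree = n
  eval_eq_zero : χ.eval₂ (evalAt ℓ jq) u = 0
  deg_le : ∀ i ≤ n, (χ.coeff (n - i)).natDegree ≤ i * w
  lead_unit : IsUnit ((χ.coeff 1).coeff ((n - 1) * w))
  u_int : IsInt ℓ u
  u_order : ∀ k : ℤ, k < (((n - 1) * w : ℕ) : ℤ) → u.coeff k = 0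
  u_lead : u.coeff (((n - 1) * w : ℕ) : ℤ) = 1
  gen : ∀ (d : ℕ) [NeZero d], d ∣ N → qExpand ℚ d jq ∈ IntermediateField.adjoin ℚ {jq, u}

end Fermat.Agent.S28

end
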