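import Mathlib

/-!
# S28-T3: an abstract form of Euler's lemma on the different, giving a `q`-expansion principle

`C = A[u]`, `s = f'(u)`.  Every integral element lies in `s⁻¹ C`; if `T` is a subring containing
`C` and `s⁻¹` in which `C` is `l`-saturated, then the integral closure is `l`-saturated in `T`.
-/

set_option autoImplicit false

open Polynomial
open scoped Pointwise

namespace Fermat.Agent.S28

section

variable {A K L : Type*} [CommRing A] [IsDomain A] [IsIntegrallyClosed A]
    [Field K] [Algebra A K] [IsFractionRing A K] [Field L] [Algebra K L]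
    [Algebra A L] [IsScalarTower A K L] [FiniteDimensional K L] [Algebra.IsSeparable K L]

/-- Integral elements lie in `f'(u)⁻¹ • A[u]`. -/
theorem euler_mem_smul (u : L) (hu : IsIntegral A u) (htop : Algebra.adjoin K {u} = ⊤)
    (x : L) (hx : IsIntegral A x) :
    x ∈ (aeval u (derivative (minpoly K u)) : L)⁻¹ •
      (Subalgebra.toSubmodule (Algebra.adjoin A {u})) := by
  rw [← traceForm_dualSubmodule_adjoin A K htop hu, LinearMap.BilinForm.mem_dualSubmodule]
  intro y hy
  have hy' : IsIntegral A y :=
    IsIntegral.of_mem_of_fg _ hu.fg_adjoin_singleton y hy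
  have htr : IsIntegral A (Algebra.trace K L (x * y)) := Algebra.isIntegral_trace (hx.mul hy')
  obtain ⟨a, ha⟩ := IsIntegrallyClosed.isIntegral_iff.mp htr
  rw [Algebra.traceForm_apply, ← ha]
  exact Submodule.mem_one.mpr ⟨a, rfl⟩

omit [FiniteDimensional K L] [Algebra.IsSeparable K L] in
/-- `f'(u) ∈ A[u]`. -/
theorem euler_deriv_mem (u : L) (hu : IsIntegral A u) :
    (aeval u (derivative (minpoly K u)) : L) ∈ Algebra.adjoin A {u} := by
  rw [minpoly.isIntegrallyClosed_eq_field_fractions' K hu, derivative_map, aeval_map_algebraMap,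
    Algebra.adjoin_singleton_eq_range_aeval]
  exact ⟨_, rfl⟩

end

theorem euler_qep {A K L : Type*} [CommRing A] [IsDomain A] [IsIntegrallyClosed A]
    [IsNoetherianRing A] [Field K] [Algebra A K] [IsFractionRing A K] [Field L] [Algebra K L]
    [Algebra A L] [IsScalarTower A K L] [FiniteDimensional K L] [Algebra.IsSeparable K L]
    (u : L) (hu : IsIntegral A u) (htop : Algebra.adjoin K {u} = ⊤)
    (T : Subring L) (hAT : ∀ a : A, algebraMap A L a ∈ T) (huT : u ∈ T)
    (hs : (aeval u (derivative (minpoly K u)))⁻¹ ∈ T)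
    (l : A) (hl : l ≠ 0)
    (hC : ∀ c ∈ Algebra.adjoin A {u}, ∀ t ∈ T, c = algebraMap A L l * t →
      t ∈ Algebra.adjoin A {u}) :
    (∀ x : L, IsIntegral A x → x ∈ T) ∧
    (∀ x : L, IsIntegral A x → ∀ t ∈ T, x = algebraMap A L l * t → IsIntegral A t) := by
  set s : L := aeval u (derivative (minpoly K u)) with hsdef
  have hs0 : s ≠ 0 := by
    intro h0
    have hsep : (minpoly K u).Separable := Algebra.IsSeparable.isSeparable K u
    have h1 : aeval u (minpoly K u) = 0 := minpoly.aeval K u
    obtain ⟨a, b, hab⟩ := hsep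
    have := congrArg (aeval u) hab
    rw [map_add, map_mul, map_mul, h1, ← hsdef, h0, mul_zero, mul_zero, add_zero, map_one] at this
    exact zero_ne_one this
  -- `A[u] ⊆ T`
  have hCT : ∀ c ∈ Algebra.adjoin A {u}, c ∈ T := by
    intro c hc
    induction hc using Algebra.adjoin_induction with
    | mem y hy => rw [Set.mem_singleton_iff] at hy; rw [hy]; exact huT
    | algebraMap a => exact hAT a
    | add y z _ _ hy hz => exact T.add_mem hy hz
    | mul y z _ _ hy hz => exact T.mul_mem hy hz
  have hsC : s ∈ Algebra.adjoin A {u} := euler_deriv_mem (K := K) u hu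
  have hsT : s ∈ T := hCT s hsC
  -- integral elements: `s * x ∈ A[u]`
  have hint : ∀ x : L, IsIntegral A x → s * x ∈ Algebra.adjoin A {u} := by
    intro x hx
    have := euler_mem_smul (K := K) u hu htop x hx
    rw [← hsdef] at this
    obtain ⟨c, hc, hcx⟩ := Submodule.mem_smul_pointwise_iff_exists _ _ _ |>.mp this
    have : s * x = c := by
      rw [← hcx, smul_eq_mul, mul_inv_cancel_left₀ hs0]
    rw [this]
    exact hc
  refine ⟨fun x hx => ?_, fun x hx t ht hxt => ?_⟩
  · have h1 : s⁻¹ * (s * x) ∈ T := T.mul_mem hs (hCT _ (hint x hx))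
    rwa [inv_mul_cancel_left₀ hs0] at h1
  · -- key: `z ∈ T`, `l ^ m * z` integral implies `s * z ∈ A[u]`
    have key : ∀ (m : ℕ) (z : L), z ∈ T → IsIntegral A (algebraMap A L l ^ m * z) →
        s * z ∈ Algebra.adjoin A {u} := by
      intro m
      induction m with
      | zero =>
        intro z _ hz
        rw [pow_zero, one_mul] at hz
        exact hint z hz
      | succ m ih =>
        intro z hzT hz
        have h1 : s * (algebraMap A L l * z) ∈ Algebra.adjoin A {u} := by
          apply ih _ (T.mul_mem (hAT l) hzT)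
          rwa [← mul_assoc, ← pow_succ]
        exact hC _ h1 (s * z) (T.mul_mem hsT hzT) (by ring)
    have hpow : ∀ k : ℕ, s * t ^ k ∈ Algebra.adjoin A {u} := by
      intro k
      apply key k (t ^ k) (T.pow_mem ht k)
      rw [← mul_pow, ← hxt]
      exact hx.pow k
    -- `A[t] ⊆ s⁻¹ • A[u]`
    have hle : Subalgebra.toSubmodule (Algebra.adjoin A {t}) ≤
        s⁻¹ • Subalgebra.toSubmodule (Algebra.adjoin A {u}) := by
      rw [Algebra.adjoin_eq_span, Submodule.span_le]
      intro y hy
      rw [SetLike.mem_coe, Submonoid.mem_closure_singleton] at hy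
      obtain ⟨k, rfl⟩ := hy
      rw [SetLike.mem_coe, Submodule.mem_smul_pointwise_iff_exists]
      exact ⟨s * t ^ k, hpow k, by rw [smul_eq_mul, inv_mul_cancel_left₀ hs0]⟩
    have hfg : (s⁻¹ • Subalgebra.toSubmodule (Algebra.adjoin A {u})).FG := by
      have := hu.fg_adjoin_singleton
      exact this.map (DistribSMul.toLinearMap A L s⁻¹)
    have hfg' : (Subalgebra.toSubmodule (Algebra.adjoin A {t})).FG := hfg.of_le hle
    exact IsIntegral.of_mem_of_fg _ hfg' t (Algebra.self_mem_adjoin_singleton A t)

end Fermat.Agent.S28
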