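import Mathlib
import Fermat.Prelude.Def_ModularCurve_IgusaScheme

set_option autoImplicit false

open AlgebraicGeometry CategoryTheory CategoryTheory.Limits ModularCurve ModularCurve.IgusaScheme
open scoped TensorProduct

noncomputable section

namespace Fermat.Agent.S28.SchemeReduction

/-- A space covered by irreducible open sets all meeting a fixed one is irreducible. -/
theorem irreducibleSpace_of_cover {X : Type*} [TopologicalSpace X] {ι : Type*} (U : ι → Set X)
    (hU : ∀ i, IsIrreducible (U i)) (hopen : ∀ i, IsOpen (U i))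
    (hcov : ∀ x : X, ∃ i, x ∈ U i) (i₀ : ι) (hmeet : ∀ i, (U i ∩ U i₀).Nonempty) :
    IrreducibleSpace X := by
  have hcl : closure (U i₀) = Set.univ := by
    refine Set.eq_univ_of_forall fun x => ?_
    obtain ⟨i, hi⟩ := hcov x
    rw [mem_closure_iff]
    intro O hO hxO
    obtain ⟨y, -, hy⟩ := (hU i).2 O (U i₀) hO (hopen i₀) ⟨x, hi, hxO⟩ (hmeet i)
    exact ⟨y, hy⟩
  have h := (hU i₀).closure
  rw [hcl] at h
  exact (irreducibleSpace_def X).mpr h

/-- A scheme with an open cover by integral schemes, all of whose images meet a fixed one,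
is integral. -/
theorem isIntegral_of_openCover {P : Scheme} (𝒱 : P.OpenCover) (h𝒱 : ∀ i, IsIntegral (𝒱.X i))
    (i₀ : 𝒱.I₀) (hmeet : ∀ i, (Set.range (𝒱.f i) ∩ Set.range (𝒱.f i₀)).Nonempty) :
    IsIntegral P := by
  have : IsReduced P := IsReduced.of_openCover P 𝒱
  have : IrreducibleSpace P := by
    refine irreducibleSpace_of_cover (fun i => Set.range (𝒱.f i)) (fun i => ?_) (fun i => ?_)
      (fun x => ?_) i₀ hmeet
    · rw [← Set.image_univ]
      exact (IrreducibleSpace.isIrreducible_univ _).image _ (𝒱.f i).continuous.continuousOn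
    · exact (𝒱.f i).isOpenEmbedding.isOpen_range
    · obtain ⟨i, y, hy⟩ := 𝒱.exists_eq x
      exact ⟨i, y, hy⟩
  exact isIntegral_of_irreducibleSpace_of_isReduced P

/-- Two integral open charts which cover and meet. -/
theorem isIntegral_of_two_charts {P U V : Scheme} (a : U ⟶ P) (b : V ⟶ P)
    [IsOpenImmersion a] [IsOpenImmersion b] [IsIntegral U] [IsIntegral V]
    (hcov : ∀ x : P, x ∈ Set.range a ∨ x ∈ Set.range b)
    (hmeet : (Set.range a ∩ Set.range b).Nonempty) : IsIntegral P := by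
  let 𝒱 : P.OpenCover := Scheme.Cover.mkOfCovers Bool (fun i => bif i then U else V)
    (fun i => match i with
      | true => a
      | false => b)
    (fun x => by
      rcases hcov x with ⟨y, hy⟩ | ⟨y, hy⟩
      · exact ⟨true, y, hy⟩
      · exact ⟨false, y, hy⟩)
    (fun i => match i with
      | true => inferInstanceAs (IsOpenImmersion a)
      | false => inferInstanceAs (IsOpenImmersion b))
  refine isIntegral_of_openCover 𝒱 (fun i => ?_) true (fun i => ?_)
  · match i with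
    | true => exact inferInstanceAs (IsIntegral U)
    | false => exact inferInstanceAs (IsIntegral V)
  · match i with
    | true =>
      obtain ⟨x, hx, -⟩ := hmeet
      exact ⟨x, hx, hx⟩
    | false =>
      obtain ⟨x, hx, hx'⟩ := hmeet
      exact ⟨x, hx', hx⟩

section Igusa

variable (N : ℕ) [NeZero N] (ℓ : ℕ) [Fact ℓ.Prime]
variable (K : Type) [Field K] [Algebra ↥(GaloisRep.ratLocalizedAt ℓ) K]

/-- the structure morphism of `Spec K` -/
abbrev gK : Spec (CommRingCat.of K) ⟶ Spec (CommRingCat.of ↥(GaloisRep.ratLocalizedAt ℓ)) :=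
  Spec.map (CommRingCat.ofHom (algebraMap ↥(GaloisRep.ratLocalizedAt ℓ) K))

/-- the fibre -/
abbrev fibre : Scheme := pullback (igusaTo N ℓ) (gK ℓ K)

/-- General chart: for `c : Spec A ⟶ Igusa` over the base, the preimage of the chart in the fibre
is `Spec (A ⊗ K)`. -/
def chartIso (A : Type) [CommRing A] [Algebra ↥(GaloisRep.ratLocalizedAt ℓ) A]
    (c : Spec (CommRingCat.of A) ⟶ ModularCurve.IgusaScheme N ℓ)
    (hc : c ≫ igusaTo N ℓ =
      Spec.map (CommRingCat.ofHom (algebraMap ↥(GaloisRep.ratLocalizedAt ℓ) A))) :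
    pullback c (pullback.fst (igusaTo N ℓ) (gK ℓ K)) ≅
      Spec (CommRingCat.of (A ⊗[↥(GaloisRep.ratLocalizedAt ℓ)] K)) :=
  pullbackRightPullbackFstIso (igusaTo N ℓ) (gK ℓ K) c ≪≫ pullback.congrHom hc rfl ≪≫
    pullbackSpecIso ↥(GaloisRep.ratLocalizedAt ℓ) A K

theorem midTo :
    (fFin N ℓ ≫ ιFin N ℓ) ≫ igusaTo N ℓ =
      Spec.map (CommRingCat.ofHom (algebraMap ↥(GaloisRep.ratLocalizedAt ℓ) (chartAlgMid N ℓ))) := by
  rw [Category.assoc, ιFin_igusaTo, ← Spec.map_comp, ← CommRingCat.ofHom_comp]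
  congr 2

theorem isIntegral_pullback_of_isDomain
    (hFin : IsDomain ((chartAlgFin N ℓ) ⊗[↥(GaloisRep.ratLocalizedAt ℓ)] K))
    (hInf : IsDomain ((chartAlgInf N ℓ) ⊗[↥(GaloisRep.ratLocalizedAt ℓ)] K))
    (hMid : Nontrivial ((chartAlgMid N ℓ) ⊗[↥(GaloisRep.ratLocalizedAt ℓ)] K)) :
    IsIntegral (pullback (igusaTo N ℓ)
      (Spec.map (CommRingCat.ofHom (algebraMap ↥(GaloisRep.ratLocalizedAt ℓ) K)))) := by
  have hU : IsIntegral (pullback (ιFin N ℓ) (pullback.fst (igusaTo N ℓ) (gK ℓ K))) :=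
    IsIntegral.of_isIso (chartIso N ℓ K (chartAlgFin N ℓ) (ιFin N ℓ) (ιFin_igusaTo N ℓ)).inv
  have hV : IsIntegral (pullback (ιInf N ℓ) (pullback.fst (igusaTo N ℓ) (gK ℓ K))) :=
    IsIntegral.of_isIso (chartIso N ℓ K (chartAlgInf N ℓ) (ιInf N ℓ) (ιInf_igusaTo N ℓ)).inv
  refine isIntegral_of_two_charts
    (pullback.snd (ιFin N ℓ) (pullback.fst (igusaTo N ℓ) (gK ℓ K)))
    (pullback.snd (ιInf N ℓ) (pullback.fst (igusaTo N ℓ) (gK ℓ K))) (fun x => ?_) ?_
  · rw [Scheme.Pullback.range_snd, Scheme.Pullback.range_snd]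
    exact mem_range_ιFin_or_mem_range_ιInf N ℓ _
  · rw [Scheme.Pullback.range_snd, Scheme.Pullback.range_snd]
    have hne : Nonempty (Spec (CommRingCat.of
        ((chartAlgMid N ℓ) ⊗[↥(GaloisRep.ratLocalizedAt ℓ)] K))) :=
      inferInstanceAs (Nonempty (PrimeSpectrum _))
    obtain ⟨z⟩ := hne
    obtain ⟨y, -⟩ : ∃ y : ↥(pullback (fFin N ℓ ≫ ιFin N ℓ) (pullback.fst (igusaTo N ℓ) (gK ℓ K))),
        True :=
      ⟨(chartIso N ℓ K (chartAlgMid N ℓ) (fFin N ℓ ≫ ιFin N ℓ) (midTo N ℓ)).inv z, trivial⟩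
    have key : pullback.fst (igusaTo N ℓ) (gK ℓ K)
        (pullback.snd (fFin N ℓ ≫ ιFin N ℓ) (pullback.fst (igusaTo N ℓ) (gK ℓ K)) y) =
        (fFin N ℓ ≫ ιFin N ℓ)
          (pullback.fst (fFin N ℓ ≫ ιFin N ℓ) (pullback.fst (igusaTo N ℓ) (gK ℓ K)) y) := by
      rw [← Scheme.Hom.comp_apply, ← Scheme.Hom.comp_apply, pullback.condition]
    refine ⟨pullback.snd (fFin N ℓ ≫ ιFin N ℓ) (pullback.fst (igusaTo N ℓ) (gK ℓ K)) y, ?_, ?_⟩
    · refine ⟨fFin N ℓ (pullback.fst (fFin N ℓ ≫ ιFin N ℓ)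
        (pullback.fst (igusaTo N ℓ) (gK ℓ K)) y), ?_⟩
      rw [key, Scheme.Hom.comp_apply]
    · refine ⟨fInf N ℓ (pullback.fst (fFin N ℓ ≫ ιFin N ℓ)
        (pullback.fst (igusaTo N ℓ) (gK ℓ K)) y), ?_⟩
      rw [key]
      generalize pullback.fst (fFin N ℓ ≫ ιFin N ℓ) (pullback.fst (igusaTo N ℓ) (gK ℓ K)) y = w
      rw [glue_condition, Scheme.Hom.comp_apply]

end Igusa

end Fermat.Agent.S28.SchemeReduction
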