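import Mathlib
import Fermat.Prelude.Def_ModularCurve_IgusaScheme
import Fermat.Prelude.Def_ModularCurve_LaurentCoeff

set_option autoImplicit false

open scoped TensorProduct

noncomputable section

namespace Fermat.Agent.S28.TensorDomain

section Abstract

variable {R A K : Type*} [CommRing R] [CommRing A] [Algebra R A] [Field K] [Algebra R K]

/-- the image of `R` in `K`, as a subfield -/
def imageField (hR : ∀ r : R, algebraMap R K r ≠ 0 → ∃ s : R, algebraMap R K (r * s) = 1) :
    Subfield K :=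
  { (algebraMap R K).range with
    inv_mem' := by
      rintro _ ⟨r, rfl⟩
      by_cases h : algebraMap R K r = 0
      · exact ⟨0, by rw [h, inv_zero, map_zero]⟩
      · obtain ⟨s, hs⟩ := hR r h
        refine ⟨s, ?_⟩
        rw [map_mul] at hs
        exact eq_inv_of_mul_eq_one_right hs }

theorem mem_imageField
    (hR : ∀ r : R, algebraMap R K r ≠ 0 → ∃ s : R, algebraMap R K (r * s) = 1) (x : K) :
    x ∈ imageField hR ↔ ∃ r : R, algebraMap R K r = x := Iff.rfl

variable (A) in
/-- `f ↦ ∑ f i ⊗ b i` -/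
def sumTmul {ι : Type*} (b : ι → K) : (ι →₀ A) →ₗ[R] A ⊗[R] K :=
  Finsupp.lsum R fun i => (TensorProduct.mk R A K).flip (b i)

theorem sumTmul_apply {ι : Type*} (b : ι → K) (f : ι →₀ A) :
    sumTmul A b f = f.sum fun i a => a ⊗ₜ[R] b i := by
  simp only [sumTmul, Finsupp.lsum_apply]
  rfl

theorem sumTmul_single {ι : Type*} (b : ι → K) (i : ι) (a : A) :
    sumTmul (R := R) A b (Finsupp.single i a) = a ⊗ₜ[R] b i := by
  simp [sumTmul]

theorem sumTmul_surjective
    (hR : ∀ r : R, algebraMap R K r ≠ 0 → ∃ s : R, algebraMap R K (r * s) = 1)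
    {ι : Type*} (b : Module.Basis ι (imageField hR) K) :
    Function.Surjective (sumTmul (R := R) A b) := by
  rw [← LinearMap.range_eq_top, eq_top_iff, ← TensorProduct.span_tmul_eq_top, Submodule.span_le]
  rintro _ ⟨a, x, rfl⟩
  let S : Submodule (imageField hR) K :=
    { carrier := {x | ∀ a : A, a ⊗ₜ[R] x ∈ LinearMap.range (sumTmul (R := R) A b)}
      add_mem' := fun {x y} hx hy a => by
        rw [TensorProduct.tmul_add]; exact add_mem (hx a) (hy a)
      zero_mem' := fun a => by rw [TensorProduct.tmul_zero]; exact zero_mem _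
      smul_mem' := by
        rintro ⟨_, r, rfl⟩ x hx a
        have : (⟨algebraMap R K r, r, rfl⟩ : imageField hR) • x = r • x := by
          rw [Algebra.smul_def r x]; rfl
        rw [this, ← TensorProduct.smul_tmul]
        exact hx _ }
  have hS : S = ⊤ := by
    rw [eq_top_iff, ← b.span_eq, Submodule.span_le]
    rintro _ ⟨i, rfl⟩ a
    exact ⟨Finsupp.single i a, sumTmul_single _ _ _⟩
  have hx : x ∈ S := hS ▸ Submodule.mem_top
  exact hx a

/-- the comparison map `A ⊗ K → K((q))` -/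
def toLaurent (ψ : A →+* LaurentSeries K)
    (hψ : ∀ r : R, ψ (algebraMap R A r) = HahnSeries.C (algebraMap R K r)) :
    A ⊗[R] K →+* LaurentSeries K :=
  letI : Algebra R (LaurentSeries K) :=
    ((HahnSeries.C : K →+* LaurentSeries K).comp (algebraMap R K)).toAlgebra
  (Algebra.TensorProduct.productMap (R := R) (A := A) (B := K) (S := LaurentSeries K)
    { ψ with commutes' := hψ }
    { (HahnSeries.C : K →+* LaurentSeries K) with commutes' := fun _ => rfl }).toRingHom

theorem toLaurent_tmul (ψ : A →+* LaurentSeries K)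
    (hψ : ∀ r : R, ψ (algebraMap R A r) = HahnSeries.C (algebraMap R K r)) (a : A) (x : K) :
    toLaurent ψ hψ (a ⊗ₜ[R] x) = ψ a * HahnSeries.C x := by
  let _ : Algebra R (LaurentSeries K) :=
    ((HahnSeries.C : K →+* LaurentSeries K).comp (algebraMap R K)).toAlgebra
  exact Algebra.TensorProduct.productMap_apply_tmul _ _ _ _

theorem toLaurent_tmul_coeff (ψ : A →+* LaurentSeries K)
    (hψ : ∀ r : R, ψ (algebraMap R A r) = HahnSeries.C (algebraMap R K r)) (a : A) (x : K)
    (n : ℤ) :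
    (toLaurent ψ hψ (a ⊗ₜ[R] x)).coeff n = (ψ a).coeff n * x := by
  rw [toLaurent_tmul, HahnSeries.C_apply, HahnSeries.coeff_mul_single_zero]

theorem toLaurent_injective
    (hR : ∀ r : R, algebraMap R K r ≠ 0 → ∃ s : R, algebraMap R K (r * s) = 1)
    (ψ : A →+* LaurentSeries K)
    (hψ : ∀ r : R, ψ (algebraMap R A r) = HahnSeries.C (algebraMap R K r))
    (hrange : ∀ a n, ∃ r : R, algebraMap R K r = (ψ a).coeff n)
    (hker : ∀ a, ψ a = 0 → ∀ x : K, a ⊗ₜ[R] x = 0) :
    Function.Injective (toLaurent ψ hψ) := by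
  rw [injective_iff_map_eq_zero]
  intro z hz
  let b := Module.Basis.ofVectorSpace (imageField hR) K
  obtain ⟨f, rfl⟩ := sumTmul_surjective (A := A) hR b z
  rw [sumTmul_apply] at hz ⊢
  have hcoeff : ∀ n : ℤ, ∑ i ∈ f.support, (ψ (f i)).coeff n * b i = 0 := by
    intro n
    have := congrArg (fun y => HahnSeries.coeff y n) hz
    simp only [Finsupp.sum, map_sum, HahnSeries.coeff_zero] at this
    rw [HahnSeries.coeff_sum] at this
    simpa only [toLaurent_tmul_coeff] using this
  have hzero : ∀ i ∈ f.support, ψ (f i) = 0 := by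
    intro i hi
    ext n
    have hli := b.linearIndependent
    rw [linearIndependent_iff'] at hli
    have := hli f.support (fun i => ⟨(ψ (f i)).coeff n, hrange (f i) n⟩) (hcoeff n) i hi
    exact congrArg Subtype.val this
  exact Finset.sum_eq_zero fun i hi => hker _ (hzero i hi) _

theorem isDomain_tensorProduct
    (hR : ∀ r : R, algebraMap R K r ≠ 0 → ∃ s : R, algebraMap R K (r * s) = 1)
    (ψ : A →+* LaurentSeries K)
    (hψ : ∀ r : R, ψ (algebraMap R A r) = HahnSeries.C (algebraMap R K r))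
    (hrange : ∀ a n, ∃ r : R, algebraMap R K r = (ψ a).coeff n)
    (hker : ∀ a, ψ a = 0 → ∀ x : K, a ⊗ₜ[R] x = 0) :
    IsDomain (A ⊗[R] K) :=
  (toLaurent_injective hR ψ hψ hrange hker).isDomain (toLaurent ψ hψ)

end Abstract

section Zl

variable (ℓ : ℕ) [Fact ℓ.Prime]

/-- an element of `ℤ_(ℓ)` is either divisible by `ℓ` or a unit -/
theorem dvd_or_isUnit (r : ↥(GaloisRep.ratLocalizedAt ℓ)) :
    (∃ r' : ↥(GaloisRep.ratLocalizedAt ℓ), r = (ℓ : ↥(GaloisRep.ratLocalizedAt ℓ)) * r') ∨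
      ∃ s : ↥(GaloisRep.ratLocalizedAt ℓ), r * s = 1 := by
  have hℓ : ℓ.Prime := Fact.out
  obtain ⟨q, hq⟩ := r
  have hq' : q.den.Coprime ℓ := hq
  by_cases h : (ℓ : ℤ) ∣ q.num
  · left
    obtain ⟨m, hm⟩ := h
    have hmem : ((m : ℚ) / q.den) ∈ GaloisRep.ratLocalizedAt ℓ := by
      show ((m : ℚ) / q.den).den.Coprime ℓ
      refine Nat.Coprime.coprime_dvd_left ?_ hq'
      have := Rat.den_dvd m q.den
      rw [Rat.divInt_eq_div] at this
      exact_mod_cast this
    refine ⟨⟨_, hmem⟩, Subtype.ext ?_⟩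
    show q = (ℓ : ℚ) * ((m : ℚ) / q.den)
    have hden : (q.den : ℚ) ≠ 0 := by exact_mod_cast q.den_nz
    rw [← mul_div_assoc, eq_div_iff hden, Rat.mul_den_eq_num, hm]
    push_cast; ring
  · right
    have hq0 : q ≠ 0 := by
      rintro rfl
      exact h (by simp)
    have hmem : q⁻¹ ∈ GaloisRep.ratLocalizedAt ℓ := by
      show (q⁻¹).den.Coprime ℓ
      rw [Rat.den_inv_of_ne_zero hq0, Nat.coprime_comm, hℓ.coprime_iff_not_dvd]
      rwa [Int.natCast_dvd] at h
    exact ⟨⟨_, hmem⟩, Subtype.ext (mul_inv_cancel₀ hq0)⟩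

/-- A Laurent series over `ℚ` with coefficients in a subring, as a series over the subring. -/
def liftSeries (S : Subring ℚ) (x : LaurentSeries ℚ) (hx : ∀ n, x.coeff n ∈ S) :
    LaurentSeries S where
  coeff n := ⟨x.coeff n, hx n⟩
  isPWO_support' := by
    refine x.isPWO_support.mono fun n hn => ?_
    intro h0
    exact hn (Subtype.ext h0)

theorem coeffMap_liftSeries (S : Subring ℚ) (x : LaurentSeries ℚ) (hx : ∀ n, x.coeff n ∈ S) :
    ModularCurve.coeffMap S.subtype (liftSeries S x hx) = x := by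
  ext n
  rfl

theorem coeffMap_subtype_injective (S : Subring ℚ) :
    Function.Injective (ModularCurve.coeffMap S.subtype) := by
  intro x y h
  ext n
  exact congrArg (fun z => HahnSeries.coeff z n) h

/-- lifting a ring hom to `ℚ((q))` with coefficients in `S` to `S((q))` -/
def liftHom {A : Type*} [CommRing A] (S : Subring ℚ) (e : A →+* LaurentSeries ℚ)
    (he : ∀ a n, (e a).coeff n ∈ S) : A →+* LaurentSeries S where
  toFun a := liftSeries S (e a) (he a)
  map_one' := coeffMap_subtype_injective S (by rw [coeffMap_liftSeries, map_one, map_one])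
  map_mul' a b := coeffMap_subtype_injective S (by
    rw [coeffMap_liftSeries, map_mul, map_mul, coeffMap_liftSeries, coeffMap_liftSeries])
  map_zero' := coeffMap_subtype_injective S (by rw [coeffMap_liftSeries, map_zero, map_zero])
  map_add' a b := coeffMap_subtype_injective S (by
    rw [coeffMap_liftSeries, map_add, map_add, coeffMap_liftSeries, coeffMap_liftSeries])

theorem liftHom_coeff {A : Type*} [CommRing A] (S : Subring ℚ) (e : A →+* LaurentSeries ℚ)
    (he : ∀ a n, (e a).coeff n ∈ S) (a : A) (n : ℤ) :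
    ((liftHom S e he a).coeff n : ℚ) = (e a).coeff n := rfl

variable (K : Type*) [Field K] [CharP K ℓ] [Algebra ↥(GaloisRep.ratLocalizedAt ℓ) K]

theorem algebraMap_natCast_eq_zero :
    algebraMap ↥(GaloisRep.ratLocalizedAt ℓ) K (ℓ : ↥(GaloisRep.ratLocalizedAt ℓ)) = 0 := by
  rw [map_natCast, CharP.cast_eq_zero]

theorem exists_mul_eq_one (r : ↥(GaloisRep.ratLocalizedAt ℓ))
    (hr : algebraMap ↥(GaloisRep.ratLocalizedAt ℓ) K r ≠ 0) :
    ∃ s : ↥(GaloisRep.ratLocalizedAt ℓ), algebraMap ↥(GaloisRep.ratLocalizedAt ℓ) K (r * s) = 1 := by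
  rcases dvd_or_isUnit ℓ r with ⟨r', rfl⟩ | ⟨s, hs⟩
  · exact absurd (by rw [map_mul, algebraMap_natCast_eq_zero, zero_mul]) hr
  · exact ⟨s, by rw [hs, map_one]⟩

theorem exists_eq_mul_of_algebraMap_eq_zero (r : ↥(GaloisRep.ratLocalizedAt ℓ))
    (hr : algebraMap ↥(GaloisRep.ratLocalizedAt ℓ) K r = 0) :
    ∃ r' : ↥(GaloisRep.ratLocalizedAt ℓ), r = (ℓ : ↥(GaloisRep.ratLocalizedAt ℓ)) * r' := by
  rcases dvd_or_isUnit ℓ r with h | ⟨s, hs⟩
  · exact h
  · have := congrArg (algebraMap ↥(GaloisRep.ratLocalizedAt ℓ) K) hs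
    rw [map_mul, hr, zero_mul, map_one] at this
    exact absurd this zero_ne_one

/-- integrality of the expansions is enough for nontriviality -/
theorem nontrivial_tensor_of_qExpansion {A : Type*} [CommRing A]
    [Algebra ↥(GaloisRep.ratLocalizedAt ℓ) A] (e : A →+* LaurentSeries ℚ)
    (halg : ∀ r : ↥(GaloisRep.ratLocalizedAt ℓ),
      e (algebraMap ↥(GaloisRep.ratLocalizedAt ℓ) A r) = HahnSeries.C (r : ℚ))
    (hint : ∀ a n, (e a).coeff n ∈ GaloisRep.ratLocalizedAt ℓ) :
    Nontrivial (A ⊗[↥(GaloisRep.ratLocalizedAt ℓ)] K) := by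
  refine (toLaurent ((ModularCurve.coeffMap (algebraMap ↥(GaloisRep.ratLocalizedAt ℓ) K)).comp
      (liftHom (GaloisRep.ratLocalizedAt ℓ) e hint)) (fun r => ?_)).domain_nontrivial
  have : liftHom (GaloisRep.ratLocalizedAt ℓ) e hint
      (algebraMap ↥(GaloisRep.ratLocalizedAt ℓ) A r) = HahnSeries.single 0 r := by
    apply coeffMap_subtype_injective
    rw [ModularCurve.coeffMap_single]
    exact (coeffMap_liftSeries _ _ _).trans (halg r)
  rw [RingHom.comp_apply, this, ModularCurve.coeffMap_single]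
  rfl

/-- **q-expansion principle implies domain.**  `A` is a `ℤ_(ℓ)`-algebra with a "q-expansion" ring
hom `e : A → ℚ((q))` such that all expansions have coefficients in `ℤ_(ℓ)` and every element whose
expansion is divisible by `ℓ` is divisible by `ℓ` in `A`.  Then `A ⊗ K` is a domain for every field
`K` of characteristic `ℓ`. -/
theorem isDomain_tensor_of_qExpansion {A : Type*} [CommRing A]
    [Algebra ↥(GaloisRep.ratLocalizedAt ℓ) A] (e : A →+* LaurentSeries ℚ)
    (halg : ∀ r : ↥(GaloisRep.ratLocalizedAt ℓ),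
      e (algebraMap ↥(GaloisRep.ratLocalizedAt ℓ) A r) = HahnSeries.C (r : ℚ))
    (hint : ∀ a n, (e a).coeff n ∈ GaloisRep.ratLocalizedAt ℓ)
    (hsat : ∀ a, (∀ n, ∃ r ∈ GaloisRep.ratLocalizedAt ℓ, (e a).coeff n = (ℓ : ℚ) * r) →
      ∃ a' : A, a = (ℓ : A) * a') :
    IsDomain (A ⊗[↥(GaloisRep.ratLocalizedAt ℓ)] K) := by
  refine isDomain_tensorProduct (exists_mul_eq_one ℓ K)
    ((ModularCurve.coeffMap (algebraMap ↥(GaloisRep.ratLocalizedAt ℓ) K)).comp
      (liftHom (GaloisRep.ratLocalizedAt ℓ) e hint)) (fun r => ?_) (fun a n => ⟨_, rfl⟩)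
      (fun a ha x => ?_)
  · have : liftHom (GaloisRep.ratLocalizedAt ℓ) e hint
        (algebraMap ↥(GaloisRep.ratLocalizedAt ℓ) A r) = HahnSeries.single 0 r := by
      apply coeffMap_subtype_injective
      rw [ModularCurve.coeffMap_single]
      exact (coeffMap_liftSeries _ _ _).trans (halg r)
    rw [RingHom.comp_apply, this, ModularCurve.coeffMap_single]
    rfl
  · obtain ⟨a', rfl⟩ := hsat a fun n => by
      have h0 : algebraMap ↥(GaloisRep.ratLocalizedAt ℓ) K
          ((liftHom (GaloisRep.ratLocalizedAt ℓ) e hint a).coeff n) = 0 :=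
        congrArg (fun z => HahnSeries.coeff z n) ha
      obtain ⟨r', hr'⟩ := exists_eq_mul_of_algebraMap_eq_zero ℓ K _ h0
      refine ⟨r', r'.2, ?_⟩
      have := congrArg Subtype.val hr'
      rw [liftHom_coeff] at this
      rw [this]
      rfl
    have h1 : (ℓ : A) * a' = (ℓ : ↥(GaloisRep.ratLocalizedAt ℓ)) • a' := by
      rw [Algebra.smul_def, map_natCast]
    rw [h1, TensorProduct.smul_tmul, Algebra.smul_def, algebraMap_natCast_eq_zero, zero_mul,
      TensorProduct.tmul_zero]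

end Zl

section Chart

open ModularCurve ModularCurve.IgusaScheme

variable (N : ℕ) [NeZero N] (ℓ : ℕ) [Fact ℓ.Prime]
variable (K : Type*) [Field K] [CharP K ℓ] [Algebra ↥(GaloisRep.ratLocalizedAt ℓ) K]

/-- The q-expansion principle for a `ℤ_(ℓ)`-subalgebra of the function field: expansions are
`ℓ`-integral, and an element whose expansion is divisible by `ℓ` is divisible by `ℓ`. -/
structure QEP (A : Subalgebra ↥(GaloisRep.ratLocalizedAt ℓ) ↥(modularFunctionFieldFull N)) :
    Prop where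
  integral : ∀ x ∈ A, ∀ n : ℤ,
    ((x : ↥(modularFunctionFieldFull N)) : LaurentSeries ℚ).coeff n ∈ GaloisRep.ratLocalizedAt ℓ
  saturated : ∀ x ∈ A,
    (∀ n : ℤ, ∃ r ∈ GaloisRep.ratLocalizedAt ℓ,
      ((x : ↥(modularFunctionFieldFull N)) : LaurentSeries ℚ).coeff n = (ℓ : ℚ) * r) →
    ∃ y ∈ A, x = (ℓ : ↥(modularFunctionFieldFull N)) * y

theorem qExp_algebraMap
    (A : Subalgebra ↥(GaloisRep.ratLocalizedAt ℓ) ↥(modularFunctionFieldFull N))
    (r : ↥(GaloisRep.ratLocalizedAt ℓ)) :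
    ((algebraMap ↥(modularFunctionFieldFull N) (LaurentSeries ℚ)).comp A.val.toRingHom)
        ((algebraMap ↥(GaloisRep.ratLocalizedAt ℓ) ↥A) r) = HahnSeries.C (r : ℚ) := by
  have h1 : ((algebraMap ↥(modularFunctionFieldFull N) (LaurentSeries ℚ)).comp A.val.toRingHom)
      ((algebraMap ↥(GaloisRep.ratLocalizedAt ℓ) ↥A) r) =
      algebraMap ↥(modularFunctionFieldFull N) (LaurentSeries ℚ)
        (algebraMap ℚ ↥(modularFunctionFieldFull N) (r : ℚ)) := rfl
  have h2 : (algebraMap ↥(modularFunctionFieldFull N) (LaurentSeries ℚ)).comp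
      (algebraMap ℚ ↥(modularFunctionFieldFull N)) = algebraMap ℚ (LaurentSeries ℚ) :=
    Subsingleton.elim _ _
  rw [h1, ← RingHom.comp_apply, h2, algebraMap_apply_eq_single]
  rfl

theorem nontrivial_tensor_of_integral
    (A : Subalgebra ↥(GaloisRep.ratLocalizedAt ℓ) ↥(modularFunctionFieldFull N))
    (hA : ∀ x ∈ A, ∀ n : ℤ,
      ((x : ↥(modularFunctionFieldFull N)) : LaurentSeries ℚ).coeff n ∈
        GaloisRep.ratLocalizedAt ℓ) :
    Nontrivial (A ⊗[↥(GaloisRep.ratLocalizedAt ℓ)] K) :=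
  nontrivial_tensor_of_qExpansion ℓ K
    ((algebraMap ↥(modularFunctionFieldFull N) (LaurentSeries ℚ)).comp A.val.toRingHom)
    (qExp_algebraMap N ℓ A) (fun a n => hA a a.2 n)

theorem isDomain_tensor_of_QEP
    (A : Subalgebra ↥(GaloisRep.ratLocalizedAt ℓ) ↥(modularFunctionFieldFull N))
    (hA : QEP N ℓ A) : IsDomain (A ⊗[↥(GaloisRep.ratLocalizedAt ℓ)] K) := by
  refine isDomain_tensor_of_qExpansion ℓ K
    ((algebraMap ↥(modularFunctionFieldFull N) (LaurentSeries ℚ)).comp A.val.toRingHom)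
    (fun r => ?_)
    (fun a n => hA.integral a a.2 n) (fun a ha => ?_)
  · exact qExp_algebraMap N ℓ A r
  · obtain ⟨y, hy, hay⟩ := hA.saturated a a.2 ha
    exact ⟨⟨y, hy⟩, Subtype.ext (by rw [hay]; simp)⟩

end Chart

end Fermat.Agent.S28.TensorDomain
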