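import Mathlib
import Fermat.Agent.S28.SchemeReduction
import Fermat.Agent.S28.TensorDomain

set_option autoImplicit false

open AlgebraicGeometry CategoryTheory CategoryTheory.Limits ModularCurve ModularCurve.IgusaScheme
open scoped TensorProduct

noncomputable section

namespace Fermat.Agent.S28.FromQEP

open Fermat.Agent.S28.TensorDomain

/-- Laurent series over `ℚ` all of whose coefficients lie in the subring `S`. -/
def intSeries (S : Subring ℚ) : Subring (LaurentSeries ℚ) :=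
  (ModularCurve.coeffMap S.subtype).range

theorem mem_intSeries_iff (S : Subring ℚ) (x : LaurentSeries ℚ) :
    x ∈ intSeries S ↔ ∀ n, x.coeff n ∈ S := by
  constructor
  · rintro ⟨y, rfl⟩ n
    exact (y.coeff n).2
  · intro h
    exact ⟨liftSeries S x h, coeffMap_liftSeries S x h⟩

/-- the inverse of `jq` -/
def jqInv : LaurentSeries ℚ :=
  HahnSeries.single (1 : ℤ) 1 *
    HahnSeries.ofPowerSeries ℤ ℚ ((jNum.invOfUnit 1).map (Int.castRingHom ℚ))

theorem jq_mul_jqInv : jq * jqInv = 1 := by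
  have h1 : jNum * jNum.invOfUnit 1 = 1 :=
    PowerSeries.mul_invOfUnit _ _ (by rw [constantCoeff_jNum]; rfl)
  have h2 : jNumQ * (jNum.invOfUnit 1).map (Int.castRingHom ℚ) = 1 := by
    rw [jNumQ, ← map_mul, h1, map_one]
  rw [jq, jqInv, mul_mul_mul_comm, ← map_mul (HahnSeries.ofPowerSeries ℤ ℚ), h2,
    map_one (HahnSeries.ofPowerSeries ℤ ℚ), mul_one, HahnSeries.single_mul_single]
  simp

theorem jqInv_eq : jq⁻¹ = jqInv := inv_eq_of_mul_eq_one_right jq_mul_jqInv

theorem jqInv_mem (S : Subring ℚ) : jqInv ∈ intSeries S := by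
  rw [mem_intSeries_iff]
  intro n
  rw [jqInv, HahnSeries.coeff_single_mul, one_mul]
  rcases le_or_gt 0 (n - 1) with hk | hk
  · obtain ⟨m, hm⟩ := Int.eq_ofNat_of_zero_le hk
    rw [hm, HahnSeries.ofPowerSeries_apply_coeff, PowerSeries.coeff_map]
    exact intCast_mem S _
  · rw [ofPowerSeries_coeff_of_neg _ hk]
    exact zero_mem S

section

variable (N : ℕ) [NeZero N] (ℓ : ℕ) [Fact ℓ.Prime]

theorem integral_mid
    (hFin : ∀ x ∈ chartAlgFin N ℓ, ∀ n : ℤ,
      ((x : ↥(modularFunctionFieldFull N)) : LaurentSeries ℚ).coeff n ∈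
        GaloisRep.ratLocalizedAt ℓ) :
    ∀ x ∈ chartAlgMid N ℓ, ∀ n : ℤ,
      ((x : ↥(modularFunctionFieldFull N)) : LaurentSeries ℚ).coeff n ∈
        GaloisRep.ratLocalizedAt ℓ := by
  intro x hx
  rw [← mem_intSeries_iff]
  have hz : x ∈ chartAlg N ℓ (insert (jFull N)⁻¹ {jFull N}) := by
    rw [show insert (jFull N)⁻¹ ({jFull N} : Set ↥(modularFunctionFieldFull N)) =
      {jFull N, (jFull N)⁻¹} from Set.pair_comm _ _]
    exact hx
  obtain ⟨n, hn⟩ := exists_pow_mul_mem_chartAlg (Set.mem_singleton _) (jFull_ne_zero N) hz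
  have h1 : (((jFull N) ^ n * x : ↥(modularFunctionFieldFull N)) : LaurentSeries ℚ) ∈
      intSeries (GaloisRep.ratLocalizedAt ℓ) := (mem_intSeries_iff _ _).mpr (hFin _ hn)
  have h2 : (x : LaurentSeries ℚ) =
      jqInv ^ n * (((jFull N) ^ n * x : ↥(modularFunctionFieldFull N)) : LaurentSeries ℚ) := by
    push_cast
    rw [coe_jFull, ← mul_assoc, ← mul_pow, mul_comm jqInv, jq_mul_jqInv, one_pow, one_mul]
  rw [h2]
  exact mul_mem (pow_mem (jqInv_mem _) n) h1

variable (K : Type) [Field K] [CharP K ℓ] [Algebra ↥(GaloisRep.ratLocalizedAt ℓ) K]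

/-- The frozen S28 conclusion from the q-expansion principle on the two charts. -/
theorem isIntegral_of_QEP (hFin : QEP N ℓ (chartAlgFin N ℓ)) (hInf : QEP N ℓ (chartAlgInf N ℓ)) :
    IsIntegral ↑(pullback (igusaTo N ℓ)
      (Spec.map (CommRingCat.ofHom (algebraMap ↥(GaloisRep.ratLocalizedAt ℓ) K)))) :=
  SchemeReduction.isIntegral_pullback_of_isDomain N ℓ K
    (isDomain_tensor_of_QEP N ℓ K _ hFin) (isDomain_tensor_of_QEP N ℓ K _ hInf)
    (nontrivial_tensor_of_integral N ℓ K _ (integral_mid N ℓ hFin.integral))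

end

end Fermat.Agent.S28.FromQEP
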