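import Fermat.Agent.S28.QEPFin
import Fermat.Agent.S28.QEPMid
import Fermat.Agent.S28.QEPInf
import Fermat.Agent.S28.FromQEP

/-!
# S28: the frozen conclusion from `UData N ℓ`  (the whole algebraic half)
-/

set_option autoImplicit false

open AlgebraicGeometry CategoryTheory CategoryTheory.Limits ModularCurve ModularCurve.IgusaScheme

noncomputable section

namespace Fermat.Agent.S28

theorem QEP.toTensorDomain {N : ℕ} [NeZero N] {ℓ : ℕ} [Fact ℓ.Prime]
    {A : Subalgebra (Zl ℓ) ↥(modularFunctionFieldFull N)} (h : QEP N ℓ A) :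
    TensorDomain.QEP N ℓ A :=
  ⟨h.1, h.2⟩

/-- The algebraic half of S28: `UData N ℓ` implies the frozen conclusion. -/
theorem isIntegral_of_UData (N : ℕ) [NeZero N] (ℓ : ℕ) [Fact ℓ.Prime] (D : UData N ℓ)
    (K : Type) [Field K] [CharP K ℓ] [Algebra ↥(GaloisRep.ratLocalizedAt ℓ) K] :
    IsIntegral ↑(pullback (igusaTo N ℓ)
      (Spec.map (CommRingCat.ofHom (algebraMap ↥(GaloisRep.ratLocalizedAt ℓ) K)))) :=
  FromQEP.isIntegral_of_QEP N ℓ K (qep_fin N ℓ D).toTensorDomain
    (qep_inf N ℓ (qep_mid N ℓ (qep_fin N ℓ D))).toTensorDomain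

end Fermat.Agent.S28

end
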