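import Fermat.Agent.S28.IntLaurent
import Fermat.Agent.S28.Analytic.EtaData
import Fermat.Prelude.Thm_ModularForm_sturm_bound_Gamma0

/-!
# S28, T7 = `exists_UData` : definitions shared by the files of the modular half
-/

set_option autoImplicit false

noncomputable section

open ModularCurve Polynomial UpperHalfPlane ModularForm EisensteinSeries
open scoped MatrixGroups

namespace Fermat.Agent.S28

local notation "Δ" => ModularForm.discriminant
local notation "ofPS" => HahnSeries.ofPowerSeries ℤ

/-! ## Formal objects -/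

/-- formal `q`-expansion of `E₄` over a commutative ring. -/
def E4S (S : Type*) [CommRing S] : PowerSeries S := eisenstein4.map (Int.castRingHom S)

/-- formal `q`-expansion of `Δ` over a commutative ring. -/
def DeltaS (S : Type*) [CommRing S] : PowerSeries S :=
  (PowerSeries.X * dedekindEtaUnit).map (Int.castRingHom S)

/-- `γ / Δ ^ w` as a Laurent series over `S`, for `γ ∈ ℤ[[q]]`. -/
def uOf (S : Type*) [CommRing S] (γ : PowerSeries ℤ) (w : ℕ) : LaurentSeries S :=
  HahnSeries.single (-(w : ℤ)) 1 * ofPS S ((γ * dedekindEtaUnitInv ^ w).map (Int.castRingHom S))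

/-- `p ∈ ℚ[[q]]` is the `q`-expansion of a modular form of weight `12 m` on `Γ₀(N)`. -/
def IsQExp (N m : ℕ) (p : PowerSeries ℚ) : Prop :=
  ∃ f : ModularForm (CongruenceSubgroup.Gamma0 N) (12 * m),
    qExpansion 1 f = p.map (algebraMap ℚ ℂ)

/-! ## U0 : output of the analytic construction (A4 + A5, helper285 / helper88) -/

structure ChiC (N ℓ : ℕ) where
  w : ℕ
  hw : 1 ≤ w
  g : ModularForm (CongruenceSubgroup.Gamma0 N) (12 * w)
  γ : PowerSeries ℤ
  hγ : qExpansion 1 g = γ.map (Int.castRingHom ℂ)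
  γ_order : ∀ k < (CongruenceSubgroup.Gamma0 N).index * w, γ.coeff k = 0
  γ_lead : γ.coeff ((CongruenceSubgroup.Gamma0 N).index * w) = 1
  χ : ℂ[X][X]
  monic : χ.Monic
  natDegree_eq : χ.natDegree = (CongruenceSubgroup.Gamma0 N).index
  deg_le : ∀ i ≤ (CongruenceSubgroup.Gamma0 N).index,
    (χ.coeff ((CongruenceSubgroup.Gamma0 N).index - i)).natDegree ≤ i * w
  c0 : ℂ
  hc0 : LUnit ℓ c0
  coeff_zero : χ.coeff 0 = C c0
  eval : ∑ i ∈ Finset.range ((CongruenceSubgroup.Gamma0 N).index + 1),
    (∑ a ∈ Finset.range (i * w + 1),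
      PowerSeries.C ((χ.coeff ((CongruenceSubgroup.Gamma0 N).index - i)).coeff a) *
        qExpansion 1 E₄ ^ (3 * a) * qExpansion 1 Δ ^ (i * w - a)) *
      qExpansion 1 g ^ ((CongruenceSubgroup.Gamma0 N).index - i) = 0

end Fermat.Agent.S28

end
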