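import Fermat.Agent.S28.Formal
import Fermat.Agent.S28.Analytic.QExpSpace

/-!
# S28, U9 (owner helper110): `index + 1` forms of weight `12 c` on `Γ₀(N)` are linearly
dependent over `ℚ[j]` (dimension count with the Sturm bound).
-/

set_option autoImplicit false

noncomputable section

open ModularCurve Polynomial UpperHalfPlane ModularForm EisensteinSeries
open scoped MatrixGroups

namespace Fermat.Agent.S28

local notation "ofPS" => HahnSeries.ofPowerSeries ℤ

namespace Dependence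

theorem isQExp_E4S_cube (N : ℕ) [NeZero N] : IsQExp N 1 (E4S ℚ ^ 3) := by
  obtain ⟨p, hp, h⟩ := isQExp_E4_cube N 1 (one_dvd N)
  rw [qExpand_one_apply] at h
  rwa [← HahnSeries.ofPowerSeries_injective h]

theorem isQExp_DeltaS (N : ℕ) [NeZero N] : IsQExp N 1 (DeltaS ℚ) := by
  obtain ⟨p, hp, h⟩ := isQExp_Delta N 1 (one_dvd N)
  rw [qExpand_one_apply] at h
  rwa [← HahnSeries.ofPowerSeries_injective h]

theorem IsQExp.sum' {N m : ℕ} [NeZero N] {ι : Type*} (s : Finset ι) (p : ι → PowerSeries ℚ)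
    (h : ∀ i ∈ s, IsQExp N m (p i)) : IsQExp N m (∑ i ∈ s, p i) := by
  classical
  induction s using Finset.induction_on with
  | empty => simpa using IsQExp.zero
  | insert a s ha ih =>
    rw [Finset.sum_insert ha]
    exact (h a (Finset.mem_insert_self a s)).add
      (ih fun i hi => h i (Finset.mem_insert_of_mem hi))

/-- the members of the spanning family. -/
def vv (A : ℕ) {n : ℕ} (f : Fin n → PowerSeries ℚ) (x : Fin (A + 1) × Fin n) : PowerSeries ℚ :=
  (E4S ℚ ^ 3) ^ (x.1 : ℕ) * DeltaS ℚ ^ (A - (x.1 : ℕ)) * f x.2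

theorem isQExp_vv (N : ℕ) [NeZero N] (A c : ℕ) {n : ℕ} (f : Fin n → PowerSeries ℚ)
    (hf : ∀ i, IsQExp N c (f i)) (x : Fin (A + 1) × Fin n) : IsQExp N (A + c) (vv A f x) := by
  have h := (((isQExp_E4S_cube N).pow (x.1 : ℕ)).mul
    ((isQExp_DeltaS N).pow (A - (x.1 : ℕ)))).mul (hf x.2)
  have e : (x.1 : ℕ) * 1 + (A - (x.1 : ℕ)) * 1 + c = A + c := by
    have := x.1.2
    omega
  rw [e] at h
  exact h

/-- the truncated linear combination map. -/
def trunc (A d : ℕ) {n : ℕ} (f : Fin n → PowerSeries ℚ) :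
    ((Fin (A + 1) × Fin n) → ℚ) →ₗ[ℚ] (Fin d → ℚ) where
  toFun lam := fun k => (∑ x, lam x • vv A f x).coeff (k : ℕ)
  map_add' lam mu := by
    funext k
    simp [add_smul, Finset.sum_add_distrib]
  map_smul' r lam := by
    funext k
    simp [mul_smul, Finset.mul_sum]

end Dependence

open Dependence

theorem Dependence.aux (N : ℕ) [NeZero N] (c n : ℕ) (hn : (CongruenceSubgroup.Gamma0 N).index = n)
    (f : Fin (n + 1) → PowerSeries ℚ) (hf : ∀ i, IsQExp N c (f i)) :
    ∃ a : Fin (n + 1) → ℚ[X], a ≠ 0 ∧ ∑ i, evalJ ℚ (a i) * ofPS ℚ (f i) = 0 := by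
  classical
  have hn1 : 1 ≤ n := by
    rw [← hn]
    exact Nat.one_le_iff_ne_zero.mpr Subgroup.FiniteIndex.index_ne_zero
  set A := c * n with hA
  -- a nontrivial relation
  have hker : LinearMap.ker (trunc A ((A + c) * n + 1) f) ≠ ⊥ := by
    apply LinearMap.ker_ne_bot_of_finrank_lt
    simp only [Module.finrank_fintype_fun_eq_card, Fintype.card_fin, Fintype.card_prod]
    rw [hA]
    nlinarith
  obtain ⟨lam, hlam, hlam0⟩ := (Submodule.ne_bot_iff _).mp hker
  have hW : IsQExp N (A + c) (∑ x, lam x • vv A f x) :=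
    IsQExp.sum' _ _ fun x _ => (isQExp_vv N A c f hf x).smul (lam x)
  have hzero : ∑ x, lam x • vv A f x = 0 := by
    refine hW.eq_zero fun k hk => ?_
    rw [hn] at hk
    have := congrFun (LinearMap.mem_ker.mp hlam) ⟨k, Nat.lt_succ_of_le hk⟩
    exact this
  refine ⟨fun i => ∑ a : Fin (A + 1), C (lam (a, i)) * X ^ (a : ℕ), ?_, ?_⟩
  · intro h0
    apply hlam0
    funext ⟨a, i⟩
    have h1 := congrArg (fun P : ℚ[X] => P.coeff (a : ℕ)) (congrFun h0 i)
    simp only [Pi.zero_apply, Polynomial.coeff_zero, Polynomial.finsetSum_coeff,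
      Polynomial.coeff_C_mul, Polynomial.coeff_X_pow] at h1
    rw [Finset.sum_eq_single a] at h1
    · simpa using h1
    · intro b _ hb
      have : (a : ℕ) ≠ (b : ℕ) := fun h => hb (Fin.ext h.symm)
      simp [this]
    · intro h; exact absurd (Finset.mem_univ a) h
  · have hD : IsUnit (ofPS ℚ (DeltaS ℚ) ^ A) := (isUnit_DeltaS ℚ).pow A
    apply hD.mul_left_injective
    simp only [zero_mul]
    have key : ∀ a : Fin (A + 1), jqModC ℚ ^ (a : ℕ) * ofPS ℚ (DeltaS ℚ) ^ A =
        ofPS ℚ ((E4S ℚ ^ 3) ^ (a : ℕ) * DeltaS ℚ ^ (A - (a : ℕ))) := by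
      intro a
      have ha : (a : ℕ) ≤ A := Nat.lt_succ_iff.mp a.2
      rw [map_mul, map_pow, map_pow, map_pow, ← jqModC_mul_DeltaS, mul_pow, mul_assoc,
        ← pow_add, Nat.add_sub_cancel' ha]
    have := congrArg (ofPS ℚ) hzero
    rw [map_zero, map_sum, Fintype.sum_prod_type_right] at this
    rw [← this, Finset.sum_mul]
    refine Finset.sum_congr rfl fun i _ => ?_
    rw [map_sum, Finset.sum_mul, Finset.sum_mul]
    refine Finset.sum_congr rfl fun a _ => ?_
    rw [map_mul, map_pow, evalJ_C, evalJ_X]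
    have e : lam (a, i) • vv A f (a, i) = PowerSeries.C (lam (a, i)) * vv A f (a, i) := by
      rw [PowerSeries.smul_eq_C_mul]
    rw [e, map_mul, vv, map_mul, ← key a, HahnSeries.ofPowerSeries_C]
    ring

theorem exists_dependence (N : ℕ) [NeZero N] (c : ℕ)
    (f : Fin ((CongruenceSubgroup.Gamma0 N).index + 1) → PowerSeries ℚ)
    (hf : ∀ i, IsQExp N c (f i)) :
    ∃ a : Fin ((CongruenceSubgroup.Gamma0 N).index + 1) → ℚ[X], a ≠ 0 ∧
      ∑ i, evalJ ℚ (a i) * ofPS ℚ (f i) = 0 :=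
  Dependence.aux N c _ rfl f hf

end Fermat.Agent.S28

end
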