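import Fermat.Agent.S28.DefsT7

/-!
# S28, U2 : formal identities in Laurent series for `jqModC`, `DeltaS`, `uOf`
-/

set_option autoImplicit false

noncomputable section

open ModularCurve Polynomial

namespace Fermat.Agent.S28

local notation "ofPS" => HahnSeries.ofPowerSeries ℤ

section Basic

variable (S : Type*) [CommRing S]

theorem ofPS_DeltaS :
    ofPS S (DeltaS S) = HahnSeries.single (1 : ℤ) 1 *
      ofPS S (dedekindEtaUnit.map (Int.castRingHom S)) := by
  rw [DeltaS, map_mul, PowerSeries.map_X, map_mul, HahnSeries.ofPowerSeries_X]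

theorem ofPS_eta_mul_inv :
    ofPS S (dedekindEtaUnit.map (Int.castRingHom S)) *
      ofPS S (dedekindEtaUnitInv.map (Int.castRingHom S)) = 1 := by
  rw [← map_mul, ← map_mul, dedekindEtaUnit_mul_inv, map_one, map_one]

theorem single_neg_mul_single (a : ℤ) :
    (HahnSeries.single (-a) (1 : S) : LaurentSeries S) * HahnSeries.single a 1 = 1 := by
  rw [HahnSeries.single_mul_single, neg_add_cancel, one_mul]
  rfl

theorem jqModC_mul_DeltaS :
    jqModC S * ofPS S (DeltaS S) = ofPS S (E4S S) ^ 3 := by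
  have h1 := single_neg_mul_single S 1
  have h2 := ofPS_eta_mul_inv S
  rw [jqModC, ofPS_DeltaS, jNum, map_mul, map_mul, map_pow, map_pow, E4S]
  set a : LaurentSeries S := HahnSeries.single (-1 : ℤ) 1
  set b : LaurentSeries S := HahnSeries.single (1 : ℤ) 1
  set e := ofPS S (dedekindEtaUnit.map (Int.castRingHom S))
  set e' := ofPS S (dedekindEtaUnitInv.map (Int.castRingHom S))
  set E := ofPS S (eisenstein4.map (Int.castRingHom S))
  calc a * (E ^ 3 * e') * (b * e) = (a * b) * (e * e') * E ^ 3 := by ring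
    _ = E ^ 3 := by rw [h1, h2, one_mul, one_mul]

theorem isUnit_DeltaS : IsUnit (ofPS S (DeltaS S)) := by
  refine IsUnit.of_mul_eq_one (HahnSeries.single (-1 : ℤ) 1 *
      ofPS S (dedekindEtaUnitInv.map (Int.castRingHom S))) ?_
  have h1 := single_neg_mul_single S 1
  have h2 := ofPS_eta_mul_inv S
  rw [ofPS_DeltaS]
  set a : LaurentSeries S := HahnSeries.single (-1 : ℤ) 1
  set b : LaurentSeries S := HahnSeries.single (1 : ℤ) 1
  set e := ofPS S (dedekindEtaUnit.map (Int.castRingHom S))
  set e' := ofPS S (dedekindEtaUnitInv.map (Int.castRingHom S))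
  calc b * e * (a * e') = (a * b) * (e * e') := by ring
    _ = 1 := by rw [h1, h2, one_mul]

theorem uOf_mul_DeltaS (γ : PowerSeries ℤ) (w : ℕ) :
    uOf S γ w * ofPS S (DeltaS S) ^ w = ofPS S (γ.map (Int.castRingHom S)) := by
  have h1 := single_neg_mul_single S w
  have h2 := ofPS_eta_mul_inv S
  have h3 : (HahnSeries.single (1 : ℤ) (1 : S) : LaurentSeries S) ^ w =
      HahnSeries.single (w : ℤ) 1 := by
    rw [HahnSeries.single_pow, one_pow]
    simp
  rw [uOf, ofPS_DeltaS, map_mul, map_mul, map_pow, map_pow, mul_pow, h3]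
  set a : LaurentSeries S := HahnSeries.single (-(w : ℤ)) 1
  set b : LaurentSeries S := HahnSeries.single (w : ℤ) 1
  set e := ofPS S (dedekindEtaUnit.map (Int.castRingHom S))
  set e' := ofPS S (dedekindEtaUnitInv.map (Int.castRingHom S))
  set G := ofPS S (γ.map (Int.castRingHom S))
  calc a * (G * e' ^ w) * (b * e ^ w) = (a * b) * (e * e') ^ w * G := by ring
    _ = G := by rw [h1, h2, one_pow, one_mul, one_mul]

end Basic

theorem coeffMap_uOf {S S' : Type*} [CommRing S] [CommRing S'] (f : S →+* S')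
    (γ : PowerSeries ℤ) (w : ℕ) : coeffMap f (uOf S γ w) = uOf S' γ w := by
  rw [uOf, map_mul, coeffMap_single, map_one, coeffMap_ofPowerSeries,
    ← RingHom.comp_apply (PowerSeries.map f) (PowerSeries.map (Int.castRingHom S)),
    ← PowerSeries.map_comp, RingHom.ext_int (f.comp (Int.castRingHom S)) (Int.castRingHom S')]
  rfl

/-- coefficients of `uOf`. -/
theorem coeff_uOf_aux (S : Type*) [CommRing S] (γ : PowerSeries ℤ) (w : ℕ) (k : ℤ) :
    (uOf S γ w).coeff k =
      (ofPS S ((γ * dedekindEtaUnitInv ^ w).map (Int.castRingHom S))).coeff (k + w) := by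
  rw [uOf, HahnSeries.coeff_single_mul, one_mul, sub_neg_eq_add]

theorem coeff_mul_of_lt (γ v : PowerSeries ℤ) (e n : ℕ) (h : ∀ k < e, γ.coeff k = 0)
    (hn : n < e) : (γ * v).coeff n = 0 := by
  rw [PowerSeries.coeff_mul]
  refine Finset.sum_eq_zero fun ij hij => ?_
  rw [Finset.HasAntidiagonal.mem_antidiagonal] at hij
  rw [h ij.1 (by omega), zero_mul]

theorem coeff_mul_of_eq (γ v : PowerSeries ℤ) (e : ℕ) (h : ∀ k < e, γ.coeff k = 0) :
    (γ * v).coeff e = γ.coeff e * PowerSeries.constantCoeff v := by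
  rw [PowerSeries.coeff_mul, Finset.sum_eq_single (e, 0)]
  · rw [PowerSeries.coeff_zero_eq_constantCoeff_apply]
  · intro ij hij hne
    rw [Finset.HasAntidiagonal.mem_antidiagonal] at hij
    have h1 : ij.1 < e := by
      rcases Nat.lt_or_ge ij.1 e with h1 | h1
      · exact h1
      · exfalso
        apply hne
        exact Prod.ext (by simp only; omega) (by simp only; omega)
    rw [h ij.1 h1, zero_mul]
  · intro hnot
    exact absurd (Finset.HasAntidiagonal.mem_antidiagonal.mpr (by simp)) hnot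

theorem ordGE_uOf (S : Type*) [CommRing S] (γ : PowerSeries ℤ) (w e : ℕ)
    (h : ∀ k < e, γ.coeff k = 0) : OrdGE (uOf S γ w) ((e : ℤ) - w) := by
  intro k hk
  rw [coeff_uOf_aux]
  rcases lt_or_ge (k + w) 0 with hneg | hpos
  · exact ofPowerSeries_coeff_of_neg _ hneg
  · obtain ⟨n, hn⟩ := Int.eq_ofNat_of_zero_le hpos
    rw [hn, HahnSeries.ofPowerSeries_apply_coeff, PowerSeries.coeff_map,
      coeff_mul_of_lt γ _ e n h (by omega), map_zero]

theorem coeff_uOf (S : Type*) [CommRing S] (γ : PowerSeries ℤ) (w e : ℕ)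
    (h : ∀ k < e, γ.coeff k = 0) : (uOf S γ w).coeff ((e : ℤ) - w) = (γ.coeff e : S) := by
  rw [coeff_uOf_aux, sub_add_cancel, HahnSeries.ofPowerSeries_apply_coeff, PowerSeries.coeff_map,
    coeff_mul_of_eq γ _ e h, map_pow, constantCoeff_dedekindEtaUnitInv, one_pow, mul_one]
  rfl

theorem isInt_uOf (ℓ : ℕ) (γ : PowerSeries ℤ) (w : ℕ) : IsInt ℓ (uOf ℚ γ w) :=
  isInt_iff.mpr ⟨uOf (Zl ℓ) γ w, coeffMap_uOf _ γ w⟩

/-- homogeneous power series identity `⇒` Laurent identity `χ(u ; j) = 0`. -/
theorem eval₂_uOf_eq_zero (S : Type*) [CommRing S] (γ : PowerSeries ℤ) (n w : ℕ) (χ : S[X][X])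
    (hdeg : χ.natDegree = n) (hle : ∀ i ≤ n, (χ.coeff (n - i)).natDegree ≤ i * w)
    (h : ∑ i ∈ Finset.range (n + 1),
      (∑ a ∈ Finset.range (i * w + 1),
        PowerSeries.C ((χ.coeff (n - i)).coeff a) * E4S S ^ (3 * a) * DeltaS S ^ (i * w - a)) *
        (γ.map (Int.castRingHom S)) ^ (n - i) = 0) :
    χ.eval₂ (evalJ S) (uOf S γ w) = 0 := by
  have hJD := jqModC_mul_DeltaS S
  have hU := isUnit_DeltaS S
  have hu := uOf_mul_DeltaS S γ w
  have h' := congrArg (ofPS S) h
  rw [map_zero, map_sum] at h'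
  set D := ofPS S (DeltaS S) with hD
  set E := ofPS S (E4S S) with hE
  set G := ofPS S (γ.map (Int.castRingHom S)) with hG
  set u := uOf S γ w with hudef
  have key : χ.eval₂ (evalJ S) u * D ^ (n * w) = 0 := by
    rw [Polynomial.eval₂_eq_sum_range, hdeg, ← Finset.sum_range_reflect, Finset.sum_mul, ← h']
    refine Finset.sum_congr rfl fun i hi => ?_
    have hi' : i ≤ n := by
      have := Finset.mem_range.mp hi
      omega
    have e1 : n + 1 - 1 - i = n - i := by omega
    rw [e1, map_mul, map_pow, map_sum]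
    have e2 : D ^ (n * w) = D ^ (i * w) * (D ^ w) ^ (n - i) := by
      rw [← pow_mul, ← pow_add]
      congr 1
      rw [mul_comm w, ← add_mul]
      congr 1
      omega
    have e3 : evalJ S (χ.coeff (n - i)) * D ^ (i * w) =
        ∑ a ∈ Finset.range (i * w + 1),
          ofPS S (PowerSeries.C ((χ.coeff (n - i)).coeff a) * E4S S ^ (3 * a) *
            DeltaS S ^ (i * w - a)) := by
      rw [evalJ, Polynomial.coe_eval₂RingHom,
        Polynomial.eval₂_eq_sum_range' _ (Nat.lt_succ_of_le (hle i hi')), Finset.sum_mul]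
      refine Finset.sum_congr rfl fun a ha => ?_
      have ha' : a ≤ i * w := by
        have := Finset.mem_range.mp ha
        omega
      have e4 : D ^ (i * w) = D ^ a * D ^ (i * w - a) := by
        rw [← pow_add]
        congr 1
        omega
      rw [map_mul, map_mul, map_pow, map_pow, HahnSeries.ofPowerSeries_C, ← hD, ← hE,
        pow_mul E 3 a, ← hJD, mul_pow, e4]
      ring
    calc evalJ S (χ.coeff (n - i)) * u ^ (n - i) * D ^ (n * w)
        = (evalJ S (χ.coeff (n - i)) * D ^ (i * w)) * (u * D ^ w) ^ (n - i) := by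
          rw [e2, mul_pow]; ring
      _ = _ := by rw [e3, hu]
  exact (hU.pow (n * w)).mul_left_eq_zero.mp key

end Fermat.Agent.S28

end
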