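import Mathlib

/-!
# S28-U3: an irreducible monic polynomial over an integrally closed domain divides every
polynomial sharing a root with it
-/

set_option autoImplicit false

namespace Fermat.Agent.S28

open Polynomial

theorem dvd_of_irreducible_of_eval₂ {A L : Type*} [CommRing A] [IsDomain A]
    [IsIntegrallyClosed A] [Field L] (φ : A →+* L) (hφ : Function.Injective φ) (u : L)
    (χ : A[X]) (hirr : Irreducible χ) (hm : χ.Monic) (h : χ.eval₂ φ u = 0)
    (P : A[X]) (hP : P.eval₂ φ u = 0) : χ ∣ P := by
  let K := FractionRing A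
  let ψ : K →+* L := IsFractionRing.lift hφ
  let _ : Algebra K L := ψ.toAlgebra
  have hψ : ∀ a : A, ψ (algebraMap A K a) = φ a := fun a => IsFractionRing.lift_algebraMap hφ a
  have hcomp : ψ.comp (algebraMap A K) = φ := RingHom.ext hψ
  have haeval : ∀ R : A[X], aeval u (R.map (algebraMap A K)) = R.eval₂ φ u := by
    intro R
    rw [aeval_def, eval₂_map]
    change R.eval₂ (ψ.comp (algebraMap A K)) u = _
    rw [hcomp]
  have hirrK : Irreducible (χ.map (algebraMap A K)) :=
    (hm.irreducible_iff_irreducible_map_fraction_map (K := K)).mp hirr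
  have hmin : χ.map (algebraMap A K) = minpoly K u :=
    minpoly.eq_of_irreducible_of_monic hirrK (by rw [haeval, h]) (hm.map _)
  have hdvd : χ.map (algebraMap A K) ∣ P.map (algebraMap A K) := by
    rw [hmin]
    exact minpoly.dvd K u (by rw [haeval, hP])
  have hmod : (P %ₘ χ).map (algebraMap A K) = 0 := by
    rw [map_modByMonic _ hm]
    exact (modByMonic_eq_zero_iff_dvd (hm.map _)).mpr hdvd
  have hinj : Function.Injective (Polynomial.map (algebraMap A K)) :=
    map_injective _ (IsFractionRing.injective A K)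
  have : P %ₘ χ = 0 := hinj (by rw [hmod, Polynomial.map_zero])
  exact (modByMonic_eq_zero_iff_dvd hm).mp this

/-- A polynomial of smaller degree vanishing at the root is zero. -/
theorem eq_zero_of_natDegree_lt_of_eval₂ {A L : Type*} [CommRing A] [IsDomain A]
    [IsIntegrallyClosed A] [Field L] (φ : A →+* L) (hφ : Function.Injective φ) (u : L)
    (χ : A[X]) (hirr : Irreducible χ) (hm : χ.Monic) (h : χ.eval₂ φ u = 0)
    (P : A[X]) (hdeg : P.natDegree < χ.natDegree) (hP : P.eval₂ φ u = 0) : P = 0 :=
  eq_zero_of_dvd_of_natDegree_lt (dvd_of_irreducible_of_eval₂ φ hφ u χ hirr hm h P hP) hdeg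

/-- A monic polynomial of the same degree vanishing at the root is `χ`. -/
theorem eq_of_monic_of_natDegree_eq_of_eval₂ {A L : Type*} [CommRing A] [IsDomain A]
    [IsIntegrallyClosed A] [Field L] (φ : A →+* L) (hφ : Function.Injective φ) (u : L)
    (χ : A[X]) (hirr : Irreducible χ) (hm : χ.Monic) (h : χ.eval₂ φ u = 0)
    (χ' : A[X]) (hm' : χ'.Monic) (hdeg : χ'.natDegree = χ.natDegree) (h' : χ'.eval₂ φ u = 0) :
    χ' = χ := by
  have hdvd := dvd_of_irreducible_of_eval₂ φ hφ u χ hirr hm h χ' h'
  exact eq_of_monic_of_dvd_of_natDegree_le hm hm' hdvd hdeg.le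

end Fermat.Agent.S28
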