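import Fermat.Agent.S28.Formal
import Fermat.Agent.S28.MinPolyDvd
import Fermat.Agent.S28.Dependence
import Fermat.Agent.S28.Analytic.QExpSpace

/-!
# S28-U10 : `j(q^d) ∈ ℚ(j, u)`
-/

set_option autoImplicit false

noncomputable section

open ModularCurve Polynomial UpperHalfPlane ModularForm EisensteinSeries
open scoped MatrixGroups

namespace Fermat.Agent.S28

local notation "ofPS" => HahnSeries.ofPowerSeries ℤ

namespace Gen

theorem qExpand_one (f : LaurentSeries ℚ) : qExpand ℚ 1 f = f := by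
  ext k
  have := qExpand_coeff_mul (R := ℚ) 1 f k
  simpa using this

theorem isQExp_DeltaS (N : ℕ) [NeZero N] : IsQExp N 1 (DeltaS ℚ) := by
  obtain ⟨p, hp, hp'⟩ := isQExp_Delta N 1 (one_dvd N)
  rw [qExpand_one] at hp'
  have : p = DeltaS ℚ := HahnSeries.ofPowerSeries_injective hp'
  rwa [this] at hp

theorem IsQExp.congr {N m m' : ℕ} {p : PowerSeries ℚ} (h : IsQExp N m p) (e : m = m') :
    IsQExp N m' p := e ▸ h

theorem evalJ_mem (u : LaurentSeries ℚ) (P : ℚ[X]) :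
    evalJ ℚ P ∈ IntermediateField.adjoin ℚ {jq, u} := by
  rw [evalJ_eq_sum]
  refine sum_mem fun i _ => mul_mem ?_ (pow_mem ?_ i)
  · have : (HahnSeries.C (P.coeff i) : LaurentSeries ℚ) =
        algebraMap ℚ (LaurentSeries ℚ) (P.coeff i) := by
      rw [algebraMap_apply_eq_single]; rfl
    rw [this]
    exact IntermediateField.algebraMap_mem _ _
  · exact IntermediateField.subset_adjoin _ _ (Set.mem_insert _ _)

theorem quot_mem (N : ℕ) [NeZero N] (w : ℕ) (hw : 1 ≤ w) (γ : PowerSeries ℤ)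
    (hγ : IsQExp N w (γ.map (Int.castRingHom ℚ)))
    (χ : ℚ[X][X]) (hirr : Irreducible χ) (hmonic : χ.Monic)
    (hdeg : χ.natDegree = (CongruenceSubgroup.Gamma0 N).index)
    (h : χ.eval₂ (evalJ ℚ) (uOf ℚ γ w) = 0) (F : PowerSeries ℚ) (hF : IsQExp N 1 F) :
    ofPS ℚ F * (ofPS ℚ (DeltaS ℚ))⁻¹ ∈ IntermediateField.adjoin ℚ {jq, uOf ℚ γ w} := by
  classical
  set n := (CongruenceSubgroup.Gamma0 N).index with hn
  set u := uOf ℚ γ w with hu
  set D := ofPS ℚ (DeltaS ℚ) with hD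
  set G := γ.map (Int.castRingHom ℚ) with hG
  have hD0 : D ≠ 0 := (isUnit_DeltaS ℚ).ne_zero
  have hn1 : 1 ≤ n := by
    have : n ≠ 0 := by
      rw [hn]
      exact Subgroup.FiniteIndex.index_ne_zero
    omega
  have hnw : 1 ≤ n * w := Nat.mul_pos hn1 hw
  have hGD : ofPS ℚ G = u * D ^ w := (uOf_mul_DeltaS ℚ γ w).symm
  -- the forms
  let f' : ℕ → PowerSeries ℚ := fun i =>
    if i < n then G ^ i * DeltaS ℚ ^ (w * (n - i)) else F * DeltaS ℚ ^ (n * w - 1)
  have hf' : ∀ i, IsQExp N (n * w) (f' i) := by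
    intro i
    by_cases hi : i < n
    · simp only [f', if_pos hi]
      refine IsQExp.congr ((hγ.pow i).mul ((isQExp_DeltaS N).pow (w * (n - i)))) ?_
      obtain ⟨k, hk⟩ := Nat.exists_eq_add_of_lt hi
      have e1 : n - i = k + 1 := by omega
      rw [e1, hk]; ring
    · simp only [f', if_neg hi]
      refine IsQExp.congr (hF.mul ((isQExp_DeltaS N).pow (n * w - 1))) ?_
      omega
  obtain ⟨a, ha0, hsum⟩ := exists_dependence N (n * w) (fun i => f' i) (fun i => hf' i)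
  let b : ℕ → ℚ[X] := fun i => if hi : i < n + 1 then a ⟨i, hi⟩ else 0
  have hb : ∀ i : Fin (n + 1), b i = a i := by
    intro i
    simp only [b, dif_pos i.2]
    rfl
  have hsum' : ∑ i ∈ Finset.range (n + 1), evalJ ℚ (b i) * ofPS ℚ (f' i) = 0 := by
    rw [← Fin.sum_univ_eq_sum_range (fun i => evalJ ℚ (b i) * ofPS ℚ (f' i)) (n + 1), ← hsum]
    exact Finset.sum_congr rfl fun i _ => by rw [hb]
  have hlow : ∀ i ∈ Finset.range n, evalJ ℚ (b i) * ofPS ℚ (f' i) =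
      (evalJ ℚ (b i) * u ^ i) * D ^ (n * w) := by
    intro i hi
    have hi' : i < n := Finset.mem_range.mp hi
    simp only [f', if_pos hi']
    rw [map_mul, map_pow, map_pow, hGD, ← hD]
    obtain ⟨k, hk⟩ := Nat.exists_eq_add_of_lt hi'
    have e1 : n - i = k + 1 := by omega
    have e2 : n * w = w * i + w * (k + 1) := by rw [hk]; ring
    rw [e1, e2, pow_add, mul_pow, ← pow_mul]
    ring
  have htop : evalJ ℚ (b n) * ofPS ℚ (f' n) =
      (evalJ ℚ (b n) * (ofPS ℚ F * D⁻¹)) * D ^ (n * w) := by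
    simp only [f', if_neg (lt_irrefl n)]
    rw [map_mul, map_pow, ← hD]
    obtain ⟨k, hk⟩ := Nat.exists_eq_add_of_le hnw
    have e1 : n * w - 1 = k := by omega
    rw [e1, hk, pow_add, pow_one]
    field_simp
  rw [Finset.sum_range_succ, Finset.sum_congr rfl hlow, htop, ← Finset.sum_mul, ← add_mul] at hsum'
  have hrel : ∑ i ∈ Finset.range n, evalJ ℚ (b i) * u ^ i +
      evalJ ℚ (b n) * (ofPS ℚ F * D⁻¹) = 0 := by
    rcases mul_eq_zero.mp hsum' with h0 | h0
    · exact h0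
    · exact absurd h0 (pow_ne_zero _ hD0)
  have hbn : b n ≠ 0 := by
    intro hbn
    rw [hbn, map_zero, zero_mul, add_zero] at hrel
    let P : ℚ[X][X] := ∑ i ∈ Finset.range n, C (b i) * X ^ i
    have hPeval : P.eval₂ (evalJ ℚ) u = 0 := by
      rw [← hrel]
      simp only [P]
      rw [Polynomial.eval₂_finsetSum]
      exact Finset.sum_congr rfl fun i _ => by
        rw [Polynomial.eval₂_mul, Polynomial.eval₂_C, Polynomial.eval₂_pow, Polynomial.eval₂_X]
    have hdvd : χ ∣ P :=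
      dvd_of_irreducible_of_eval₂ (evalJ ℚ) (evalJ_injective ℚ) u χ hirr hmonic h P hPeval
    have hPdeg : P.degree < χ.degree := by
      rw [Polynomial.degree_eq_natDegree hmonic.ne_zero, hdeg]
      refine lt_of_le_of_lt (Polynomial.degree_sum_le _ _) ?_
      refine (Finset.sup_lt_iff (WithBot.bot_lt_coe n)).mpr ?_
      intro i hi
      refine lt_of_le_of_lt (Polynomial.degree_C_mul_X_pow_le i (b i)) ?_
      exact WithBot.coe_lt_coe.mpr (Finset.mem_range.mp hi)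
    have hP0 : P = 0 := Polynomial.eq_zero_of_dvd_of_degree_lt hdvd hPdeg
    apply ha0
    funext i
    rw [← hb i]
    rcases Nat.lt_or_ge (i : ℕ) n with hi | hi
    · have := congrArg (fun Q : ℚ[X][X] => Q.coeff (i : ℕ)) hP0
      simp only [P, Polynomial.finsetSum_coeff, Polynomial.coeff_C_mul_X_pow,
        Polynomial.coeff_zero] at this
      rw [Finset.sum_ite_eq (Finset.range n) (i : ℕ), if_pos (Finset.mem_range.mpr hi)] at this
      exact this
    · have : (i : ℕ) = n := le_antisymm (Nat.lt_succ_iff.mp i.2) hi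
      rw [this, hbn]; rfl
  have hEn : evalJ ℚ (b n) ≠ 0 := fun h0 =>
    hbn (evalJ_injective ℚ (by rw [h0, map_zero]))
  have hfin : ofPS ℚ F * D⁻¹ =
      -(∑ i ∈ Finset.range n, evalJ ℚ (b i) * u ^ i) * (evalJ ℚ (b n))⁻¹ := by
    have h3 : evalJ ℚ (b n) * (ofPS ℚ F * D⁻¹) =
        -(∑ i ∈ Finset.range n, evalJ ℚ (b i) * u ^ i) := by
      linear_combination hrel
    rw [← h3, mul_comm (evalJ ℚ (b n)), mul_assoc, mul_inv_cancel₀ hEn, mul_one]
  rw [hfin]
  refine mul_mem (neg_mem (sum_mem fun i _ => mul_mem (evalJ_mem u _) (pow_mem ?_ i)))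
    (inv_mem (evalJ_mem u _))
  exact IntermediateField.subset_adjoin _ _ (Set.mem_insert_of_mem _ rfl)

end Gen

theorem gen_of_irreducible (N : ℕ) [NeZero N] (w : ℕ) (hw : 1 ≤ w) (γ : PowerSeries ℤ)
    (hγ : IsQExp N w (γ.map (Int.castRingHom ℚ)))
    (χ : ℚ[X][X]) (hirr : Irreducible χ) (hmonic : χ.Monic)
    (hdeg : χ.natDegree = (CongruenceSubgroup.Gamma0 N).index)
    (h : χ.eval₂ (evalJ ℚ) (uOf ℚ γ w) = 0) (d : ℕ) [NeZero d] (hd : d ∣ N) :
    qExpand ℚ d jq ∈ IntermediateField.adjoin ℚ {jq, uOf ℚ γ w} := by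
  obtain ⟨p, hp, hp'⟩ := isQExp_E4_cube N d hd
  obtain ⟨r, hr, hr'⟩ := isQExp_Delta N d hd
  have h1 := Gen.quot_mem N w hw γ hγ χ hirr hmonic hdeg h p hp
  have h2 := Gen.quot_mem N w hw γ hγ χ hirr hmonic hdeg h r hr
  have hD0 : ofPS ℚ (DeltaS ℚ) ≠ 0 := (isUnit_DeltaS ℚ).ne_zero
  have hr0 : ofPS ℚ r ≠ 0 := by
    rw [hr']
    exact (map_ne_zero (qExpand ℚ d)).mpr hD0
  have hj : jq * ofPS ℚ (DeltaS ℚ) = ofPS ℚ (E4S ℚ) ^ 3 := jqModC_mul_DeltaS ℚ
  have hj' : qExpand ℚ d jq * ofPS ℚ r = ofPS ℚ p := by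
    rw [hr', hp', ← map_mul, hj, map_pow (ofPS ℚ)]
  have : qExpand ℚ d jq =
      (ofPS ℚ p * (ofPS ℚ (DeltaS ℚ))⁻¹) * (ofPS ℚ r * (ofPS ℚ (DeltaS ℚ))⁻¹)⁻¹ := by
    rw [← hj']
    field_simp
  rw [this]
  exact mul_mem h1 (inv_mem h2)

end Fermat.Agent.S28

end
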