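import Fermat.Agent.S28.IntLaurent
import Fermat.Agent.S28.ZlRing

/-!
# S28 (U6): a weighted polynomial relation with rational coefficients satisfied by an
`ℓ`-integral series of the right order has `ℓ`-integral coefficients
-/

set_option autoImplicit false

noncomputable section

open ModularCurve Polynomial

namespace Fermat.Agent.S28

/-- naturality of `P ↦ P(u ; j)` in the coefficient ring. -/
theorem coeffMap_eval₂_evalJ {S S' : Type*} [CommRing S] [CommRing S'] (f : S →+* S')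
    (P : S[X][X]) (u : LaurentSeries S) :
    coeffMap f (P.eval₂ (evalJ S) u) =
      (P.map (Polynomial.mapRingHom f)).eval₂ (evalJ S') (coeffMap f u) := by
  rw [Polynomial.hom_eval₂, Polynomial.eval₂_map]
  congr 1
  exact RingHom.ext fun Q => coeffMap_evalJ f Q

/-- **Independence with degree constraints.**  No assumption on the ring. -/
theorem eq_zero_of_shape {k : Type*} [CommRing k] (n w : ℕ) (hw : 1 ≤ w) (P : k[X][X])
    (hle : ∀ m < n, (P.coeff m).natDegree + m * w ≤ n * w)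
    (hn : ∀ m, n ≤ m → P.coeff m = 0) (h0 : P.coeff 0 = 0)
    (u : LaurentSeries k) (hu : OrdGE u (((n - 1) * w : ℕ) : ℤ))
    (hu1 : u.coeff (((n - 1) * w : ℕ) : ℤ) = 1)
    (h : P.eval₂ (evalJ k) u = 0) : P = 0 := by
  classical
  by_contra hP
  -- the smallest index with a nonzero coefficient
  have hex : ∃ m, P.coeff m ≠ 0 := by
    by_contra hcon
    push Not at hcon
    exact hP (Polynomial.ext fun m => by rw [hcon m, Polynomial.coeff_zero])
  set m₀ := Nat.find hex with hm₀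
  have hm₀ne : P.coeff m₀ ≠ 0 := Nat.find_spec hex
  have hmin : ∀ m < m₀, P.coeff m = 0 := fun m hm => by
    by_contra hc
    exact Nat.find_min hex hm hc
  have hm₀pos : 1 ≤ m₀ := by
    rcases Nat.eq_zero_or_pos m₀ with h' | h'
    · rw [h'] at hm₀ne; exact absurd h0 hm₀ne
    · exact h'
  have hm₀lt : m₀ < n := by
    by_contra hc
    exact hm₀ne (hn m₀ (not_lt.mp hc))
  set D := (P.coeff m₀).natDegree with hD
  set e : ℤ := (((n - 1) * w : ℕ) : ℤ) with he
  have hsum : P.eval₂ (evalJ k) u = ∑ m ∈ Finset.range n, evalJ k (P.coeff m) * u ^ m := by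
    refine Polynomial.eval₂_eq_sum_range' _ ?_ _
    rcases Nat.eq_zero_or_pos n with h' | h'
    · omega
    · refine lt_of_le_of_lt (Polynomial.natDegree_le_iff_coeff_eq_zero.mpr fun N hN => hn N ?_)
        (Nat.sub_lt h' one_pos)
      omega
  have hcoeff := congrArg (fun f : LaurentSeries k => f.coeff (-(D : ℤ) + (m₀ : ℤ) * e)) h
  simp only [HahnSeries.coeff_zero] at hcoeff
  rw [hsum, HahnSeries.coeff_sum, Finset.sum_eq_single m₀] at hcoeff
  · rw [coeff_mul_of_ordGE (ordGE_evalJ k _ le_rfl) (hu.pow m₀), coeff_evalJ k _ le_rfl,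
      coeff_pow_of_ordGE hu, hu1, one_pow, mul_one] at hcoeff
    exact hm₀ne (Polynomial.leadingCoeff_eq_zero.mp hcoeff)
  · intro m hm hne
    rcases lt_or_gt_of_ne hne with hlt | hgt
    · rw [hmin m hlt, map_zero, zero_mul, HahnSeries.coeff_zero]
    · have hmn : m < n := Finset.mem_range.mp hm
      have hord := (ordGE_evalJ k (P.coeff m) (le_refl _)).mul (hu.pow m)
      refine hord _ ?_
      -- arithmetic
      have h1 : ((P.coeff m).natDegree : ℤ) + m * w ≤ n * w := by exact_mod_cast hle m hmn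
      have he' : e = ((n : ℤ) - 1) * w := by
        rw [he]; push_cast [Nat.cast_sub (by omega : 1 ≤ n)]; ring
      have hD0 : (0 : ℤ) ≤ D := Int.natCast_nonneg _
      have hw' : (1 : ℤ) ≤ w := by exact_mod_cast hw
      have hmm : (m₀ : ℤ) + 1 ≤ m := by exact_mod_cast hgt
      have hm1 : (1 : ℤ) ≤ m₀ := by exact_mod_cast hm₀pos
      have hmn' : (m : ℤ) + 1 ≤ n := by exact_mod_cast hmn
      rw [he']
      -- goal: -D + m₀ (n-1) w < -deg + m (n-1) w
      have key : ((n : ℤ) - m) * w < ((m : ℤ) - m₀) * (((n : ℤ) - 1) * w) := by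
        have a1 : ((n : ℤ) - m) * w < ((n : ℤ) - 1) * w := by nlinarith
        have a2 : ((n : ℤ) - 1) * w ≤ ((m : ℤ) - m₀) * (((n : ℤ) - 1) * w) := by
          have : (0 : ℤ) ≤ ((n : ℤ) - 1) * w := by nlinarith
          nlinarith
        linarith
      nlinarith
  · intro hnot
    exact absurd (Finset.mem_range.mpr hm₀lt) hnot

/-- Every rational number becomes `ℓ`-integral after multiplication by a power of `ℓ`. -/
theorem exists_pow_mul_mem (ℓ : ℕ) [Fact ℓ.Prime] (x : ℚ) :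
    ∃ s : ℕ, (ℓ : ℚ) ^ s * x ∈ GaloisRep.ratLocalizedAt ℓ := by
  have hℓ : ℓ.Prime := Fact.out
  obtain ⟨s, d, hd, hxd⟩ := Nat.exists_eq_pow_mul_and_not_dvd x.den_ne_zero ℓ hℓ.ne_one
  refine ⟨s, ?_⟩
  have hd0 : (d : ℚ) ≠ 0 := by
    intro h0
    have : d = 0 := by exact_mod_cast h0
    exact hd (this ▸ dvd_zero _)
  have hℓ0 : (ℓ : ℚ) ≠ 0 := by exact_mod_cast hℓ.ne_zero
  have hx : (ℓ : ℚ) ^ s * x = (x.num : ℚ) * ((d : ℤ) : ℚ)⁻¹ := by
    conv_lhs => rw [← Rat.num_div_den x, hxd]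
    push_cast
    field_simp
  rw [hx]
  refine Subring.mul_mem _ (intCast_mem _ _) (ZlRing.inv_int_mem ℓ ?_)
  exact_mod_cast hd

theorem pow_mul_mem_of_le (ℓ : ℕ) {x : ℚ} {s t : ℕ} (hst : s ≤ t)
    (h : (ℓ : ℚ) ^ s * x ∈ GaloisRep.ratLocalizedAt ℓ) :
    (ℓ : ℚ) ^ t * x ∈ GaloisRep.ratLocalizedAt ℓ := by
  obtain ⟨r, rfl⟩ := Nat.exists_eq_add_of_le hst
  rw [pow_add, mul_comm ((ℓ : ℚ) ^ s), mul_assoc]
  exact Subring.mul_mem _ (Subring.pow_mem _ (natCast_mem _ _) _) h

/-- lifting a polynomial in two variables whose coefficients are `ℓ`-integral. -/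
theorem exists_lift_of_coeff_mem (ℓ : ℕ) (χ : ℚ[X][X])
    (h : ∀ m a, (χ.coeff m).coeff a ∈ GaloisRep.ratLocalizedAt ℓ) :
    ∃ B : (Zl ℓ)[X][X],
      B.map (Polynomial.mapRingHom (GaloisRep.ratLocalizedAt ℓ).subtype) = χ := by
  have h1 : ∀ m, ∃ b : (Zl ℓ)[X], b.map (GaloisRep.ratLocalizedAt ℓ).subtype = χ.coeff m := by
    intro m
    have : χ.coeff m ∈ Polynomial.lifts (GaloisRep.ratLocalizedAt ℓ).subtype := by
      rw [Polynomial.lifts_iff_coeff_lifts]
      intro a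
      exact ⟨⟨_, h m a⟩, rfl⟩
    exact (Polynomial.mem_lifts _).mp this
  have h2 : χ ∈ Polynomial.lifts (Polynomial.mapRingHom (GaloisRep.ratLocalizedAt ℓ).subtype) := by
    rw [Polynomial.lifts_iff_coeff_lifts]
    intro m
    obtain ⟨b, hb⟩ := h1 m
    exact ⟨b, hb⟩
  exact (Polynomial.mem_lifts _).mp h2

theorem exists_pow_lift (ℓ : ℕ) [Fact ℓ.Prime] (χ : ℚ[X][X]) :
    ∃ (s : ℕ) (B : (Zl ℓ)[X][X]),
      B.map (Polynomial.mapRingHom (GaloisRep.ratLocalizedAt ℓ).subtype) =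
        C (C ((ℓ : ℚ) ^ s)) * χ := by
  classical
  choose σ hσ using fun x : ℚ => exists_pow_mul_mem ℓ x
  set s := (Finset.range (χ.natDegree + 1)).sup fun m =>
    (Finset.range ((χ.coeff m).natDegree + 1)).sup fun a => σ ((χ.coeff m).coeff a) with hs
  refine ⟨s, exists_lift_of_coeff_mem ℓ _ fun m a => ?_⟩
  rw [Polynomial.coeff_C_mul, Polynomial.coeff_C_mul]
  by_cases hm : m ≤ χ.natDegree
  · by_cases ha : a ≤ (χ.coeff m).natDegree
    · refine pow_mul_mem_of_le ℓ ?_ (hσ _)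
      have e1 : σ ((χ.coeff m).coeff a) ≤
          (Finset.range ((χ.coeff m).natDegree + 1)).sup fun a => σ ((χ.coeff m).coeff a) :=
        Finset.le_sup (f := fun a => σ ((χ.coeff m).coeff a))
          (Finset.mem_range.mpr (Nat.lt_succ_of_le ha))
      have e2 : ((Finset.range ((χ.coeff m).natDegree + 1)).sup
          fun a => σ ((χ.coeff m).coeff a)) ≤ s :=
        Finset.le_sup (f := fun m => (Finset.range ((χ.coeff m).natDegree + 1)).sup
          fun a => σ ((χ.coeff m).coeff a)) (Finset.mem_range.mpr (Nat.lt_succ_of_le hm))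
      exact e1.trans e2
    · rw [Polynomial.coeff_eq_zero_of_natDegree_lt (not_le.mp ha), mul_zero]
      exact Subring.zero_mem _
  · rw [Polynomial.coeff_eq_zero_of_natDegree_lt (not_le.mp hm), Polynomial.coeff_zero, mul_zero]
    exact Subring.zero_mem _

theorem subtype_injective' (ℓ : ℕ) :
    Function.Injective (GaloisRep.ratLocalizedAt ℓ).subtype := Subtype.val_injective

theorem mapRingHom_subtype_injective (ℓ : ℕ) :
    Function.Injective (Polynomial.mapRingHom (GaloisRep.ratLocalizedAt ℓ).subtype) :=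
  Polynomial.map_injective _ (subtype_injective' ℓ)

/-- the descent step. -/
theorem int_step (ℓ : ℕ) [Fact ℓ.Prime] (n w : ℕ) (hn : 1 ≤ n) (hw : 1 ≤ w)
    (χ : ℚ[X][X]) (hmonic : χ.Monic) (hdeg : χ.natDegree = n)
    (hle : ∀ i ≤ n, (χ.coeff (n - i)).natDegree ≤ i * w)
    (c0 : Zl ℓ) (hc0 : χ.coeff 0 = C (c0 : ℚ))
    (u : LaurentSeries ℚ) (hint : IsInt ℓ u) (hu : OrdGE u (((n - 1) * w : ℕ) : ℤ))
    (hu1 : u.coeff (((n - 1) * w : ℕ) : ℤ) = 1)
    (h : χ.eval₂ (evalJ ℚ) u = 0) (s : ℕ) (B : (Zl ℓ)[X][X])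
    (hB : B.map (Polynomial.mapRingHom (GaloisRep.ratLocalizedAt ℓ).subtype) =
      C (C ((ℓ : ℚ) ^ (s + 1))) * χ) :
    ∃ B' : (Zl ℓ)[X][X],
      B'.map (Polynomial.mapRingHom (GaloisRep.ratLocalizedAt ℓ).subtype) =
        C (C ((ℓ : ℚ) ^ s)) * χ := by
  have hℓ : ℓ.Prime := Fact.out
  have hℓ0 : (ℓ : ℚ) ≠ 0 := by exact_mod_cast hℓ.ne_zero
  -- coefficients of `B`
  have hBc : ∀ m, (B.coeff m).map (GaloisRep.ratLocalizedAt ℓ).subtype =
      C ((ℓ : ℚ) ^ (s + 1)) * χ.coeff m := by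
    intro m
    have := congrArg (fun Q => Q.coeff m) hB
    beta_reduce at this
    rw [Polynomial.coeff_map, Polynomial.coeff_C_mul] at this
    exact this
  have hBdeg : ∀ m, (B.coeff m).natDegree ≤ (χ.coeff m).natDegree := by
    intro m
    rw [← Polynomial.natDegree_map_eq_of_injective (subtype_injective' ℓ) (B.coeff m), hBc m]
    exact Polynomial.natDegree_C_mul_le _ _
  set Bb : (ZMod ℓ)[X][X] := B.map (Polynomial.mapRingHom (ZlRing.red ℓ)) with hBb
  have hBbc : ∀ m, Bb.coeff m = (B.coeff m).map (ZlRing.red ℓ) := by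
    intro m
    rw [hBb, Polynomial.coeff_map]; rfl
  set ub : LaurentSeries (ZMod ℓ) := coeffMap (ZlRing.red ℓ) hint.lift with hub
  -- the relation over `ℤ_(ℓ)`
  have hrelZ : B.eval₂ (evalJ (Zl ℓ)) hint.lift = 0 := by
    apply toQ_injective ℓ
    rw [map_zero, toQ, coeffMap_eval₂_evalJ, hB, ← toQ, hint.toQ_lift, Polynomial.eval₂_mul, h,
      mul_zero]
  have hrel : Bb.eval₂ (evalJ (ZMod ℓ)) ub = 0 := by
    rw [hBb, hub, ← coeffMap_eval₂_evalJ, hrelZ, map_zero]
  have hredℓ : ZlRing.red ℓ ((ℓ : Zl ℓ) ^ (s + 1)) = 0 := by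
    rw [map_pow, ZlRing.red_natCast, ZMod.natCast_self, zero_pow (Nat.succ_ne_zero s)]
  have hzero : Bb = 0 := by
    refine eq_zero_of_shape n w hw Bb ?_ ?_ ?_ ub ?_ ?_ hrel
    · intro m hm'
      have hm : m ≤ n := hm'.le
      have h1 := hle (n - m) (Nat.sub_le _ _)
      rw [Nat.sub_sub_self hm] at h1
      have h2 : (Bb.coeff m).natDegree ≤ (n - m) * w := by
        rw [hBbc]
        exact (Polynomial.natDegree_map_le).trans ((hBdeg m).trans h1)
      have h3 : (n - m) * w + m * w = n * w := by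
        rw [← Nat.add_mul, Nat.sub_add_cancel hm]
      omega
    · intro m hm
      rw [hBbc]
      rcases Nat.eq_or_lt_of_le hm with rfl | hlt
      · have h1 : B.coeff n = C ((ℓ : Zl ℓ) ^ (s + 1)) := by
          apply Polynomial.map_injective _ (subtype_injective' ℓ)
          rw [hBc, Polynomial.map_C]
          have : χ.coeff n = 1 := by rw [← hdeg]; exact hmonic.coeff_natDegree
          rw [this, mul_one]
          simp
        rw [h1, Polynomial.map_C, hredℓ, Polynomial.C_0]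
      · have h1 : B.coeff m = 0 := by
          apply Polynomial.map_injective _ (subtype_injective' ℓ)
          rw [hBc, Polynomial.coeff_eq_zero_of_natDegree_lt (by omega), mul_zero,
            Polynomial.map_zero]
        rw [h1, Polynomial.map_zero]
    · rw [hBbc]
      have h1 : B.coeff 0 = C ((ℓ : Zl ℓ) ^ (s + 1) * c0) := by
        apply Polynomial.map_injective _ (subtype_injective' ℓ)
        rw [hBc, Polynomial.map_C, hc0, ← Polynomial.C_mul]
        simp
      rw [h1, Polynomial.map_C, map_mul, hredℓ, zero_mul, Polynomial.C_0]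
    · intro k hk
      rw [hub, coeffMap_coeff, hint.ordGE_lift hu k hk, map_zero]
    · rw [hub, coeffMap_coeff]
      have : hint.lift.coeff (((n - 1) * w : ℕ) : ℤ) = 1 := by
        apply subtype_injective' ℓ
        have := toQ_coeff ℓ hint.lift (((n - 1) * w : ℕ) : ℤ)
        rw [hint.toQ_lift, hu1] at this
        simpa using this.symm
      rw [this, map_one]
  -- divisibility by `ℓ`
  have hdvd : C (C (ℓ : Zl ℓ)) ∣ B := by
    rw [Polynomial.C_dvd_iff_dvd_coeff]
    intro m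
    rw [Polynomial.C_dvd_iff_dvd_coeff]
    intro a
    have h1 : ZlRing.red ℓ ((B.coeff m).coeff a) = 0 := by
      have := congrArg (fun Q : (ZMod ℓ)[X][X] => (Q.coeff m).coeff a) hzero
      beta_reduce at this
      rw [hBbc, Polynomial.coeff_map] at this
      simpa using this
    obtain ⟨y, hy⟩ := (ZlRing.red_eq_zero_iff ℓ _).mp h1
    exact ⟨y, hy⟩
  obtain ⟨B', hB'⟩ := hdvd
  refine ⟨B', ?_⟩
  have hne : (C (C (ℓ : ℚ)) : ℚ[X][X]) ≠ 0 := by
    simpa using hℓ0
  apply mul_left_cancel₀ hne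
  have h2 : (C (C (ℓ : Zl ℓ)) : (Zl ℓ)[X][X]).map
      (Polynomial.mapRingHom (GaloisRep.ratLocalizedAt ℓ).subtype) = C (C (ℓ : ℚ)) := by
    simp
  rw [← h2, ← Polynomial.map_mul, ← hB', hB, h2, ← mul_assoc, ← Polynomial.C_mul,
    ← Polynomial.C_mul, pow_succ']

/-- **(U6)** -/
theorem exists_int_of_rat (ℓ : ℕ) [Fact ℓ.Prime] (n w : ℕ) (hn : 1 ≤ n) (hw : 1 ≤ w)
    (χ : ℚ[X][X]) (hmonic : χ.Monic) (hdeg : χ.natDegree = n)
    (hle : ∀ i ≤ n, (χ.coeff (n - i)).natDegree ≤ i * w)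
    (c0 : Zl ℓ) (hc0 : χ.coeff 0 = C (c0 : ℚ))
    (u : LaurentSeries ℚ) (hint : IsInt ℓ u) (hu : OrdGE u (((n - 1) * w : ℕ) : ℤ))
    (hu1 : u.coeff (((n - 1) * w : ℕ) : ℤ) = 1)
    (h : χ.eval₂ (evalJ ℚ) u = 0) :
    ∃ χ' : (Zl ℓ)[X][X],
      χ'.map (Polynomial.mapRingHom (GaloisRep.ratLocalizedAt ℓ).subtype) = χ := by
  obtain ⟨s, B, hB⟩ := exists_pow_lift ℓ χ
  induction s generalizing B with
  | zero => exact ⟨B, by rw [hB]; simp⟩
  | succ s ih =>
    obtain ⟨B', hB'⟩ := int_step ℓ n w hn hw χ hmonic hdeg hle c0 hc0 u hint hu hu1 h s B hB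
    exact ih B' hB'

end Fermat.Agent.S28

end
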