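import Fermat.Agent.S28.DefsT7
import Fermat.Agent.S28.ZlRing

/-!
# S28-U7: `LUnit` closure lemmas; a rational `LUnit` is a unit of `ℤ_(ℓ)` (owner: helper292)
-/

set_option autoImplicit false

noncomputable section

namespace Fermat.Agent.S28

namespace LUnit

variable {ℓ : ℕ}

theorem ne_zero {κ : ℂ} (h : LUnit ℓ κ) : κ ≠ 0 := by
  obtain ⟨m, a, b, hm, -, hb, h⟩ := h
  rintro rfl
  rw [zero_pow (by omega), zero_mul] at h
  have hb0 : b = 0 := by exact_mod_cast h.symm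
  exact hb (hb0 ▸ dvd_zero _)

theorem one (hℓ : ℓ ≠ 1) : LUnit ℓ 1 :=
  ⟨1, 1, 1, le_rfl, by simpa using hℓ, by simpa using hℓ, by simp⟩

theorem of_pow_eq_one (hℓ : ℓ ≠ 1) {z : ℂ} {m : ℕ} (hm : 1 ≤ m) (h : z ^ m = 1) : LUnit ℓ z :=
  ⟨m, 1, 1, hm, by simpa using hℓ, by simpa using hℓ, by simp [h]⟩

theorem natCast (hℓ : ℓ ≠ 1) {a : ℕ} (ha : ¬ ℓ ∣ a) : LUnit ℓ (a : ℂ) :=
  ⟨1, 1, a, le_rfl, by simpa using hℓ, ha, by simp⟩

theorem inv {κ : ℂ} (h : LUnit ℓ κ) : LUnit ℓ κ⁻¹ := by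
  have h0 := h.ne_zero
  obtain ⟨m, a, b, hm, ha, hb, h⟩ := h
  refine ⟨m, b, a, hm, hb, ha, ?_⟩
  rw [← h, inv_pow]
  field_simp

variable [hℓ : Fact ℓ.Prime]

theorem one' : LUnit ℓ 1 := one hℓ.out.ne_one

theorem of_pow_eq_one' {z : ℂ} {m : ℕ} (hm : 1 ≤ m) (h : z ^ m = 1) : LUnit ℓ z :=
  of_pow_eq_one hℓ.out.ne_one hm h

theorem natCast' {a : ℕ} (ha : ¬ ℓ ∣ a) : LUnit ℓ (a : ℂ) := natCast hℓ.out.ne_one ha

theorem mul {κ κ' : ℂ} (h : LUnit ℓ κ) (h' : LUnit ℓ κ') : LUnit ℓ (κ * κ') := by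
  obtain ⟨m, a, b, hm, ha, hb, h⟩ := h
  obtain ⟨m', a', b', hm', ha', hb', h'⟩ := h'
  refine ⟨m * m', a ^ m' * a' ^ m, b ^ m' * b' ^ m, Nat.mul_pos hm hm', ?_, ?_, ?_⟩
  · exact hℓ.out.not_dvd_mul (fun hd => ha (hℓ.out.dvd_of_dvd_pow hd))
      (fun hd => ha' (hℓ.out.dvd_of_dvd_pow hd))
  · exact hℓ.out.not_dvd_mul (fun hd => hb (hℓ.out.dvd_of_dvd_pow hd))
      (fun hd => hb' (hℓ.out.dvd_of_dvd_pow hd))
  · push_cast
    rw [← h, ← h']
    ring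

theorem neg_one : LUnit ℓ (-1) := of_pow_eq_one' (m := 2) (by norm_num) (by norm_num)

theorem neg {κ : ℂ} (h : LUnit ℓ κ) : LUnit ℓ (-κ) := by
  have := neg_one (ℓ := ℓ).mul h
  simpa using this

theorem pow {κ : ℂ} (h : LUnit ℓ κ) (k : ℕ) : LUnit ℓ (κ ^ k) := by
  induction k with
  | zero => simpa using one' (ℓ := ℓ)
  | succ k ih => rw [pow_succ]; exact ih.mul h

theorem zpow {κ : ℂ} (h : LUnit ℓ κ) (k : ℤ) : LUnit ℓ (κ ^ k) := by
  obtain ⟨n, rfl | rfl⟩ := k.eq_nat_or_neg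
  · simpa using h.pow n
  · simpa using (h.pow n).inv

theorem div {κ κ' : ℂ} (h : LUnit ℓ κ) (h' : LUnit ℓ κ') : LUnit ℓ (κ / κ') := by
  rw [div_eq_mul_inv]; exact h.mul h'.inv

theorem intCast {a : ℤ} (ha : ¬ (ℓ : ℤ) ∣ a) : LUnit ℓ (a : ℂ) := by
  have hn : ¬ ℓ ∣ a.natAbs := fun h => ha (Int.natCast_dvd.mpr h)
  rcases Int.natAbs_eq a with h | h
  · rw [h]; simpa using natCast' hn
  · rw [h]; simpa using (natCast' hn).neg

theorem prod {ι : Type*} (s : Finset ι) (f : ι → ℂ) (h : ∀ i ∈ s, LUnit ℓ (f i)) :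
    LUnit ℓ (∏ i ∈ s, f i) := by
  classical
  induction s using Finset.induction_on with
  | empty => simpa using one' (ℓ := ℓ)
  | insert i s hi ih =>
    rw [Finset.prod_insert hi]
    exact (h i (Finset.mem_insert_self i s)).mul
      (ih fun j hj => h j (Finset.mem_insert_of_mem hj))

omit hℓ in
/-- if a power of `κ` is an `LUnit`, so is `κ`. -/
theorem of_pow {κ : ℂ} {k : ℕ} (hk : 1 ≤ k) (h : LUnit ℓ (κ ^ k)) : LUnit ℓ κ := by
  obtain ⟨m, a, b, hm, ha, hb, h⟩ := h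
  exact ⟨k * m, a, b, Nat.mul_pos hk hm, ha, hb, by rw [pow_mul]; exact h⟩

end LUnit

theorem isUnit_of_LUnit (ℓ : ℕ) [hℓ : Fact ℓ.Prime] (c : ℚ) (h : LUnit ℓ (c : ℂ)) :
    ∃ c' : Zl ℓ, IsUnit c' ∧ (c' : ℚ) = c := by
  obtain ⟨m, a, b, hm, ha, hb, h⟩ := h
  have hq : c ^ m * a = b := by exact_mod_cast h
  have ha0 : a ≠ 0 := fun h0 => ha (h0 ▸ dvd_zero _)
  have hb0 : b ≠ 0 := fun h0 => hb (h0 ▸ dvd_zero _)
  have hc0 : c ≠ 0 := by
    rintro rfl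
    rw [zero_pow (by omega), zero_mul] at hq
    exact hb0 (by exact_mod_cast hq.symm)
  have hva : padicValRat ℓ (a : ℚ) = 0 := by
    rw [padicValRat.of_nat]
    exact_mod_cast padicValNat.eq_zero_of_not_dvd ha
  have hvb : padicValRat ℓ (b : ℚ) = 0 := by
    rw [padicValRat.of_nat]
    exact_mod_cast padicValNat.eq_zero_of_not_dvd hb
  have hv : (m : ℤ) * padicValRat ℓ c = 0 := by
    have := congrArg (padicValRat ℓ) hq
    rw [padicValRat.mul (pow_ne_zero _ hc0) (by exact_mod_cast ha0), padicValRat.pow, hva,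
      hvb, add_zero] at this
    exact this
  have hvc : padicValRat ℓ c = 0 := by
    rcases mul_eq_zero.mp hv with h | h
    · exfalso; have : m = 0 := by exact_mod_cast h
      omega
    · exact h
  -- `v(c) = v(num) - v(den)` and `num`, `den` are coprime
  have hdef : (padicValInt ℓ c.num : ℤ) - (padicValNat ℓ c.den : ℤ) = 0 := by
    rw [← hvc]; rfl
  have hnum0 : c.num ≠ 0 := Rat.num_ne_zero.mpr hc0
  have hden : ¬ ℓ ∣ c.den := by
    intro hd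
    have h1 : 1 ≤ padicValNat ℓ c.den :=
      (dvd_iff_padicValNat_ne_zero c.den_nz).mp hd |> Nat.one_le_iff_ne_zero.mpr
    have h2 : 1 ≤ padicValInt ℓ c.num := by omega
    have h3 : (ℓ : ℤ) ∣ c.num := by
      by_contra hnd
      rw [padicValInt.eq_zero_of_not_dvd hnd] at h2
      omega
    have h4 : ℓ ∣ c.num.natAbs := Int.natCast_dvd.mp h3
    have := Nat.dvd_gcd h4 hd
    rw [c.reduced] at this
    exact hℓ.out.one_lt.ne' (Nat.dvd_one.mp this)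
  have hnum : ¬ (ℓ : ℤ) ∣ c.num := by
    intro hd
    have h1 : padicValNat ℓ c.den = 0 := padicValNat.eq_zero_of_not_dvd hden
    have h2 : padicValInt ℓ c.num = 0 := by omega
    have h3 : ℓ ∣ c.num.natAbs := Int.natCast_dvd.mp hd
    have h4 := (dvd_iff_padicValNat_ne_zero (Int.natAbs_ne_zero.mpr hnum0)).mp h3
    exact h4 h2
  have hmem : c ∈ GaloisRep.ratLocalizedAt ℓ := by
    rw [ZlRing.mem_iff, Nat.coprime_comm, Nat.Prime.coprime_iff_not_dvd hℓ.out]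
    exact hden
  have hmem' : c⁻¹ ∈ GaloisRep.ratLocalizedAt ℓ := by
    have h1 : c⁻¹ = (c.den : ℚ) * ((c.num : ℚ))⁻¹ := by
      conv_lhs => rw [← Rat.num_div_den c]
      rw [inv_div, div_eq_mul_inv]
    rw [h1]
    exact Subring.mul_mem _ (natCast_mem _ _) (ZlRing.inv_int_mem ℓ hnum)
  exact ⟨⟨c, hmem⟩, IsUnit.of_mul_eq_one ⟨c⁻¹, hmem'⟩ (Subtype.ext (by simp [hc0])), rfl⟩

end Fermat.Agent.S28

end
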