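import Fermat.Agent.S28.IntLaurent

/-!
# S28, U4 : constant term versus top coefficient (owner helper117)
-/

set_option autoImplicit false

noncomputable section

open ModularCurve Polynomial

namespace Fermat.Agent.S28

theorem lead_add_const (S : Type*) [CommRing S] (n w : ℕ) (hn : 1 ≤ n) (hw : 1 ≤ w)
    (χ : S[X][X]) (hmonic : χ.Monic) (hdeg : χ.natDegree = n)
    (hle : ∀ i ≤ n, (χ.coeff (n - i)).natDegree ≤ i * w)
    (u : LaurentSeries S) (hu : OrdGE u (((n - 1) * w : ℕ) : ℤ))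
    (hu1 : u.coeff (((n - 1) * w : ℕ) : ℤ) = 1)
    (h : χ.eval₂ (evalJ S) u = 0) :
    χ.coeff 0 = C (-(χ.coeff 1).coeff ((n - 1) * w)) := by
  obtain ⟨m, rfl⟩ : ∃ m, n = m + 1 := ⟨n - 1, by omega⟩
  simp only [Nat.add_sub_cancel] at hu hu1 ⊢
  have hT : ∀ k ≤ m + 1, OrdGE (evalJ S (χ.coeff k) * u ^ k)
      (((w : ℤ) * ((m : ℤ) + 1)) * ((k : ℤ) - 1)) := by
    intro k hk
    have h1 := hle (m + 1 - k) (Nat.sub_le _ _)
    rw [Nat.sub_sub_self hk] at h1
    have h2 := (ordGE_evalJ S (χ.coeff k) h1).mul (hu.pow k)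
    refine h2.mono (le_of_eq ?_)
    have h3 : ((m + 1 - k : ℕ) : ℤ) = (m : ℤ) + 1 - k := by
      rw [Nat.cast_sub hk]
      push_cast
      ring
    rw [Nat.cast_mul, Nat.cast_mul, h3]
    ring
  rw [eval₂_eq_sum_range, hdeg, Finset.sum_range_succ', Finset.sum_range_succ'] at h
  simp only [pow_zero, mul_one, pow_one, zero_add] at h
  have hR : OrdGE (∑ k ∈ Finset.range m, evalJ S (χ.coeff (k + 1 + 1)) * u ^ (k + 1 + 1)) 1 := by
    refine OrdGE.sum _ fun k hk => ?_
    have hk' := Finset.mem_range.mp hk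
    refine (hT (k + 1 + 1) (by omega)).mono ?_
    have h1 : (1 : ℤ) ≤ (w : ℤ) := by exact_mod_cast hw
    have h2 : (0 : ℤ) ≤ (m : ℤ) := Int.natCast_nonneg m
    have h3 : (0 : ℤ) ≤ (k : ℤ) := Int.natCast_nonneg k
    push_cast
    nlinarith [mul_nonneg h2 h3, mul_nonneg (sub_nonneg.mpr h1) h2,
      mul_nonneg (sub_nonneg.mpr h1) h3, mul_nonneg (mul_nonneg (sub_nonneg.mpr h1) h2) h3]
  have hT1 : OrdGE (evalJ S (χ.coeff 1) * u) 0 := by
    have := hT 1 (by omega)
    simpa using this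
  have h0 : evalJ S (χ.coeff 0) =
      -(∑ k ∈ Finset.range m, evalJ S (χ.coeff (k + 1 + 1)) * u ^ (k + 1 + 1) +
        evalJ S (χ.coeff 1) * u) := by
    linear_combination h
  have hO : OrdGE (evalJ S (χ.coeff 0)) 0 := by
    rw [h0]
    exact ((hR.mono (by norm_num)).add hT1).neg
  have hdeg0 : (χ.coeff 0).natDegree = 0 := by
    by_contra hne
    have hc := coeff_evalJ S (χ.coeff 0) le_rfl
    have hpos : 0 < (χ.coeff 0).natDegree := Nat.pos_of_ne_zero hne
    rw [hO _ (by omega)] at hc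
    have hz : χ.coeff 0 = 0 := leadingCoeff_eq_zero.mp hc.symm
    rw [hz] at hne
    simp at hne
  rw [eq_C_of_natDegree_eq_zero hdeg0]
  congr 1
  have hc0 := coeff_evalJ S (χ.coeff 0) (d := 0) (by omega)
  simp only [Nat.cast_zero, neg_zero] at hc0
  have hc1 : (evalJ S (χ.coeff 1) * u).coeff 0 = (χ.coeff 1).coeff (m * w) := by
    have h1 := hle m (by omega)
    simp only [Nat.add_sub_cancel_left] at h1
    have h2 := coeff_mul_of_ordGE (ordGE_evalJ S (χ.coeff 1) h1) hu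
    rw [neg_add_cancel, coeff_evalJ S _ h1, hu1, mul_one] at h2
    exact h2
  have h4 := congrArg (fun f => HahnSeries.coeff f 0) h0
  simp only [HahnSeries.coeff_neg, HahnSeries.coeff_add] at h4
  rw [hc0, hR 0 one_pos, hc1, zero_add] at h4
  exact h4

end Fermat.Agent.S28

end
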