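import Fermat.Agent.S28.IntLaurent
import Fermat.Agent.S28.Irr

/-!
# S28-U5: an equation over `ℂ` with the weighted shape and a rational root series is rational
-/

set_option autoImplicit false

noncomputable section

open ModularCurve Polynomial

namespace Fermat.Agent.S28

namespace RationalU5

/-- divisibility by an irreducible monic polynomial with a root (private copy of U3). -/
theorem dvd_of_root {A L : Type*} [CommRing A] [IsDomain A]
    [IsIntegrallyClosed A] [Field L] (φ : A →+* L) (hφ : Function.Injective φ) (u : L)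
    (χ : A[X]) (hirr : Irreducible χ) (hm : χ.Monic) (h : χ.eval₂ φ u = 0)
    (P : A[X]) (hP : P.eval₂ φ u = 0) : χ ∣ P := by
  let K := FractionRing A
  have hirrK : Irreducible (χ.map (algebraMap A K)) :=
    (Polynomial.Monic.irreducible_iff_irreducible_map_fraction_map hm).mp hirr
  let ψ : K →+* L := IsFractionRing.lift hφ
  have hψ : ψ.comp (algebraMap A K) = φ := by
    ext a
    exact IsFractionRing.lift_algebraMap hφ a
  have hχK : (χ.map (algebraMap A K)).eval₂ ψ u = 0 := by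
    rw [Polynomial.eval₂_map, hψ, h]
  have hPK : (P.map (algebraMap A K)).eval₂ ψ u = 0 := by
    rw [Polynomial.eval₂_map, hψ, hP]
  have hdvd : χ.map (algebraMap A K) ∣ P.map (algebraMap A K) := by
    rcases dvd_or_isCoprime _ (P.map (algebraMap A K)) hirrK with hd | hc
    · exact hd
    · exfalso
      obtain ⟨a, b, hab⟩ := hc
      have := congrArg (Polynomial.eval₂ ψ u) hab
      rw [Polynomial.eval₂_add, Polynomial.eval₂_mul, Polynomial.eval₂_mul, hχK, hPK,
        Polynomial.eval₂_one] at this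
      simp at this
  rw [← Polynomial.modByMonic_eq_zero_iff_dvd (hm.map _), ← Polynomial.map_modByMonic _ hm] at hdvd
  rw [← Polynomial.modByMonic_eq_zero_iff_dvd hm]
  exact (Polynomial.map_eq_zero_iff (IsFractionRing.injective A K)).mp hdvd

variable (π : ℂ →ₗ[ℚ] ℚ)

/-- coefficientwise `π` on `ℂ[X]`. -/
def piP : ℂ[X] →ₗ[ℚ] ℚ[X] :=
  Polynomial.lsum fun a => (Polynomial.monomial a : ℚ →ₗ[ℚ] ℚ[X]).comp π

theorem piP_monomial (a : ℕ) (c : ℂ) : piP π (monomial a c) = monomial a (π c) := by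
  simp [piP, Polynomial.lsum_apply, Polynomial.sum_monomial_index]

theorem coeff_piP (P : ℂ[X]) (a : ℕ) : (piP π P).coeff a = π (P.coeff a) := by
  induction P using Polynomial.induction_on' with
  | add p q hp hq => rw [map_add, coeff_add, hp, hq, coeff_add, map_add]
  | monomial n c =>
    rw [piP_monomial, coeff_monomial, coeff_monomial]
    split_ifs <;> simp

/-- coefficientwise `π` on `ℂ[X][X]`. -/
def piPP : ℂ[X][X] →ₗ[ℚ] ℚ[X][X] :=
  Polynomial.lsum fun i =>
    ((Polynomial.monomial i : ℚ[X] →ₗ[ℚ[X]] ℚ[X][X]).restrictScalars ℚ).comp (piP π)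

theorem piPP_monomial (i : ℕ) (Q : ℂ[X]) : piPP π (monomial i Q) = monomial i (piP π Q) := by
  simp [piPP, Polynomial.lsum_apply, Polynomial.sum_monomial_index]

theorem coeff_piPP (P : ℂ[X][X]) (i : ℕ) : (piPP π P).coeff i = piP π (P.coeff i) := by
  induction P using Polynomial.induction_on' with
  | add p q hp hq => rw [map_add, coeff_add, hp, hq, coeff_add, map_add]
  | monomial n c =>
    rw [piPP_monomial, coeff_monomial, coeff_monomial]
    split_ifs <;> simp

theorem key_inner (Q : ℂ[X]) (y : LaurentSeries ℚ) (k : ℤ) :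
    π ((evalJ ℂ Q * coeffMap (algebraMap ℚ ℂ) y).coeff k) = (evalJ ℚ (piP π Q) * y).coeff k := by
  induction Q using Polynomial.induction_on' with
  | add p q hp hq =>
    rw [map_add, add_mul, HahnSeries.coeff_add, map_add, hp, hq, map_add, map_add, add_mul,
      HahnSeries.coeff_add]
  | monomial a c =>
    rw [piP_monomial, ← Polynomial.C_mul_X_pow_eq_monomial, ← Polynomial.C_mul_X_pow_eq_monomial,
      map_mul, map_mul, map_pow, map_pow, evalJ_C, evalJ_C, evalJ_X, evalJ_X,
      ← coeffMap_jqModC (algebraMap ℚ ℂ), ← map_pow, mul_assoc, mul_assoc, ← map_mul,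
      HahnSeries.C_mul_eq_smul, HahnSeries.C_mul_eq_smul, HahnSeries.coeff_smul,
      HahnSeries.coeff_smul, coeffMap_coeff, smul_eq_mul, smul_eq_mul]
    have : c * (algebraMap ℚ ℂ) ((jqModC ℚ ^ a * y).coeff k) = (jqModC ℚ ^ a * y).coeff k • c := by
      rw [Algebra.smul_def, mul_comm]
    rw [this, map_smul, smul_eq_mul, mul_comm]

theorem key (P : ℂ[X][X]) (u : LaurentSeries ℚ) (k : ℤ) :
    π ((P.eval₂ (evalJ ℂ) (coeffMap (algebraMap ℚ ℂ) u)).coeff k)
      = ((piPP π P).eval₂ (evalJ ℚ) u).coeff k := by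
  induction P using Polynomial.induction_on' with
  | add p q hp hq =>
    rw [eval₂_add, HahnSeries.coeff_add, map_add, hp, hq, map_add, eval₂_add,
      HahnSeries.coeff_add]
  | monomial i Q =>
    rw [piPP_monomial, eval₂_monomial, eval₂_monomial, ← map_pow, key_inner]

end RationalU5

open RationalU5 in
theorem exists_rat_of_irreducible (χ : ℂ[X][X]) (hmonic : χ.Monic) (hirr : Irreducible χ)
    (u : LaurentSeries ℚ) (h : χ.eval₂ (evalJ ℂ) (coeffMap (algebraMap ℚ ℂ) u) = 0) :
    ∃ χ' : ℚ[X][X], χ'.map (Polynomial.mapRingHom (algebraMap ℚ ℂ)) = χ ∧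
      χ'.eval₂ (evalJ ℚ) u = 0 := by
  obtain ⟨π, hπ⟩ := LinearMap.exists_leftInverse_of_injective (Algebra.linearMap ℚ ℂ)
    (LinearMap.ker_eq_bot.mpr (algebraMap ℚ ℂ).injective)
  have hπ1 : π 1 = 1 := by
    have := LinearMap.congr_fun hπ 1
    simpa using this
  set χ1 : ℚ[X][X] := piPP π χ with hχ1
  have hdeg1 : χ1.natDegree ≤ χ.natDegree := by
    rw [natDegree_le_iff_coeff_eq_zero]
    intro m hm
    rw [hχ1, coeff_piPP, coeff_eq_zero_of_natDegree_lt hm, map_zero]
  have hone : piP π 1 = 1 := by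
    rw [← Polynomial.monomial_zero_one, piP_monomial, hπ1, Polynomial.monomial_zero_one]
  have hmonic1 : χ1.Monic := by
    refine monic_of_natDegree_le_of_coeff_eq_one _ hdeg1 ?_
    rw [hχ1, coeff_piPP, hmonic.coeff_natDegree, hone]
  have hroot1 : χ1.eval₂ (evalJ ℚ) u = 0 := by
    ext k
    rw [hχ1, ← key, h]
    simp
  have hcomp : (evalJ ℂ).comp (Polynomial.mapRingHom (algebraMap ℚ ℂ))
      = (coeffMap (algebraMap ℚ ℂ)).comp (evalJ ℚ) := by
    refine RingHom.ext fun P => ?_
    exact (coeffMap_evalJ (algebraMap ℚ ℂ) P).symm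
  have hroot : (χ1.map (Polynomial.mapRingHom (algebraMap ℚ ℂ))).eval₂ (evalJ ℂ)
      (coeffMap (algebraMap ℚ ℂ) u) = 0 := by
    rw [eval₂_map, hcomp, ← hom_eval₂, hroot1, map_zero]
  have hdvd := dvd_of_root (evalJ ℂ) (evalJ_injective ℂ) _ χ hirr hmonic h _ hroot
  refine ⟨χ1, ?_, hroot1⟩
  exact eq_of_monic_of_dvd_of_natDegree_le hmonic (hmonic1.map _) hdvd
    (le_trans natDegree_map_le hdeg1)

theorem exists_rat_of_complex (n w : ℕ) (hn : 1 ≤ n) (hw : 1 ≤ w) (χ : ℂ[X][X])
    (hmonic : χ.Monic) (hdeg : χ.natDegree = n)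
    (hle : ∀ i ≤ n, (χ.coeff (n - i)).natDegree ≤ i * w)
    (hlead : (χ.coeff 1).coeff ((n - 1) * w) ≠ 0) (hconst : IsUnit (χ.coeff 0))
    (u : LaurentSeries ℚ) (h : χ.eval₂ (evalJ ℂ) (coeffMap (algebraMap ℚ ℂ) u) = 0) :
    ∃ χ' : ℚ[X][X], χ'.map (Polynomial.mapRingHom (algebraMap ℚ ℂ)) = χ := by
  obtain ⟨χ', h1, -⟩ := exists_rat_of_irreducible χ hmonic
    (irreducible_of_weighted χ n w hn hw hmonic hdeg hle hlead hconst) u h
  exact ⟨χ', h1⟩

end Fermat.Agent.S28

end
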