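import Fermat.Agent.S28.Defs
import Fermat.Agent.S28.TensorDomain

/-!
# S28-T1 (bridge): `QEP A` (as in `Defs.lean`) implies that `A ⊗[ℤ_(ℓ)] K` is a domain

The content is proved in `TensorDomain.lean`; this file restates it verbatim in the shape used by
the project skeleton.
-/

set_option autoImplicit false

noncomputable section

open ModularCurve ModularCurve.IgusaScheme Polynomial
open scoped TensorProduct

namespace Fermat.Agent.S28

theorem isDomain_tensor_of_QEP (N : ℕ) [NeZero N] (ℓ : ℕ) [Fact ℓ.Prime]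
    (A : Subalgebra (Zl ℓ) ↥(modularFunctionFieldFull N)) (hA : QEP N ℓ A)
    (K : Type) [Field K] [CharP K ℓ] [Algebra (Zl ℓ) K] :
    IsDomain (↥A ⊗[Zl ℓ] K) :=
  TensorDomain.isDomain_tensor_of_QEP N ℓ K A ⟨hA.1, hA.2⟩

end Fermat.Agent.S28

end
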